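import Mathlib

/-!
# [MZ-J] / [J-QUOT]: the invariant differential is additive (pure field identities)

For a Weierstrass equation with coefficients killed by a derivation `d`, and two points
`(X₁, Y₁)`, `(X₂, Y₂)` with `X₁ ≠ X₂`, `d X_i = α_i ψ(X_i, Y_i)`, `d Y_i = α_i φ(X_i, Y_i)`,
the sum `(X₃, Y₃)` satisfies `d X₃ = (α₁ + α₂) ψ(X₃, Y₃)`, `d Y₃ = (α₁ + α₂) φ(X₃, Y₃)`.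
-/

set_option autoImplicit false
set_option linter.unusedSimpArgs false

namespace Fermat.Agent.MZ

theorem mzj_q_addLambda_X {F : Type*} [Field F] (a₁ a₂ a₃ a₄ a₆ X₁ Y₁ X₂ Y₂ α β : F)
    (h₁ : Y₁ ^ 2 + a₁ * X₁ * Y₁ + a₃ * Y₁ = X₁ ^ 3 + a₂ * X₁ ^ 2 + a₄ * X₁ + a₆)
    (h₂ : Y₂ ^ 2 + a₁ * X₂ * Y₂ + a₃ * Y₂ = X₂ ^ 3 + a₂ * X₂ ^ 2 + a₄ * X₂ + a₆)
    (hne : X₁ ≠ X₂) (l X₃ Y₃ dX₁ dY₁ dX₂ dY₂ dl dX₃ : F)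
    (hl : l = (Y₁ - Y₂) / (X₁ - X₂))
    (hX₃ : X₃ = l ^ 2 + a₁ * l - a₂ - X₁ - X₂)
    (hY₃ : Y₃ = -(l * (X₃ - X₁) + Y₁) - a₁ * X₃ - a₃)
    (hdX₁ : dX₁ = α * (2 * Y₁ + a₁ * X₁ + a₃))
    (hdY₁ : dY₁ = α * (3 * X₁ ^ 2 + 2 * a₂ * X₁ + a₄ - a₁ * Y₁))
    (hdX₂ : dX₂ = β * (2 * Y₂ + a₁ * X₂ + a₃))
    (hdY₂ : dY₂ = β * (3 * X₂ ^ 2 + 2 * a₂ * X₂ + a₄ - a₁ * Y₂))
    (hdl : dl = ((dY₁ - dY₂) * (X₁ - X₂) - (Y₁ - Y₂) * (dX₁ - dX₂)) / (X₁ - X₂) ^ 2)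
    (hdX₃ : dX₃ = (2 * l + a₁) * dl - dX₁ - dX₂) :
    dX₃ = (α + β) * (2 * Y₃ + a₁ * X₃ + a₃) := by
  have hd : X₁ - X₂ ≠ 0 := sub_ne_zero.mpr hne
  have ha₄ : a₄ = ((Y₁ ^ 2 + a₁ * X₁ * Y₁ + a₃ * Y₁ - X₁ ^ 3 - a₂ * X₁ ^ 2) -
      (Y₂ ^ 2 + a₁ * X₂ * Y₂ + a₃ * Y₂ - X₂ ^ 3 - a₂ * X₂ ^ 2)) / (X₁ - X₂) := by
    field_simp
    linear_combination h₂ - h₁
  subst hdX₃ hdl hdX₁ hdY₁ hdX₂ hdY₂ hY₃ hX₃ hl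
  clear h₁ h₂
  subst ha₄
  field_simp
  ring

theorem mzj_q_addLambda_Y {F : Type*} [Field F] (a₁ a₂ a₃ a₄ a₆ X₁ Y₁ X₂ Y₂ α β : F)
    (h₁ : Y₁ ^ 2 + a₁ * X₁ * Y₁ + a₃ * Y₁ = X₁ ^ 3 + a₂ * X₁ ^ 2 + a₄ * X₁ + a₆)
    (h₂ : Y₂ ^ 2 + a₁ * X₂ * Y₂ + a₃ * Y₂ = X₂ ^ 3 + a₂ * X₂ ^ 2 + a₄ * X₂ + a₆)
    (hne : X₁ ≠ X₂) (l X₃ Y₃ dX₁ dY₁ dX₂ dY₂ dl dX₃ dY₃ : F)
    (hl : l = (Y₁ - Y₂) / (X₁ - X₂))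
    (hX₃ : X₃ = l ^ 2 + a₁ * l - a₂ - X₁ - X₂)
    (hY₃ : Y₃ = -(l * (X₃ - X₁) + Y₁) - a₁ * X₃ - a₃)
    (hdX₁ : dX₁ = α * (2 * Y₁ + a₁ * X₁ + a₃))
    (hdY₁ : dY₁ = α * (3 * X₁ ^ 2 + 2 * a₂ * X₁ + a₄ - a₁ * Y₁))
    (hdX₂ : dX₂ = β * (2 * Y₂ + a₁ * X₂ + a₃))
    (hdY₂ : dY₂ = β * (3 * X₂ ^ 2 + 2 * a₂ * X₂ + a₄ - a₁ * Y₂))
    (hdl : dl = ((dY₁ - dY₂) * (X₁ - X₂) - (Y₁ - Y₂) * (dX₁ - dX₂)) / (X₁ - X₂) ^ 2)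
    (hdX₃ : dX₃ = (2 * l + a₁) * dl - dX₁ - dX₂)
    (hdY₃ : dY₃ = -(dl * (X₃ - X₁) + l * (dX₃ - dX₁) + dY₁) - a₁ * dX₃) :
    dY₃ = (α + β) * (3 * X₃ ^ 2 + 2 * a₂ * X₃ + a₄ - a₁ * Y₃) := by
  have hd : X₁ - X₂ ≠ 0 := sub_ne_zero.mpr hne
  have ha₄ : a₄ = ((Y₁ ^ 2 + a₁ * X₁ * Y₁ + a₃ * Y₁ - X₁ ^ 3 - a₂ * X₁ ^ 2) -
      (Y₂ ^ 2 + a₁ * X₂ * Y₂ + a₃ * Y₂ - X₂ ^ 3 - a₂ * X₂ ^ 2)) / (X₁ - X₂) := by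
    field_simp
    linear_combination h₂ - h₁
  subst hdY₃ hdX₃ hdl hdX₁ hdY₁ hdX₂ hdY₂ hY₃ hX₃ hl
  clear h₁ h₂
  subst ha₄
  field_simp
  ring

section der

variable {K F : Type*} [Field K] [Field F] [Algebra K F] (D : Derivation K F F)

theorem mzj_q_der_slope (X₁ Y₁ X₂ Y₂ : F) :
    D ((Y₁ - Y₂) / (X₁ - X₂)) =
      ((D Y₁ - D Y₂) * (X₁ - X₂) - (Y₁ - Y₂) * (D X₁ - D X₂)) / (X₁ - X₂) ^ 2 := by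
  rw [Derivation.leibniz_div, map_sub, map_sub, smul_eq_mul, smul_eq_mul, smul_eq_mul]
  rw [div_eq_mul_inv, inv_pow]
  ring

theorem mzj_q_der_addX (a₁ a₂ : K) (l X₁ X₂ : F) :
    D (l ^ 2 + algebraMap K F a₁ * l - algebraMap K F a₂ - X₁ - X₂) =
      (2 * l + algebraMap K F a₁) * D l - D X₁ - D X₂ := by
  simp only [map_sub, map_add, Derivation.leibniz, Derivation.leibniz_pow,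
    Derivation.map_algebraMap, smul_eq_mul, smul_zero, add_zero, sub_zero, nsmul_eq_mul]
  push_cast
  ring

theorem mzj_q_der_addY (a₁ a₃ : K) (l X₁ X₃ Y₁ : F) :
    D (-(l * (X₃ - X₁) + Y₁) - algebraMap K F a₁ * X₃ - algebraMap K F a₃) =
      -(D l * (X₃ - X₁) + l * (D X₃ - D X₁) + D Y₁) - algebraMap K F a₁ * D X₃ := by
  simp only [map_sub, map_add, map_neg, Derivation.leibniz, Derivation.map_algebraMap,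
    smul_eq_mul, smul_zero, add_zero, sub_zero]
  ring

end der

end Fermat.Agent.MZ
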