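import Mathlib
import Fermat.Agent.S58.Fun.Eval

/-!
# [MZ-J] / [J-QUOT]: the generic point of a Weierstrass curve and the translation automorphisms
of its function field

`W` a Weierstrass curve over a commutative ring `S`, `K` an algebraically closed field over `S`.
`mzj_q_FF W K` is the function field of `W` over `K`, `mzj_q_gen` the generic point `(x, y)`,
`mzj_q_tau W K P` (for `P` a `K`-point) the `K`-automorphism "translation by `P`" of the function
field: it sends the generic point `g` to `g + P`.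
-/

set_option autoImplicit false
set_option linter.unusedSectionVars false

namespace Fermat.Agent.MZ

open WeierstrassCurve WeierstrassCurve.Affine Polynomial
open Fermat.Agent.S58

open scoped Polynomial.Bivariate

variable {S : Type*} [CommRing S] (W : WeierstrassCurve S)
  (K : Type*) [Field K] [Algebra S K]

/-- The coordinate ring of `W` over `K`. -/
abbrev mzj_q_R : Type _ := (W⁄K).toAffine.CoordinateRing

/-- The function field of `W` over `K`. -/
abbrev mzj_q_FF : Type _ := (W⁄K).toAffine.FunctionField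

noncomputable instance mzj_q_decEqFF : DecidableEq (mzj_q_FF W K) := Classical.decEq _

/-- The coordinate function `x`. -/
noncomputable def mzj_q_x : mzj_q_FF W K := algebraMap K[X] (mzj_q_FF W K) X

/-- The coordinate function `y`. -/
noncomputable def mzj_q_y : mzj_q_FF W K :=
  algebraMap (mzj_q_R W K) (mzj_q_FF W K) (CoordinateRing.mk _ Y)

theorem mzj_q_x_eq : mzj_q_x W K =
    algebraMap (mzj_q_R W K) (mzj_q_FF W K) (CoordinateRing.mk _ (C X)) := by
  unfold mzj_q_x
  rw [IsScalarTower.algebraMap_apply K[X] (mzj_q_R W K) (mzj_q_FF W K)]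
  rfl

theorem mzj_q_algebraMap_C (a : K) :
    algebraMap K[X] (mzj_q_FF W K) (C a) = algebraMap K (mzj_q_FF W K) a := by
  rw [IsScalarTower.algebraMap_apply K K[X] (mzj_q_FF W K), Polynomial.algebraMap_eq]

theorem mzj_q_algebraMap_poly (p : K[X]) :
    algebraMap K[X] (mzj_q_FF W K) p = aeval (mzj_q_x W K) p := by
  induction p using Polynomial.induction_on' with
  | add p q hp hq => rw [map_add, map_add, hp, hq]
  | monomial n a =>
    rw [← C_mul_X_pow_eq_monomial, map_mul, map_mul, map_pow, map_pow, aeval_X, aeval_C,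
      mzj_q_algebraMap_C]
    rfl

theorem mzj_q_polyInj : Function.Injective (algebraMap K[X] (mzj_q_FF W K)) := by
  rw [IsScalarTower.algebraMap_eq K[X] (mzj_q_R W K) (mzj_q_FF W K)]
  exact (IsFractionRing.injective (mzj_q_R W K) (mzj_q_FF W K)).comp
    (FaithfulSMul.algebraMap_injective K[X] (mzj_q_R W K))

theorem mzj_q_x_transcendental : Transcendental K (mzj_q_x W K) := by
  rw [transcendental_iff]
  intro p hp
  rw [← mzj_q_algebraMap_poly] at hp
  exact mzj_q_polyInj W K (hp.trans (map_zero _).symm)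

theorem mzj_q_baseChange_eq : (W⁄(mzj_q_FF W K)) = ((W⁄K)⁄(mzj_q_FF W K)) := by
  show WeierstrassCurve.map W _ = WeierstrassCurve.map (WeierstrassCurve.map W _) _
  rw [WeierstrassCurve.map_map]
  congr 1

theorem mzj_q_a₁_eq : (W⁄(mzj_q_FF W K)).a₁ = algebraMap K (mzj_q_FF W K) (W⁄K).a₁ := by
  rw [mzj_q_baseChange_eq]; rfl

theorem mzj_q_a₂_eq : (W⁄(mzj_q_FF W K)).a₂ = algebraMap K (mzj_q_FF W K) (W⁄K).a₂ := by
  rw [mzj_q_baseChange_eq]; rfl

theorem mzj_q_a₃_eq : (W⁄(mzj_q_FF W K)).a₃ = algebraMap K (mzj_q_FF W K) (W⁄K).a₃ := by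
  rw [mzj_q_baseChange_eq]; rfl

theorem mzj_q_a₄_eq : (W⁄(mzj_q_FF W K)).a₄ = algebraMap K (mzj_q_FF W K) (W⁄K).a₄ := by
  rw [mzj_q_baseChange_eq]; rfl

theorem mzj_q_a₆_eq : (W⁄(mzj_q_FF W K)).a₆ = algebraMap K (mzj_q_FF W K) (W⁄K).a₆ := by
  rw [mzj_q_baseChange_eq]; rfl

/-- Constants of `K` inside the function field, through the coordinate ring. -/
theorem mzj_q_algebraMap_const (c : K) :
    algebraMap (mzj_q_R W K) (mzj_q_FF W K) (CoordinateRing.mk _ (C (C c))) =
      algebraMap K (mzj_q_FF W K) c := by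
  rw [IsScalarTower.algebraMap_apply K (mzj_q_R W K) (mzj_q_FF W K)]
  rfl

/-- The explicit Weierstrass equation satisfied by `x`, `y` in the function field. -/
theorem mzj_q_eqAt_gen : s58f_EqAt (W⁄K).toAffine (mzj_q_x W K) (mzj_q_y W K) := by
  unfold s58f_EqAt
  have h0 : CoordinateRing.mk (W⁄K).toAffine (W⁄K).toAffine.polynomial = 0 := AdjoinRoot.mk_self
  have := congrArg (algebraMap (mzj_q_R W K) (mzj_q_FF W K)) h0
  rw [map_zero] at this
  simp only [Affine.polynomial, map_add, map_sub, map_mul, map_pow, mzj_q_algebraMap_const] at this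
  rw [mzj_q_x_eq, mzj_q_y]
  linear_combination this

theorem mzj_q_eqAt_iff (u v : mzj_q_FF W K) :
    s58f_EqAt (W⁄K).toAffine u v ↔ (W⁄(mzj_q_FF W K)).toAffine.Equation u v := by
  rw [Affine.equation_iff, mzj_q_a₁_eq, mzj_q_a₂_eq, mzj_q_a₃_eq, mzj_q_a₄_eq, mzj_q_a₆_eq]
  rfl

variable [W.IsElliptic]

instance mzj_q_isElliptic_K : (W⁄K).IsElliptic :=
  inferInstanceAs (WeierstrassCurve.map W (algebraMap S K)).IsElliptic

instance mzj_q_isElliptic_FF : (W⁄(mzj_q_FF W K)).IsElliptic :=
  inferInstanceAs (WeierstrassCurve.map W (algebraMap S (mzj_q_FF W K))).IsElliptic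

theorem mzj_q_nonsingular_gen :
    (W⁄(mzj_q_FF W K)).toAffine.Nonsingular (mzj_q_x W K) (mzj_q_y W K) :=
  (Affine.equation_iff_nonsingular).mp ((mzj_q_eqAt_iff W K _ _).mp (mzj_q_eqAt_gen W K))

/-- The generic point. -/
noncomputable def mzj_q_gen : (W⁄(mzj_q_FF W K)).Point :=
  Point.some (mzj_q_x W K) (mzj_q_y W K) (mzj_q_nonsingular_gen W K)

variable [DecidableEq K]

/-- Constant points. -/
noncomputable def mzj_q_cst : (W⁄K).Point →+ (W⁄(mzj_q_FF W K)).Point :=
  Point.map (W' := W) (Algebra.ofId K (mzj_q_FF W K))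

theorem mzj_q_cst_injective : Function.Injective (mzj_q_cst W K) :=
  Point.map_injective (W' := W) (Algebra.ofId K (mzj_q_FF W K))

theorem mzj_q_cst_some {a b : K} (h : (W⁄K).toAffine.Nonsingular a b) :
    mzj_q_cst W K (Point.some a b h) =
      Point.some (algebraMap K (mzj_q_FF W K) a) (algebraMap K (mzj_q_FF W K) b)
        ((Affine.baseChange_nonsingular (W := W) (f := Algebra.ofId K (mzj_q_FF W K))
          (Algebra.ofId K (mzj_q_FF W K)).injective a b).mpr h) := rfl

/-- Every `K`-algebra endomorphism of the function field fixes the constant points. -/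
theorem mzj_q_map_cst (f : mzj_q_FF W K →ₐ[K] mzj_q_FF W K) (P : (W⁄K).Point) :
    Point.map (W' := W) f (mzj_q_cst W K P) = mzj_q_cst W K P := by
  unfold mzj_q_cst
  rw [Point.map_map]
  have : f.comp (Algebra.ofId K (mzj_q_FF W K)) = Algebra.ofId K (mzj_q_FF W K) :=
    Subsingleton.elim _ _
  rw [this]

variable [IsAlgClosed K]

/-- A point with constant `x`-coordinate is constant. -/
theorem mzj_q_const_of_x {u v : mzj_q_FF W K}
    (h : (W⁄(mzj_q_FF W K)).toAffine.Nonsingular u v) {a : K}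
    (ha : algebraMap K (mzj_q_FF W K) a = u) :
    ∃ P : (W⁄K).Point, mzj_q_cst W K P = Point.some u v h := by
  subst ha
  obtain ⟨b, rfl⟩ := s58f_y_const (W⁄K).toAffine ((mzj_q_eqAt_iff W K _ _).mpr h.1)
  have h0 : (W⁄K).toAffine.Nonsingular a b :=
    (Affine.baseChange_nonsingular (W := W) (f := Algebra.ofId K (mzj_q_FF W K))
      (Algebra.ofId K (mzj_q_FF W K)).injective a b).mp h
  exact ⟨Point.some a b h0, rfl⟩

/-- A non-constant affine point has transcendental `x`-coordinate. -/
theorem mzj_q_transcendental_of_not_const {u v : mzj_q_FF W K}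
    (h : (W⁄(mzj_q_FF W K)).toAffine.Nonsingular u v)
    (hQ : ∀ P : (W⁄K).Point, mzj_q_cst W K P ≠ Point.some u v h) : Transcendental K u :=
  s58f_transcendental_of_not_mem_range fun _ ha => by
    obtain ⟨P, hP⟩ := mzj_q_const_of_x W K h ha
    exact hQ P hP

/-- The generic point is not constant. -/
theorem mzj_q_gen_not_const (P : (W⁄K).Point) : mzj_q_cst W K P ≠ mzj_q_gen W K := by
  rcases P with _ | ⟨a, b, h⟩
  · intro h0
    exact (Point.some_ne_zero _) h0.symm
  · intro h0
    rw [mzj_q_cst_some, mzj_q_gen] at h0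
    have h1 := (Point.some.inj h0).1
    have htr := mzj_q_x_transcendental W K
    rw [← h1] at htr
    exact htr (isAlgebraic_algebraMap a)

/-- Ring homomorphisms out of the function field are determined by their values on the
constants, on `x` and on `y`. -/
theorem mzj_q_ringHom_ext {T : Type*} [CommRing T] (f g : mzj_q_FF W K →+* T)
    (hc : ∀ c : K, f (algebraMap K _ c) = g (algebraMap K _ c))
    (hx : f (mzj_q_x W K) = g (mzj_q_x W K)) (hy : f (mzj_q_y W K) = g (mzj_q_y W K)) :
    f = g := by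
  apply IsLocalization.ringHom_ext (nonZeroDivisors (mzj_q_R W K))
  apply Ideal.Quotient.ringHom_ext
  apply Polynomial.ringHom_ext
  · intro p
    induction p using Polynomial.induction_on' with
    | add p q hp hq =>
      rw [C_add, map_add, map_add, hp, hq]
    | monomial n a =>
      have h1 : (C (monomial n a) : K[X][Y]) = C (C a) * C X ^ n := by
        rw [← C_mul_X_pow_eq_monomial, C_mul, C_pow]
      rw [h1, map_mul, map_mul, map_pow, map_pow]
      have h2 : ∀ h : mzj_q_FF W K →+* T,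
          ((h.comp (algebraMap (mzj_q_R W K) (mzj_q_FF W K))).comp
            (Ideal.Quotient.mk (Ideal.span {(W⁄K).toAffine.polynomial}))) (C (C a)) =
          h (algebraMap K _ a) := by
        intro h
        show h (algebraMap (mzj_q_R W K) (mzj_q_FF W K) (CoordinateRing.mk _ (C (C a)))) = _
        rw [mzj_q_algebraMap_const]
      have h3 : ∀ h : mzj_q_FF W K →+* T,
          ((h.comp (algebraMap (mzj_q_R W K) (mzj_q_FF W K))).comp
            (Ideal.Quotient.mk (Ideal.span {(W⁄K).toAffine.polynomial}))) (C X) =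
          h (mzj_q_x W K) := by
        intro h
        show h (algebraMap (mzj_q_R W K) (mzj_q_FF W K) (CoordinateRing.mk _ (C X))) = _
        rw [← mzj_q_x_eq]
      exact congrArg₂ (· * ·) ((h2 f).trans ((hc a).trans (h2 g).symm))
        (congrArg (· ^ n) ((h3 f).trans (hx.trans (h3 g).symm)))
  · show f (mzj_q_y W K) = g (mzj_q_y W K)
    exact hy

theorem mzj_q_algHom_ext (f g : mzj_q_FF W K →ₐ[K] mzj_q_FF W K)
    (hx : f (mzj_q_x W K) = g (mzj_q_x W K)) (hy : f (mzj_q_y W K) = g (mzj_q_y W K)) :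
    f = g := by
  have h := mzj_q_ringHom_ext W K (f : mzj_q_FF W K →+* mzj_q_FF W K) g
    (fun c => by simp) hx hy
  exact AlgHom.coe_ringHom_injective h

theorem mzj_q_algHom_ext_gen (f g : mzj_q_FF W K →ₐ[K] mzj_q_FF W K)
    (h : Point.map (W' := W) f (mzj_q_gen W K) = Point.map (W' := W) g (mzj_q_gen W K)) :
    f = g := by
  unfold mzj_q_gen at h
  rw [Point.map_some, Point.map_some] at h
  exact mzj_q_algHom_ext W K f g (Point.some.inj h).1 (Point.some.inj h).2

open Classical in
/-- Evaluation of the function field at a point over the function field (the identity for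
constant points, which is a junk value). -/
noncomputable def mzj_q_theta :
    (W⁄(mzj_q_FF W K)).Point → (mzj_q_FF W K →ₐ[K] mzj_q_FF W K)
  | .zero => AlgHom.id K _
  | .some u v h =>
    if htr : Transcendental K u then
      s58f_thetaK (W⁄K).toAffine ((mzj_q_eqAt_iff W K u v).mpr h.1) htr
    else AlgHom.id K _

theorem mzj_q_map_theta_gen (T : (W⁄(mzj_q_FF W K)).Point)
    (hT : ∀ P : (W⁄K).Point, mzj_q_cst W K P ≠ T) :
    Point.map (W' := W) (mzj_q_theta W K T) (mzj_q_gen W K) = T := by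
  rcases T with _ | ⟨u, v, h⟩
  · exact absurd (map_zero (mzj_q_cst W K)) (hT 0)
  · have htr := mzj_q_transcendental_of_not_const W K h hT
    unfold mzj_q_gen
    rw [Point.map_some]
    have hθ : mzj_q_theta W K (Point.some u v h) =
        s58f_thetaK (W⁄K).toAffine ((mzj_q_eqAt_iff W K u v).mpr h.1) htr := by
      simp only [mzj_q_theta]
      rw [dif_pos htr]
    simp only [Point.some.injEq]
    rw [hθ]
    constructor
    · unfold mzj_q_x
      rw [s58f_thetaK_poly (W⁄K).toAffine ((mzj_q_eqAt_iff W K u v).mpr h.1) htr, aeval_X]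
    · unfold mzj_q_y
      rw [s58f_thetaK_algebraMap (W⁄K).toAffine ((mzj_q_eqAt_iff W K u v).mpr h.1) htr,
        s58f_thetaC_mkY]

theorem mzj_q_gen_add_not_const (P P' : (W⁄K).Point) :
    mzj_q_cst W K P' ≠ mzj_q_gen W K + mzj_q_cst W K P := by
  intro h
  apply mzj_q_gen_not_const W K (P' - P)
  rw [map_sub, h, add_sub_cancel_right]

/-- Translation by a `K`-point, as a `K`-algebra endomorphism of the function field. -/
noncomputable def mzj_q_tau (P : (W⁄K).Point) : mzj_q_FF W K →ₐ[K] mzj_q_FF W K :=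
  mzj_q_theta W K (mzj_q_gen W K + mzj_q_cst W K P)

theorem mzj_q_map_tau_gen (P : (W⁄K).Point) :
    Point.map (W' := W) (mzj_q_tau W K P) (mzj_q_gen W K) = mzj_q_gen W K + mzj_q_cst W K P :=
  mzj_q_map_theta_gen W K _ (fun P' => mzj_q_gen_add_not_const W K P P')

theorem mzj_q_tau_comp (P Q : (W⁄K).Point) :
    (mzj_q_tau W K P).comp (mzj_q_tau W K Q) = mzj_q_tau W K (P + Q) := by
  apply mzj_q_algHom_ext_gen
  rw [← Point.map_map, mzj_q_map_tau_gen, map_add, mzj_q_map_tau_gen, mzj_q_map_cst,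
    mzj_q_map_tau_gen, map_add, add_assoc]

theorem mzj_q_tau_zero : mzj_q_tau W K 0 = AlgHom.id K _ := by
  apply mzj_q_algHom_ext_gen
  rw [mzj_q_map_tau_gen, map_zero, add_zero]
  unfold mzj_q_gen
  rw [Point.map_some]
  rfl

theorem mzj_q_tau_tau (P Q : (W⁄K).Point) (z : mzj_q_FF W K) :
    mzj_q_tau W K P (mzj_q_tau W K Q z) = mzj_q_tau W K (P + Q) z := by
  rw [← mzj_q_tau_comp]
  rfl

theorem mzj_q_tau_neg_tau (P : (W⁄K).Point) (z : mzj_q_FF W K) :
    mzj_q_tau W K (-P) (mzj_q_tau W K P z) = z := by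
  rw [mzj_q_tau_tau, neg_add_cancel, mzj_q_tau_zero]
  rfl

theorem mzj_q_tau_tau_neg (P : (W⁄K).Point) (z : mzj_q_FF W K) :
    mzj_q_tau W K P (mzj_q_tau W K (-P) z) = z := by
  rw [mzj_q_tau_tau, add_neg_cancel, mzj_q_tau_zero]
  rfl

theorem mzj_q_tau_comm (P Q : (W⁄K).Point) (z : mzj_q_FF W K) :
    mzj_q_tau W K P (mzj_q_tau W K Q z) = mzj_q_tau W K Q (mzj_q_tau W K P z) := by
  rw [mzj_q_tau_tau, mzj_q_tau_tau, add_comm]

theorem mzj_q_tau_injective (P : (W⁄K).Point) : Function.Injective (mzj_q_tau W K P) :=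
  (mzj_q_tau W K P).toRingHom.injective

end Fermat.Agent.MZ
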