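import Mathlib
import Fermat.Agent.MZ.J.Quot.Generic

/-!
# [MZ-J] / [J-QUOT]: the pole order at infinity on the function field of a Weierstrass curve

`mzj_q_D W K u : ℤ` is the order of the pole of `u` at the point at infinity (`D x = 2`,
`D y = 3`, `D c = 0` for constants), defined through the degree of the norm to `K[X]`.
It is additive on products and satisfies the ultrametric inequality.
-/

set_option autoImplicit false
set_option linter.unusedSectionVars false
set_option linter.unusedSimpArgs false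

namespace Fermat.Agent.MZ

open WeierstrassCurve WeierstrassCurve.Affine Polynomial
open Fermat.Agent.S58

open scoped Polynomial.Bivariate

variable {S : Type*} [CommRing S] (W : WeierstrassCurve S)
  (K : Type*) [Field K] [Algebra S K]

theorem mzj_q_two_nsmul_eq_bot {a : WithBot ℕ} (h : 2 • a = ⊥) : a = ⊥ := by
  induction a using WithBot.recBotCoe with
  | bot => rfl
  | coe a =>
    rw [← WithBot.coe_nsmul] at h
    exact absurd h WithBot.coe_ne_bot

/-- The degree of the norm of an element of the coordinate ring. -/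
noncomputable def mzj_q_dR (A : mzj_q_R W K) : ℕ := (Algebra.norm K[X] A).natDegree

theorem mzj_q_norm_ne_zero {A : mzj_q_R W K} (hA : A ≠ 0) : Algebra.norm K[X] A ≠ 0 := by
  obtain ⟨p, q, rfl⟩ := CoordinateRing.exists_smul_basis_eq A
  intro h0
  have h1 := CoordinateRing.degree_norm_smul_basis (W' := (W⁄K).toAffine) p q
  rw [h0, degree_zero] at h1
  have hp : p = 0 := by
    by_contra hp
    have : (2 • p.degree) ≤ (⊥ : WithBot ℕ) := h1 ▸ le_max_left _ _
    rw [le_bot_iff] at this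
    exact hp (degree_eq_bot.mp (mzj_q_two_nsmul_eq_bot this))
  have hq : q = 0 := by
    by_contra hq
    have : (2 • q.degree + 3) ≤ (⊥ : WithBot ℕ) := h1 ▸ le_max_right _ _
    rw [le_bot_iff] at this
    rcases WithBot.add_eq_bot.mp this with h | h
    · exact hq (degree_eq_bot.mp (mzj_q_two_nsmul_eq_bot h))
    · exact absurd h (by simp)
  apply hA
  rw [hp, hq, zero_smul, zero_smul, add_zero]

theorem mzj_q_dR_mul {A B : mzj_q_R W K} (hA : A ≠ 0) (hB : B ≠ 0) :
    mzj_q_dR W K (A * B) = mzj_q_dR W K A + mzj_q_dR W K B := by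
  unfold mzj_q_dR
  rw [map_mul, natDegree_mul (mzj_q_norm_ne_zero W K hA) (mzj_q_norm_ne_zero W K hB)]

theorem mzj_q_dR_poly (p : K[X]) :
    mzj_q_dR W K (algebraMap K[X] (mzj_q_R W K) p) = 2 * p.natDegree := by
  unfold mzj_q_dR
  rw [Algebra.norm_algebraMap, Module.finrank_eq_card_basis (CoordinateRing.basis (W⁄K).toAffine),
    Fintype.card_fin, natDegree_pow]

theorem mzj_q_degree_norm_add_le (A B : mzj_q_R W K) :
    (Algebra.norm K[X] (A + B)).degree ≤
      max (Algebra.norm K[X] A).degree (Algebra.norm K[X] B).degree := by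
  obtain ⟨p, q, rfl⟩ := CoordinateRing.exists_smul_basis_eq A
  obtain ⟨p', q', rfl⟩ := CoordinateRing.exists_smul_basis_eq B
  have h : p • (1 : mzj_q_R W K) + q • CoordinateRing.mk _ Y +
      (p' • (1 : mzj_q_R W K) + q' • CoordinateRing.mk _ Y) =
      (p + p') • (1 : mzj_q_R W K) + (q + q') • CoordinateRing.mk _ Y := by
    rw [add_smul, add_smul]; abel
  rw [h, CoordinateRing.degree_norm_smul_basis, CoordinateRing.degree_norm_smul_basis,
    CoordinateRing.degree_norm_smul_basis]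
  have h1 : 2 • (p + p').degree ≤ max (2 • p.degree) (2 • p'.degree) := by
    rcases le_total p.degree p'.degree with h | h
    · rw [max_eq_right (nsmul_le_nsmul_right h 2)]
      exact nsmul_le_nsmul_right ((degree_add_le p p').trans (max_le h le_rfl)) 2
    · rw [max_eq_left (nsmul_le_nsmul_right h 2)]
      exact nsmul_le_nsmul_right ((degree_add_le p p').trans (max_le le_rfl h)) 2
  have h2 : 2 • (q + q').degree + 3 ≤ max (2 • q.degree + 3) (2 • q'.degree + 3) := by
    rcases le_total q.degree q'.degree with h | h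
    · rw [max_eq_right (add_le_add_left (nsmul_le_nsmul_right h 2) 3)]
      exact add_le_add_left
        (nsmul_le_nsmul_right ((degree_add_le q q').trans (max_le h le_rfl)) 2) 3
    · rw [max_eq_left (add_le_add_left (nsmul_le_nsmul_right h 2) 3)]
      exact add_le_add_left
        (nsmul_le_nsmul_right ((degree_add_le q q').trans (max_le le_rfl h)) 2) 3
  refine max_le (h1.trans ?_) (h2.trans ?_)
  · exact max_le (le_max_of_le_left (le_max_left _ _)) (le_max_of_le_right (le_max_left _ _))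
  · exact max_le (le_max_of_le_left (le_max_right _ _)) (le_max_of_le_right (le_max_right _ _))

theorem mzj_q_dR_add_le (A B : mzj_q_R W K) :
    mzj_q_dR W K (A + B) ≤ max (mzj_q_dR W K A) (mzj_q_dR W K B) := by
  unfold mzj_q_dR
  have h := mzj_q_degree_norm_add_le W K A B
  rcases le_total (Algebra.norm K[X] A).degree (Algebra.norm K[X] B).degree with h1 | h1
  · rw [max_eq_right h1] at h
    exact le_max_of_le_right (natDegree_le_natDegree h)
  · rw [max_eq_left h1] at h
    exact le_max_of_le_left (natDegree_le_natDegree h)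

/-- Every element of the function field is `A / n(x)` with `A` in the coordinate ring. -/
theorem mzj_q_exists_rep (u : mzj_q_FF W K) :
    ∃ (A : mzj_q_R W K) (n : K[X]), n ≠ 0 ∧
      u * algebraMap K[X] (mzj_q_FF W K) n = algebraMap (mzj_q_R W K) (mzj_q_FF W K) A := by
  obtain ⟨c, d, hd, rfl⟩ := IsFractionRing.div_surjective (A := mzj_q_R W K) u
  have hd0 : d ≠ 0 := nonZeroDivisors.ne_zero hd
  obtain ⟨n, hn0, hn⟩ := s58f_exists_nrm (W⁄K).toAffine d hd0
  refine ⟨c * s58f_iotaC (W⁄K).toAffine d, n, hn0, ?_⟩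
  have hdK : algebraMap (mzj_q_R W K) (mzj_q_FF W K) d ≠ 0 := fun h =>
    hd0 (IsFractionRing.injective (mzj_q_R W K) (mzj_q_FF W K) (h.trans (map_zero _).symm))
  rw [IsScalarTower.algebraMap_apply K[X] (mzj_q_R W K) (mzj_q_FF W K), ← hn, map_mul, map_mul]
  field_simp

theorem mzj_q_algebraMap_R_ne_zero {A : mzj_q_R W K} (hA : A ≠ 0) :
    algebraMap (mzj_q_R W K) (mzj_q_FF W K) A ≠ 0 := fun h =>
  hA (IsFractionRing.injective (mzj_q_R W K) (mzj_q_FF W K) (h.trans (map_zero _).symm))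

theorem mzj_q_algebraMap_poly_ne_zero {n : K[X]} (hn : n ≠ 0) :
    algebraMap K[X] (mzj_q_FF W K) n ≠ 0 := fun h =>
  hn (mzj_q_polyInj W K (h.trans (map_zero _).symm))

/-- A chosen numerator. -/
noncomputable def mzj_q_repA (u : mzj_q_FF W K) : mzj_q_R W K :=
  (mzj_q_exists_rep W K u).choose

/-- A chosen denominator. -/
noncomputable def mzj_q_repN (u : mzj_q_FF W K) : K[X] :=
  (mzj_q_exists_rep W K u).choose_spec.choose

theorem mzj_q_rep_spec (u : mzj_q_FF W K) : mzj_q_repN W K u ≠ 0 ∧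
    u * algebraMap K[X] (mzj_q_FF W K) (mzj_q_repN W K u) =
      algebraMap (mzj_q_R W K) (mzj_q_FF W K) (mzj_q_repA W K u) :=
  (mzj_q_exists_rep W K u).choose_spec.choose_spec

open Classical in
/-- The pole order at infinity. -/
noncomputable def mzj_q_D (u : mzj_q_FF W K) : ℤ :=
  if u = 0 then 0 else
    (mzj_q_dR W K (mzj_q_repA W K u) : ℤ) - 2 * ((mzj_q_repN W K u).natDegree : ℤ)

theorem mzj_q_D_zero : mzj_q_D W K 0 = 0 := by
  unfold mzj_q_D
  rw [if_pos rfl]

/-- The pole order at infinity can be computed from any representation `u = A / n(x)`. -/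
theorem mzj_q_D_eq {u : mzj_q_FF W K} {A : mzj_q_R W K} {n : K[X]} (hn : n ≠ 0) (hA : A ≠ 0)
    (h : u * algebraMap K[X] (mzj_q_FF W K) n = algebraMap (mzj_q_R W K) (mzj_q_FF W K) A) :
    mzj_q_D W K u = (mzj_q_dR W K A : ℤ) - 2 * (n.natDegree : ℤ) := by
  have hu : u ≠ 0 := by
    rintro rfl
    rw [zero_mul] at h
    exact mzj_q_algebraMap_R_ne_zero W K hA h.symm
  unfold mzj_q_D
  rw [if_neg hu]
  obtain ⟨hn₀, h₀⟩ := mzj_q_rep_spec W K u
  generalize mzj_q_repA W K u = A₀ at h₀ ⊢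
  generalize mzj_q_repN W K u = n₀ at hn₀ h₀ ⊢
  have hA₀ : A₀ ≠ 0 := by
    intro h0
    rw [h0, map_zero] at h₀
    rcases mul_eq_zero.mp h₀ with h1 | h1
    · exact hu h1
    · exact mzj_q_algebraMap_poly_ne_zero W K hn₀ h1
  have hR : A₀ * algebraMap K[X] (mzj_q_R W K) n = A * algebraMap K[X] (mzj_q_R W K) n₀ := by
    apply IsFractionRing.injective (mzj_q_R W K) (mzj_q_FF W K)
    rw [map_mul, map_mul, ← IsScalarTower.algebraMap_apply K[X] (mzj_q_R W K) (mzj_q_FF W K),
      ← IsScalarTower.algebraMap_apply K[X] (mzj_q_R W K) (mzj_q_FF W K), ← h₀, ← h]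
    ring
  have hnR : algebraMap K[X] (mzj_q_R W K) n ≠ 0 := fun h0 =>
    hn (FaithfulSMul.algebraMap_injective K[X] (mzj_q_R W K) (h0.trans (map_zero _).symm))
  have hn₀R : algebraMap K[X] (mzj_q_R W K) n₀ ≠ 0 := fun h0 =>
    hn₀ (FaithfulSMul.algebraMap_injective K[X] (mzj_q_R W K) (h0.trans (map_zero _).symm))
  have hd := congrArg (mzj_q_dR W K) hR
  rw [mzj_q_dR_mul W K hA₀ hnR, mzj_q_dR_mul W K hA hn₀R, mzj_q_dR_poly, mzj_q_dR_poly] at hd
  omega

theorem mzj_q_D_algebraMap_R {A : mzj_q_R W K} (hA : A ≠ 0) :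
    mzj_q_D W K (algebraMap (mzj_q_R W K) (mzj_q_FF W K) A) = (mzj_q_dR W K A : ℤ) := by
  rw [mzj_q_D_eq W K (one_ne_zero) hA (by rw [map_one, mul_one]), natDegree_one]
  simp

theorem mzj_q_D_poly {p : K[X]} (hp : p ≠ 0) :
    mzj_q_D W K (algebraMap K[X] (mzj_q_FF W K) p) = 2 * (p.natDegree : ℤ) := by
  have hpR : algebraMap K[X] (mzj_q_R W K) p ≠ 0 := fun h0 =>
    hp (FaithfulSMul.algebraMap_injective K[X] (mzj_q_R W K) (h0.trans (map_zero _).symm))
  rw [IsScalarTower.algebraMap_apply K[X] (mzj_q_R W K) (mzj_q_FF W K),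
    mzj_q_D_algebraMap_R W K hpR, mzj_q_dR_poly]
  push_cast
  ring

theorem mzj_q_D_mul {u v : mzj_q_FF W K} (hu : u ≠ 0) (hv : v ≠ 0) :
    mzj_q_D W K (u * v) = mzj_q_D W K u + mzj_q_D W K v := by
  obtain ⟨A, n, hn, hA⟩ := mzj_q_exists_rep W K u
  obtain ⟨B, m, hm, hB⟩ := mzj_q_exists_rep W K v
  have hA0 : A ≠ 0 := by
    rintro rfl
    rw [map_zero] at hA
    rcases mul_eq_zero.mp hA with h1 | h1
    · exact hu h1
    · exact mzj_q_algebraMap_poly_ne_zero W K hn h1
  have hB0 : B ≠ 0 := by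
    rintro rfl
    rw [map_zero] at hB
    rcases mul_eq_zero.mp hB with h1 | h1
    · exact hv h1
    · exact mzj_q_algebraMap_poly_ne_zero W K hm h1
  rw [mzj_q_D_eq W K hn hA0 hA, mzj_q_D_eq W K hm hB0 hB,
    mzj_q_D_eq W K (mul_ne_zero hn hm) (mul_ne_zero hA0 hB0)
      (by rw [map_mul, map_mul, ← hA, ← hB]; ring),
    mzj_q_dR_mul W K hA0 hB0, natDegree_mul hn hm]
  push_cast
  ring

theorem mzj_q_D_one : mzj_q_D W K 1 = 0 := by
  have h := mzj_q_D_poly W K (p := 1) one_ne_zero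
  rw [map_one, natDegree_one] at h
  simpa using h

theorem mzj_q_D_inv {u : mzj_q_FF W K} (hu : u ≠ 0) :
    mzj_q_D W K u⁻¹ = -mzj_q_D W K u := by
  have h := mzj_q_D_mul W K hu (inv_ne_zero hu)
  rw [mul_inv_cancel₀ hu, mzj_q_D_one] at h
  omega

theorem mzj_q_D_div {u v : mzj_q_FF W K} (hu : u ≠ 0) (hv : v ≠ 0) :
    mzj_q_D W K (u / v) = mzj_q_D W K u - mzj_q_D W K v := by
  rw [div_eq_mul_inv, mzj_q_D_mul W K hu (inv_ne_zero hv), mzj_q_D_inv W K hv]
  ring

theorem mzj_q_D_pow {u : mzj_q_FF W K} (hu : u ≠ 0) (k : ℕ) :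
    mzj_q_D W K (u ^ k) = k * mzj_q_D W K u := by
  induction k with
  | zero => simp [mzj_q_D_one]
  | succ k ih =>
    rw [pow_succ, mzj_q_D_mul W K (pow_ne_zero k hu) hu, ih]
    push_cast
    ring

theorem mzj_q_D_const {c : K} (hc : c ≠ 0) : mzj_q_D W K (algebraMap K _ c) = 0 := by
  rw [← mzj_q_algebraMap_C, mzj_q_D_poly W K (C_ne_zero.mpr hc), natDegree_C]
  simp

theorem mzj_q_D_neg (u : mzj_q_FF W K) : mzj_q_D W K (-u) = mzj_q_D W K u := by
  by_cases hu : u = 0
  · rw [hu, neg_zero]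
  · have h : -u = algebraMap K (mzj_q_FF W K) (-1) * u := by
      rw [map_neg, map_one]; ring
    rw [h, mzj_q_D_mul W K ((_root_.map_ne_zero _).mpr (neg_ne_zero.mpr one_ne_zero)) hu,
      mzj_q_D_const W K (neg_ne_zero.mpr one_ne_zero), zero_add]

/-- The ultrametric inequality. -/
theorem mzj_q_D_add_le {u v : mzj_q_FF W K} (hu : u ≠ 0) (hv : v ≠ 0) (huv : u + v ≠ 0) :
    mzj_q_D W K (u + v) ≤ max (mzj_q_D W K u) (mzj_q_D W K v) := by
  obtain ⟨A, n, hn, hA⟩ := mzj_q_exists_rep W K u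
  obtain ⟨B, m, hm, hB⟩ := mzj_q_exists_rep W K v
  have hA0 : A ≠ 0 := by
    rintro rfl
    rw [map_zero] at hA
    rcases mul_eq_zero.mp hA with h1 | h1
    · exact hu h1
    · exact mzj_q_algebraMap_poly_ne_zero W K hn h1
  have hB0 : B ≠ 0 := by
    rintro rfl
    rw [map_zero] at hB
    rcases mul_eq_zero.mp hB with h1 | h1
    · exact hv h1
    · exact mzj_q_algebraMap_poly_ne_zero W K hm h1
  have hnR : algebraMap K[X] (mzj_q_R W K) n ≠ 0 := fun h0 =>
    hn (FaithfulSMul.algebraMap_injective K[X] (mzj_q_R W K) (h0.trans (map_zero _).symm))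
  have hmR : algebraMap K[X] (mzj_q_R W K) m ≠ 0 := fun h0 =>
    hm (FaithfulSMul.algebraMap_injective K[X] (mzj_q_R W K) (h0.trans (map_zero _).symm))
  have hsum : (u + v) * algebraMap K[X] (mzj_q_FF W K) (n * m) =
      algebraMap (mzj_q_R W K) (mzj_q_FF W K)
        (A * algebraMap K[X] (mzj_q_R W K) m + B * algebraMap K[X] (mzj_q_R W K) n) := by
    rw [map_add, map_mul, map_mul, map_mul,
      ← IsScalarTower.algebraMap_apply K[X] (mzj_q_R W K) (mzj_q_FF W K),
      ← IsScalarTower.algebraMap_apply K[X] (mzj_q_R W K) (mzj_q_FF W K), ← hA, ← hB]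
    ring
  have hS0 : A * algebraMap K[X] (mzj_q_R W K) m + B * algebraMap K[X] (mzj_q_R W K) n ≠ 0 := by
    intro h0
    rw [h0, map_zero] at hsum
    rcases mul_eq_zero.mp hsum with h1 | h1
    · exact huv h1
    · exact mzj_q_algebraMap_poly_ne_zero W K (mul_ne_zero hn hm) h1
  rw [mzj_q_D_eq W K hn hA0 hA, mzj_q_D_eq W K hm hB0 hB,
    mzj_q_D_eq W K (mul_ne_zero hn hm) hS0 hsum, natDegree_mul hn hm]
  have h1 := mzj_q_dR_add_le W K (A * algebraMap K[X] (mzj_q_R W K) m)
    (B * algebraMap K[X] (mzj_q_R W K) n)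
  rw [mzj_q_dR_mul W K hA0 hmR, mzj_q_dR_mul W K hB0 hnR, mzj_q_dR_poly, mzj_q_dR_poly] at h1
  rcases le_max_iff.mp h1 with h2 | h2
  · apply le_max_of_le_left
    push_cast
    omega
  · apply le_max_of_le_right
    push_cast
    omega

end Fermat.Agent.MZ
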