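import Mathlib
import Fermat.Agent.MZ.J.Quot.Generic

/-!
# [MZ-J] / [J-QUOT]: the invariant derivation of the function field of a Weierstrass curve

`mzj_q_der W K : Derivation K FF FF` with `δ x = ψ₂ = 2y + a₁x + a₃`,
`δ y = φ₂ = 3x² + 2a₂x + a₄ - a₁y`, constructed through the dual numbers over `FF`.
-/

set_option autoImplicit false
set_option linter.unusedSectionVars false

namespace Fermat.Agent.MZ

open WeierstrassCurve WeierstrassCurve.Affine Polynomial
open Fermat.Agent.S58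

open scoped Polynomial.Bivariate

variable {S : Type*} [CommRing S] (W : WeierstrassCurve S)
  (K : Type*) [Field K] [Algebra S K]

/-- `ψ₂ = 2y + a₁x + a₃`. -/
noncomputable def mzj_q_psi : mzj_q_FF W K :=
  2 * mzj_q_y W K + algebraMap K _ (W⁄K).a₁ * mzj_q_x W K + algebraMap K _ (W⁄K).a₃

/-- `φ₂ = 3x² + 2a₂x + a₄ - a₁y`. -/
noncomputable def mzj_q_phi : mzj_q_FF W K :=
  3 * mzj_q_x W K ^ 2 + 2 * algebraMap K _ (W⁄K).a₂ * mzj_q_x W K + algebraMap K _ (W⁄K).a₄ -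
    algebraMap K _ (W⁄K).a₁ * mzj_q_y W K

/-- The dual numbers over the function field. -/
abbrev mzj_q_T : Type _ := TrivSqZeroExt (mzj_q_FF W K) (mzj_q_FF W K)

/-- `x + ε ψ₂`. -/
noncomputable def mzj_q_XT : mzj_q_T W K :=
  TrivSqZeroExt.inl (mzj_q_x W K) + TrivSqZeroExt.inr (mzj_q_psi W K)

/-- `y + ε φ₂`. -/
noncomputable def mzj_q_YT : mzj_q_T W K :=
  TrivSqZeroExt.inl (mzj_q_y W K) + TrivSqZeroExt.inr (mzj_q_phi W K)

theorem mzj_q_T_aux :
    (W⁄K).toAffine.polynomial.eval₂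
      ((aeval (mzj_q_XT W K) : K[X] →ₐ[K] mzj_q_T W K) : K[X] →+* mzj_q_T W K)
      (mzj_q_YT W K) = 0 := by
  simp only [Affine.polynomial, eval₂_sub, eval₂_add, eval₂_mul, eval₂_pow, eval₂_X, eval₂_C,
    RingHom.coe_coe, map_add, map_mul, map_pow, aeval_X, aeval_C]
  have h := mzj_q_eqAt_gen W K
  unfold s58f_EqAt at h
  apply TrivSqZeroExt.ext
  · simp only [mzj_q_XT, mzj_q_YT, TrivSqZeroExt.fst_sub, TrivSqZeroExt.fst_add,
      TrivSqZeroExt.fst_mul, TrivSqZeroExt.fst_pow, TrivSqZeroExt.fst_inl, TrivSqZeroExt.fst_inr,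
      TrivSqZeroExt.algebraMap_eq_inl', TrivSqZeroExt.fst_zero, add_zero]
    linear_combination h
  · simp only [mzj_q_XT, mzj_q_YT, TrivSqZeroExt.snd_sub, TrivSqZeroExt.snd_add,
      TrivSqZeroExt.snd_mul, TrivSqZeroExt.snd_pow, TrivSqZeroExt.snd_inl, TrivSqZeroExt.snd_inr,
      TrivSqZeroExt.fst_add, TrivSqZeroExt.fst_mul, TrivSqZeroExt.fst_pow,
      TrivSqZeroExt.fst_inl, TrivSqZeroExt.fst_inr,
      TrivSqZeroExt.algebraMap_eq_inl', TrivSqZeroExt.snd_zero, add_zero, zero_add,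
      smul_eq_mul, MulOpposite.smul_eq_mul_unop, MulOpposite.unop_op, smul_zero, nsmul_eq_mul]
    simp only [mzj_q_psi, mzj_q_phi, Nat.pred_eq_sub_one, Nat.reduceSub, pow_one]
    push_cast
    ring

/-- The coordinate ring maps to the dual numbers by `x ↦ x + ε ψ₂`, `y ↦ y + ε φ₂`. -/
noncomputable def mzj_q_cT : mzj_q_R W K →ₐ[K] mzj_q_T W K :=
  AdjoinRoot.liftAlgHom (W⁄K).toAffine.polynomial
    (aeval (mzj_q_XT W K) : K[X] →ₐ[K] mzj_q_T W K) (mzj_q_YT W K) (mzj_q_T_aux W K)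

theorem mzj_q_cT_poly (p : K[X]) :
    mzj_q_cT W K (algebraMap K[X] (mzj_q_R W K) p) = aeval (mzj_q_XT W K) p :=
  AdjoinRoot.liftAlgHom_of _ _ _ _ p

theorem mzj_q_cT_mkY : mzj_q_cT W K (CoordinateRing.mk _ Y) = mzj_q_YT W K :=
  AdjoinRoot.liftAlgHom_root _ _ _ _

/-- Ring homomorphisms out of the coordinate ring are determined by their values on the
constants, on `x` and on `y`. -/
theorem mzj_q_R_ringHom_ext {T : Type*} [CommRing T] (f g : mzj_q_R W K →+* T)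
    (hc : ∀ c : K, f (CoordinateRing.mk _ (C (C c))) = g (CoordinateRing.mk _ (C (C c))))
    (hx : f (CoordinateRing.mk _ (C X)) = g (CoordinateRing.mk _ (C X)))
    (hy : f (CoordinateRing.mk _ Y) = g (CoordinateRing.mk _ Y)) :
    f = g := by
  apply Ideal.Quotient.ringHom_ext
  apply Polynomial.ringHom_ext
  · intro p
    induction p using Polynomial.induction_on' with
    | add p q hp hq =>
      rw [C_add, map_add, map_add, hp, hq]
    | monomial n a =>
      have h1 : (C (monomial n a) : K[X][Y]) = C (C a) * C X ^ n := by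
        rw [← C_mul_X_pow_eq_monomial, C_mul, C_pow]
      rw [h1, map_mul, map_mul, map_pow, map_pow]
      exact congrArg₂ (· * ·) (hc a) (congrArg (· ^ n) hx)
  · exact hy

theorem mzj_q_fst_cT (z : mzj_q_R W K) :
    TrivSqZeroExt.fst (mzj_q_cT W K z) = algebraMap (mzj_q_R W K) (mzj_q_FF W K) z := by
  have h := mzj_q_R_ringHom_ext W K
    (((TrivSqZeroExt.fstHom K (mzj_q_FF W K) (mzj_q_FF W K)) : mzj_q_T W K →+* mzj_q_FF W K).comp
      (mzj_q_cT W K : mzj_q_R W K →+* mzj_q_T W K))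
    (algebraMap (mzj_q_R W K) (mzj_q_FF W K)) ?_ ?_ ?_
  · exact congrArg (fun k : mzj_q_R W K →+* mzj_q_FF W K => k z) h
  · intro c
    show TrivSqZeroExt.fst (mzj_q_cT W K (algebraMap K[X] (mzj_q_R W K) (C c))) = _
    rw [mzj_q_cT_poly, aeval_C, mzj_q_algebraMap_const]
    rfl
  · show TrivSqZeroExt.fst (mzj_q_cT W K (algebraMap K[X] (mzj_q_R W K) X)) = _
    rw [mzj_q_cT_poly, aeval_X, ← mzj_q_x_eq]
    simp [mzj_q_XT]
  · show TrivSqZeroExt.fst (mzj_q_cT W K (CoordinateRing.mk _ Y)) = _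
    rw [mzj_q_cT_mkY]
    simp [mzj_q_YT, mzj_q_y]

theorem mzj_q_cT_isUnit (z : nonZeroDivisors (mzj_q_R W K)) :
    IsUnit ((mzj_q_cT W K : mzj_q_R W K →+* mzj_q_T W K) z) := by
  rw [TrivSqZeroExt.isUnit_iff_isUnit_fst]
  show IsUnit (TrivSqZeroExt.fst (mzj_q_cT W K z))
  rw [mzj_q_fst_cT, isUnit_iff_ne_zero]
  intro h0
  exact nonZeroDivisors.ne_zero z.2
    (IsFractionRing.injective (mzj_q_R W K) (mzj_q_FF W K) (h0.trans (map_zero _).symm))

/-- The ring homomorphism `z ↦ z + ε δ z` from the function field to its dual numbers. -/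
noncomputable def mzj_q_Dt : mzj_q_FF W K →+* mzj_q_T W K :=
  IsLocalization.lift (M := nonZeroDivisors (mzj_q_R W K))
    (g := (mzj_q_cT W K : mzj_q_R W K →+* mzj_q_T W K)) (mzj_q_cT_isUnit W K)

theorem mzj_q_Dt_algebraMap (z : mzj_q_R W K) :
    mzj_q_Dt W K (algebraMap (mzj_q_R W K) (mzj_q_FF W K) z) = mzj_q_cT W K z :=
  IsLocalization.lift_eq _ z

theorem mzj_q_fst_Dt (z : mzj_q_FF W K) : TrivSqZeroExt.fst (mzj_q_Dt W K z) = z := by
  have h : ((TrivSqZeroExt.fstHom K (mzj_q_FF W K) (mzj_q_FF W K)) :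
      mzj_q_T W K →+* mzj_q_FF W K).comp (mzj_q_Dt W K) = RingHom.id _ := by
    apply IsLocalization.ringHom_ext (nonZeroDivisors (mzj_q_R W K))
    refine RingHom.ext fun z => ?_
    show TrivSqZeroExt.fst (mzj_q_Dt W K (algebraMap (mzj_q_R W K) (mzj_q_FF W K) z)) = _
    rw [mzj_q_Dt_algebraMap, mzj_q_fst_cT]
    rfl
  exact congrArg (fun k : mzj_q_FF W K →+* mzj_q_FF W K => k z) h

theorem mzj_q_Dt_const (c : K) :
    mzj_q_Dt W K (algebraMap K (mzj_q_FF W K) c) = TrivSqZeroExt.inl (algebraMap K _ c) := by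
  rw [IsScalarTower.algebraMap_apply K (mzj_q_R W K) (mzj_q_FF W K), mzj_q_Dt_algebraMap,
    AlgHom.commutes]
  rfl

/-- The invariant derivation as a function. -/
noncomputable def mzj_q_d (z : mzj_q_FF W K) : mzj_q_FF W K :=
  TrivSqZeroExt.snd (mzj_q_Dt W K z)

theorem mzj_q_d_add (a b : mzj_q_FF W K) :
    mzj_q_d W K (a + b) = mzj_q_d W K a + mzj_q_d W K b := by
  unfold mzj_q_d
  rw [map_add, TrivSqZeroExt.snd_add]

theorem mzj_q_d_mul (a b : mzj_q_FF W K) :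
    mzj_q_d W K (a * b) = a * mzj_q_d W K b + b * mzj_q_d W K a := by
  unfold mzj_q_d
  rw [map_mul, TrivSqZeroExt.snd_mul, mzj_q_fst_Dt, mzj_q_fst_Dt]
  simp only [smul_eq_mul, MulOpposite.smul_eq_mul_unop, MulOpposite.unop_op]
  ring

theorem mzj_q_d_const (c : K) : mzj_q_d W K (algebraMap K _ c) = 0 := by
  unfold mzj_q_d
  rw [mzj_q_Dt_const, TrivSqZeroExt.snd_inl]

theorem mzj_q_d_x : mzj_q_d W K (mzj_q_x W K) = mzj_q_psi W K := by
  unfold mzj_q_d
  rw [mzj_q_x_eq, mzj_q_Dt_algebraMap]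
  show TrivSqZeroExt.snd (mzj_q_cT W K (algebraMap K[X] (mzj_q_R W K) X)) = _
  rw [mzj_q_cT_poly, aeval_X]
  simp [mzj_q_XT]

theorem mzj_q_d_y : mzj_q_d W K (mzj_q_y W K) = mzj_q_phi W K := by
  unfold mzj_q_d mzj_q_y
  rw [mzj_q_Dt_algebraMap, mzj_q_cT_mkY]
  simp [mzj_q_YT]

/-- The invariant derivation of the function field. -/
noncomputable def mzj_q_der : Derivation K (mzj_q_FF W K) (mzj_q_FF W K) :=
  Derivation.mk'
    { toFun := mzj_q_d W K
      map_add' := mzj_q_d_add W K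
      map_smul' := fun c z => by
        rw [Algebra.smul_def, mzj_q_d_mul, mzj_q_d_const, mul_zero, add_zero, RingHom.id_apply,
          Algebra.smul_def] }
    (fun a b => by
      show mzj_q_d W K (a * b) = a • mzj_q_d W K b + b • mzj_q_d W K a
      rw [mzj_q_d_mul, smul_eq_mul, smul_eq_mul])

theorem mzj_q_der_apply (z : mzj_q_FF W K) : mzj_q_der W K z = mzj_q_d W K z := rfl

theorem mzj_q_der_x : mzj_q_der W K (mzj_q_x W K) = mzj_q_psi W K := mzj_q_d_x W K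

theorem mzj_q_der_y : mzj_q_der W K (mzj_q_y W K) = mzj_q_phi W K := mzj_q_d_y W K

end Fermat.Agent.MZ
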