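import Mathlib
import Fermat.Agent.MZ.J.Quot.Deriv
import Fermat.Agent.MZ.J.Quot.AddLaw

/-!
# [MZ-J] / [J-QUOT]: explicit translation formulas; the invariant derivation commutes with
translations
-/

set_option autoImplicit false
set_option linter.unusedSectionVars false
set_option linter.unusedSimpArgs false

namespace Fermat.Agent.MZ

open WeierstrassCurve WeierstrassCurve.Affine Polynomial
open Fermat.Agent.S58

open scoped Polynomial.Bivariate

variable {S : Type*} [CommRing S] (W : WeierstrassCurve S)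
  (K : Type*) [Field K] [Algebra S K] [W.IsElliptic] [DecidableEq K] [IsAlgClosed K]

theorem mzj_q_x_ne_const (a : K) : mzj_q_x W K ≠ algebraMap K _ a := by
  intro h
  have htr := mzj_q_x_transcendental W K
  rw [h] at htr
  exact htr (isAlgebraic_algebraMap a)

theorem mzj_q_x_sub_const_ne_zero (a : K) : mzj_q_x W K - algebraMap K _ a ≠ 0 :=
  sub_ne_zero.mpr (mzj_q_x_ne_const W K a)

/-- The slope of the line through the generic point and a constant point. -/
noncomputable def mzj_q_sl (a b : K) : mzj_q_FF W K :=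
  (mzj_q_y W K - algebraMap K _ b) / (mzj_q_x W K - algebraMap K _ a)

/-- The `x`-coordinate of `g + (a, b)`. -/
noncomputable def mzj_q_xi (a b : K) : mzj_q_FF W K :=
  mzj_q_sl W K a b ^ 2 + algebraMap K _ (W⁄K).a₁ * mzj_q_sl W K a b - algebraMap K _ (W⁄K).a₂ -
    mzj_q_x W K - algebraMap K _ a

/-- The `y`-coordinate of `g + (a, b)`. -/
noncomputable def mzj_q_eta (a b : K) : mzj_q_FF W K :=
  -(mzj_q_sl W K a b * (mzj_q_xi W K a b - mzj_q_x W K) + mzj_q_y W K) -
    algebraMap K _ (W⁄K).a₁ * mzj_q_xi W K a b - algebraMap K _ (W⁄K).a₃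

theorem mzj_q_tau_some {a b : K} (h : (W⁄K).toAffine.Nonsingular a b) :
    mzj_q_tau W K (Point.some a b h) (mzj_q_x W K) = mzj_q_xi W K a b ∧
      mzj_q_tau W K (Point.some a b h) (mzj_q_y W K) = mzj_q_eta W K a b := by
  have h1 := mzj_q_map_tau_gen W K (Point.some a b h)
  rw [mzj_q_cst_some] at h1
  unfold mzj_q_gen at h1
  rw [Point.map_some] at h1
  have h3 := Point.add_of_X_ne (W := (W⁄(mzj_q_FF W K)).toAffine)
    (h₁ := mzj_q_nonsingular_gen W K)
    (h₂ := (Affine.baseChange_nonsingular (W := W) (f := Algebra.ofId K (mzj_q_FF W K))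
          (Algebra.ofId K (mzj_q_FF W K)).injective a b).mpr h) (mzj_q_x_ne_const W K a)
  have h2 := Point.some.inj (h1.trans h3)
  simp only [Algebra.ofId_apply] at h2
  rw [Affine.slope_of_X_ne (mzj_q_x_ne_const W K a)] at h2
  simp only [Affine.addX, Affine.addY, Affine.negAddY, Affine.negY, mzj_q_a₁_eq, mzj_q_a₂_eq,
    mzj_q_a₃_eq] at h2
  exact ⟨h2.1, h2.2⟩

theorem mzj_q_tau_some_x {a b : K} (h : (W⁄K).toAffine.Nonsingular a b) :
    mzj_q_tau W K (Point.some a b h) (mzj_q_x W K) = mzj_q_xi W K a b :=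
  (mzj_q_tau_some W K h).1

theorem mzj_q_tau_some_y {a b : K} (h : (W⁄K).toAffine.Nonsingular a b) :
    mzj_q_tau W K (Point.some a b h) (mzj_q_y W K) = mzj_q_eta W K a b :=
  (mzj_q_tau_some W K h).2

/-- The ring homomorphism `z ↦ z + ε D z` attached to a derivation. -/
noncomputable def mzj_q_derHom (D : Derivation K (mzj_q_FF W K) (mzj_q_FF W K)) :
    mzj_q_FF W K →+* mzj_q_T W K where
  toFun z := TrivSqZeroExt.inl z + TrivSqZeroExt.inr (D z)
  map_one' := by
    rw [Derivation.map_one_eq_zero, TrivSqZeroExt.inr_zero, add_zero]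
    rfl
  map_zero' := by
    rw [map_zero, TrivSqZeroExt.inr_zero, add_zero]
    rfl
  map_add' a b := by
    rw [map_add, TrivSqZeroExt.inl_add, TrivSqZeroExt.inr_add]
    abel
  map_mul' a b := by
    apply TrivSqZeroExt.ext
    · simp
    · simp only [TrivSqZeroExt.snd_add, TrivSqZeroExt.snd_inl, TrivSqZeroExt.snd_inr, zero_add,
        TrivSqZeroExt.snd_mul, TrivSqZeroExt.fst_add, TrivSqZeroExt.fst_inl, TrivSqZeroExt.fst_inr,
        add_zero, Derivation.leibniz, smul_eq_mul, MulOpposite.smul_eq_mul_unop,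
        MulOpposite.unop_op]
      ring

/-- A derivation of the function field is determined by its values on `x` and `y`. -/
theorem mzj_q_der_ext (D1 D2 : Derivation K (mzj_q_FF W K) (mzj_q_FF W K))
    (hx : D1 (mzj_q_x W K) = D2 (mzj_q_x W K)) (hy : D1 (mzj_q_y W K) = D2 (mzj_q_y W K)) :
    D1 = D2 := by
  have h := mzj_q_ringHom_ext W K (mzj_q_derHom W K D1) (mzj_q_derHom W K D2) ?_ ?_ ?_
  · ext z
    have h1 := congrArg (fun k : mzj_q_FF W K →+* mzj_q_T W K => TrivSqZeroExt.snd (k z)) h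
    simpa [mzj_q_derHom] using h1
  · intro c
    simp [mzj_q_derHom]
  · simp only [mzj_q_derHom, RingHom.coe_mk, MonoidHom.coe_mk, OneHom.coe_mk, hx]
  · simp only [mzj_q_derHom, RingHom.coe_mk, MonoidHom.coe_mk, OneHom.coe_mk, hy]

/-- Conjugating a derivation by a pair of mutually inverse algebra endomorphisms. -/
noncomputable def mzj_q_derConj (D : Derivation K (mzj_q_FF W K) (mzj_q_FF W K))
    (f f' : mzj_q_FF W K →ₐ[K] mzj_q_FF W K) (hff' : ∀ z, f' (f z) = z) :
    Derivation K (mzj_q_FF W K) (mzj_q_FF W K) :=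
  Derivation.mk' ((f'.toLinearMap.comp (D : mzj_q_FF W K →ₗ[K] mzj_q_FF W K)).comp f.toLinearMap)
    (fun a b => by
      show f' (D (f (a * b))) = a • f' (D (f b)) + b • f' (D (f a))
      rw [map_mul, Derivation.leibniz, map_add, smul_eq_mul, smul_eq_mul, map_mul, map_mul, hff',
        hff', smul_eq_mul, smul_eq_mul])

theorem mzj_q_derConj_apply (D : Derivation K (mzj_q_FF W K) (mzj_q_FF W K))
    (f f' : mzj_q_FF W K →ₐ[K] mzj_q_FF W K) (hff' : ∀ z, f' (f z) = z) (z : mzj_q_FF W K) :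
    mzj_q_derConj W K D f f' hff' z = f' (D (f z)) := rfl

/-- The Weierstrass equation of a constant point, inside the function field. -/
theorem mzj_q_eq_const {a b : K} (h : (W⁄K).toAffine.Nonsingular a b) :
    algebraMap K (mzj_q_FF W K) b ^ 2 +
        algebraMap K _ (W⁄K).a₁ * algebraMap K _ a * algebraMap K _ b +
        algebraMap K _ (W⁄K).a₃ * algebraMap K _ b =
      algebraMap K (mzj_q_FF W K) a ^ 3 + algebraMap K _ (W⁄K).a₂ * algebraMap K _ a ^ 2 +
        algebraMap K _ (W⁄K).a₄ * algebraMap K _ a + algebraMap K _ (W⁄K).a₆ := by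
  have h1 := (Affine.equation_iff _ _).mp h.1
  have h2 := congrArg (algebraMap K (mzj_q_FF W K)) h1
  simpa only [map_add, map_mul, map_pow] using h2

theorem mzj_q_der_sl (a b : K) :
    mzj_q_der W K (mzj_q_sl W K a b) =
      ((mzj_q_phi W K - 0) * (mzj_q_x W K - algebraMap K _ a) -
        (mzj_q_y W K - algebraMap K _ b) * (mzj_q_psi W K - 0)) /
        (mzj_q_x W K - algebraMap K _ a) ^ 2 := by
  unfold mzj_q_sl
  rw [mzj_q_der_slope, mzj_q_der_x, mzj_q_der_y, Derivation.map_algebraMap,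
    Derivation.map_algebraMap]

theorem mzj_q_der_xi {a b : K} (h : (W⁄K).toAffine.Nonsingular a b) :
    mzj_q_der W K (mzj_q_xi W K a b) =
      2 * mzj_q_eta W K a b + algebraMap K _ (W⁄K).a₁ * mzj_q_xi W K a b +
        algebraMap K _ (W⁄K).a₃ := by
  have h0 := mzj_q_addLambda_X (algebraMap K (mzj_q_FF W K) (W⁄K).a₁)
    (algebraMap K _ (W⁄K).a₂) (algebraMap K _ (W⁄K).a₃) (algebraMap K _ (W⁄K).a₄)
    (algebraMap K _ (W⁄K).a₆) (mzj_q_x W K) (mzj_q_y W K) (algebraMap K _ a) (algebraMap K _ b)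
    1 0 (mzj_q_eqAt_gen W K) (mzj_q_eq_const W K h) (mzj_q_x_ne_const W K a)
    (mzj_q_sl W K a b) (mzj_q_xi W K a b) (mzj_q_eta W K a b)
    (mzj_q_psi W K) (mzj_q_phi W K) 0 0 (mzj_q_der W K (mzj_q_sl W K a b))
    (mzj_q_der W K (mzj_q_xi W K a b)) rfl rfl rfl ?_ ?_ ?_ ?_ (mzj_q_der_sl W K a b) ?_
  · rw [h0]; ring
  · rw [one_mul]; rfl
  · rw [one_mul]; rfl
  · rw [zero_mul]
  · rw [zero_mul]
  · unfold mzj_q_xi
    rw [mzj_q_der_addX, mzj_q_der_x, Derivation.map_algebraMap]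

theorem mzj_q_der_eta {a b : K} (h : (W⁄K).toAffine.Nonsingular a b) :
    mzj_q_der W K (mzj_q_eta W K a b) =
      3 * mzj_q_xi W K a b ^ 2 + 2 * algebraMap K _ (W⁄K).a₂ * mzj_q_xi W K a b +
        algebraMap K _ (W⁄K).a₄ - algebraMap K _ (W⁄K).a₁ * mzj_q_eta W K a b := by
  have h0 := mzj_q_addLambda_Y (algebraMap K (mzj_q_FF W K) (W⁄K).a₁)
    (algebraMap K _ (W⁄K).a₂) (algebraMap K _ (W⁄K).a₃) (algebraMap K _ (W⁄K).a₄)
    (algebraMap K _ (W⁄K).a₆) (mzj_q_x W K) (mzj_q_y W K) (algebraMap K _ a) (algebraMap K _ b)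
    1 0 (mzj_q_eqAt_gen W K) (mzj_q_eq_const W K h) (mzj_q_x_ne_const W K a)
    (mzj_q_sl W K a b) (mzj_q_xi W K a b) (mzj_q_eta W K a b)
    (mzj_q_psi W K) (mzj_q_phi W K) 0 0 (mzj_q_der W K (mzj_q_sl W K a b))
    (mzj_q_der W K (mzj_q_xi W K a b)) (mzj_q_der W K (mzj_q_eta W K a b))
    rfl rfl rfl ?_ ?_ ?_ ?_ (mzj_q_der_sl W K a b) ?_ ?_
  · rw [h0]; ring
  · rw [one_mul]; rfl
  · rw [one_mul]; rfl
  · rw [zero_mul]
  · rw [zero_mul]
  · unfold mzj_q_xi
    rw [mzj_q_der_addX, mzj_q_der_x, Derivation.map_algebraMap]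
  · unfold mzj_q_eta
    rw [mzj_q_der_addY, mzj_q_der_x, mzj_q_der_y]

/-- **The invariant derivation commutes with translations.** -/
theorem mzj_q_der_tau (P : (W⁄K).Point) (z : mzj_q_FF W K) :
    mzj_q_der W K (mzj_q_tau W K P z) = mzj_q_tau W K P (mzj_q_der W K z) := by
  rcases P with _ | ⟨a, b, h⟩
  · have h0 : mzj_q_tau W K (Point.zero) = AlgHom.id K _ := mzj_q_tau_zero W K
    rw [h0]
    rfl
  · have hD : mzj_q_derConj W K (mzj_q_der W K) (mzj_q_tau W K (Point.some a b h))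
        (mzj_q_tau W K (-Point.some a b h)) (mzj_q_tau_neg_tau W K _) = mzj_q_der W K := by
      apply mzj_q_der_ext
      · rw [mzj_q_derConj_apply, mzj_q_tau_some_x, mzj_q_der_xi W K h, mzj_q_der_x]
        apply mzj_q_tau_injective W K (Point.some a b h)
        rw [mzj_q_tau_tau_neg]
        simp only [mzj_q_psi, map_add, map_mul, map_ofNat, AlgHom.commutes, mzj_q_tau_some_x,
          mzj_q_tau_some_y]
      · rw [mzj_q_derConj_apply, mzj_q_tau_some_y, mzj_q_der_eta W K h, mzj_q_der_y]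
        apply mzj_q_tau_injective W K (Point.some a b h)
        rw [mzj_q_tau_tau_neg]
        simp only [mzj_q_phi, map_add, map_sub, map_mul, map_pow, map_ofNat, AlgHom.commutes,
          mzj_q_tau_some_x, mzj_q_tau_some_y]
    have h1 := congrArg (fun D : Derivation K (mzj_q_FF W K) (mzj_q_FF W K) => D z) hD
    simp only [mzj_q_derConj_apply] at h1
    rw [← h1, mzj_q_tau_tau_neg]

end Fermat.Agent.MZ
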