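import Mathlib
import Fermat.Agent.MZ.J.Quot.Deg
import Fermat.Agent.MZ.J.Quot.TauDer

/-!
# [MZ-J] / [J-QUOT]: pole orders at infinity of translated coordinate functions

`D (x(g + P) - c) = 0` for `c ≠ x(P)`, `= -1` for `c = x(P)` and `P` not of order two,
`= -2` for `c = x(P)` and `P` of order two.
-/

set_option autoImplicit false
set_option linter.unusedSectionVars false
set_option linter.unusedSimpArgs false

namespace Fermat.Agent.MZ

open WeierstrassCurve WeierstrassCurve.Affine Polynomial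
open Fermat.Agent.S58

open scoped Polynomial.Bivariate

variable {S : Type*} [CommRing S] (W : WeierstrassCurve S)
  (K : Type*) [Field K] [Algebra S K]

theorem mzj_q_algebraMap_smul_basis (p q : K[X]) :
    algebraMap (mzj_q_R W K) (mzj_q_FF W K)
        (p • (1 : mzj_q_R W K) + q • CoordinateRing.mk _ Y) =
      algebraMap K[X] (mzj_q_FF W K) p + algebraMap K[X] (mzj_q_FF W K) q * mzj_q_y W K := by
  rw [map_add, Algebra.smul_def, Algebra.smul_def, mul_one, map_mul,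
    ← IsScalarTower.algebraMap_apply K[X] (mzj_q_R W K) (mzj_q_FF W K),
    ← IsScalarTower.algebraMap_apply K[X] (mzj_q_R W K) (mzj_q_FF W K)]
  rfl

theorem mzj_q_two_nsmul_cast (n : ℕ) : (2 • (n : WithBot ℕ)) = ((2 * n : ℕ) : WithBot ℕ) := by
  rw [nsmul_eq_mul]; norm_cast

theorem mzj_q_two_nsmul_add_cast (m : ℕ) :
    (2 • (m : WithBot ℕ) + 3) = ((2 * m + 3 : ℕ) : WithBot ℕ) := by
  rw [nsmul_eq_mul]; norm_cast

theorem mzj_q_smul_basis_ne_zero {p q : K[X]} (h : p ≠ 0 ∨ q ≠ 0) :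
    p • (1 : mzj_q_R W K) + q • CoordinateRing.mk _ Y ≠ 0 := by
  intro h0
  obtain ⟨h1, h2⟩ := CoordinateRing.smul_basis_eq_zero h0
  rcases h with h | h
  · exact h h1
  · exact h h2

theorem mzj_q_dR_smul_basis_left {p q : K[X]} (hp : p ≠ 0)
    (h : q = 0 ∨ 2 * q.natDegree + 3 < 2 * p.natDegree) :
    mzj_q_dR W K (p • (1 : mzj_q_R W K) + q • CoordinateRing.mk _ Y) = 2 * p.natDegree := by
  unfold mzj_q_dR
  have h1 := CoordinateRing.degree_norm_smul_basis (W' := (W⁄K).toAffine) p q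
  by_cases hq : q = 0
  · subst hq
    rw [degree_zero, degree_eq_natDegree hp, mzj_q_two_nsmul_cast] at h1
    have h2 : max ((2 * p.natDegree : ℕ) : WithBot ℕ) (2 • ⊥ + 3) = ((2 * p.natDegree : ℕ) :
        WithBot ℕ) := by
      apply max_eq_left
      simp
    rw [h2] at h1
    exact natDegree_eq_of_degree_eq_some h1
  · have h := h.resolve_left hq
    rw [degree_eq_natDegree hp, degree_eq_natDegree hq, mzj_q_two_nsmul_cast,
      mzj_q_two_nsmul_add_cast, max_eq_left (by exact_mod_cast h.le)] at h1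
    exact natDegree_eq_of_degree_eq_some h1

theorem mzj_q_dR_smul_basis_right {p q : K[X]} (hq : q ≠ 0)
    (h : p = 0 ∨ 2 * p.natDegree < 2 * q.natDegree + 3) :
    mzj_q_dR W K (p • (1 : mzj_q_R W K) + q • CoordinateRing.mk _ Y) =
      2 * q.natDegree + 3 := by
  unfold mzj_q_dR
  have h1 := CoordinateRing.degree_norm_smul_basis (W' := (W⁄K).toAffine) p q
  rcases h with rfl | h
  · rw [degree_zero, degree_eq_natDegree hq, mzj_q_two_nsmul_add_cast] at h1
    have h2 : max (2 • (⊥ : WithBot ℕ)) ((2 * q.natDegree + 3 : ℕ) : WithBot ℕ) =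
        ((2 * q.natDegree + 3 : ℕ) : WithBot ℕ) := by
      apply max_eq_right
      simp
    rw [h2] at h1
    exact natDegree_eq_of_degree_eq_some h1
  · by_cases hp : p = 0
    · subst hp
      rw [degree_zero, degree_eq_natDegree hq, mzj_q_two_nsmul_add_cast] at h1
      have h2 : max (2 • (⊥ : WithBot ℕ)) ((2 * q.natDegree + 3 : ℕ) : WithBot ℕ) =
          ((2 * q.natDegree + 3 : ℕ) : WithBot ℕ) := by
        apply max_eq_right
        simp
      rw [h2] at h1
      exact natDegree_eq_of_degree_eq_some h1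
    · rw [degree_eq_natDegree hp, degree_eq_natDegree hq, mzj_q_two_nsmul_cast,
        mzj_q_two_nsmul_add_cast, max_eq_right (by exact_mod_cast h.le)] at h1
      exact natDegree_eq_of_degree_eq_some h1

theorem mzj_q_x_ne_zero : mzj_q_x W K ≠ 0 := by
  unfold mzj_q_x
  exact mzj_q_algebraMap_poly_ne_zero W K X_ne_zero

theorem mzj_q_D_x : mzj_q_D W K (mzj_q_x W K) = 2 := by
  unfold mzj_q_x
  rw [mzj_q_D_poly W K X_ne_zero, natDegree_X]
  norm_num

theorem mzj_q_x_sub_eq (c : K) :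
    mzj_q_x W K - algebraMap K _ c = algebraMap K[X] (mzj_q_FF W K) (X - C c) := by
  rw [map_sub, mzj_q_algebraMap_C]
  rfl

theorem mzj_q_D_x_sub (c : K) : mzj_q_D W K (mzj_q_x W K - algebraMap K _ c) = 2 := by
  rw [mzj_q_x_sub_eq, mzj_q_D_poly W K (X_sub_C_ne_zero c), natDegree_X_sub_C]
  norm_num

theorem mzj_q_y_eq : mzj_q_y W K =
    algebraMap (mzj_q_R W K) (mzj_q_FF W K)
      ((0 : K[X]) • (1 : mzj_q_R W K) + (1 : K[X]) • CoordinateRing.mk _ Y) := by
  rw [zero_smul, zero_add, one_smul]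
  rfl

theorem mzj_q_D_y : mzj_q_D W K (mzj_q_y W K) = 3 := by
  rw [mzj_q_y_eq, mzj_q_D_algebraMap_R W K (mzj_q_smul_basis_ne_zero W K (Or.inr one_ne_zero)),
    mzj_q_dR_smul_basis_right W K one_ne_zero (Or.inl rfl), natDegree_one]
  norm_num

/-- The `1`-component of the numerator of `x(g + (a, b)) - c`. -/
noncomputable def mzj_q_numP (a b c : K) : K[X] :=
  C (a - c) * X ^ 2 +
    C ((W⁄K).a₄ - (W⁄K).a₁ * b + a ^ 2 + 2 * (W⁄K).a₂ * a + 2 * c * a) * X +
    C ((W⁄K).a₆ + b ^ 2 + (W⁄K).a₁ * a * b - ((W⁄K).a₂ + a + c) * a ^ 2)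

/-- The `y`-component of the numerator of `x(g + (a, b)) - c`. -/
noncomputable def mzj_q_numQ (a b : K) : K[X] :=
  C (-(2 * b + (W⁄K).a₁ * a + (W⁄K).a₃))

theorem mzj_q_algebraMap_X : algebraMap K[X] (mzj_q_FF W K) X = mzj_q_x W K := rfl

theorem mzj_q_xi_sub_mul (a b c : K) :
    (mzj_q_xi W K a b - algebraMap K _ c) * (mzj_q_x W K - algebraMap K _ a) ^ 2 =
      algebraMap K[X] (mzj_q_FF W K) (mzj_q_numP W K a b c) +
        algebraMap K[X] (mzj_q_FF W K) (mzj_q_numQ W K a b) * mzj_q_y W K := by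
  have hW := mzj_q_eqAt_gen W K
  unfold s58f_EqAt at hW
  have hx : mzj_q_x W K - algebraMap K _ a ≠ 0 := by
    rw [mzj_q_x_sub_eq]
    exact mzj_q_algebraMap_poly_ne_zero W K (X_sub_C_ne_zero a)
  unfold mzj_q_xi mzj_q_sl mzj_q_numP mzj_q_numQ
  simp only [map_add, map_sub, map_mul, map_pow, map_neg, mzj_q_algebraMap_C, mzj_q_algebraMap_X,
    map_ofNat]
  field_simp
  linear_combination hW

theorem mzj_q_xi_sub_rep (a b c : K) :
    (mzj_q_xi W K a b - algebraMap K _ c) * algebraMap K[X] (mzj_q_FF W K) ((X - C a) ^ 2) =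
      algebraMap (mzj_q_R W K) (mzj_q_FF W K)
        (mzj_q_numP W K a b c • (1 : mzj_q_R W K) +
          mzj_q_numQ W K a b • CoordinateRing.mk _ Y) := by
  rw [mzj_q_algebraMap_smul_basis, ← mzj_q_xi_sub_mul, map_pow, ← mzj_q_x_sub_eq]

theorem mzj_q_natDegree_sq (a : K) : ((X - C a : K[X]) ^ 2).natDegree = 2 := by
  rw [natDegree_pow, natDegree_X_sub_C]

theorem mzj_q_sq_ne_zero (a : K) : (X - C a : K[X]) ^ 2 ≠ 0 :=
  pow_ne_zero 2 (X_sub_C_ne_zero a)

/-- `x(g + P) - c` has neither a zero nor a pole at infinity when `c ≠ x(P)`. -/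
theorem mzj_q_D_xi_sub_of_ne (a b c : K) (hc : c ≠ a) :
    mzj_q_xi W K a b - algebraMap K _ c ≠ 0 ∧
      mzj_q_D W K (mzj_q_xi W K a b - algebraMap K _ c) = 0 := by
  have hP : (mzj_q_numP W K a b c).natDegree = 2 := by
    unfold mzj_q_numP
    exact natDegree_quadratic (sub_ne_zero.mpr hc.symm)
  have hP0 : mzj_q_numP W K a b c ≠ 0 := by
    intro h0
    rw [h0, natDegree_zero] at hP
    omega
  have hQ : (mzj_q_numQ W K a b).natDegree = 0 := by
    unfold mzj_q_numQ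
    exact natDegree_C _
  have hN := mzj_q_smul_basis_ne_zero W K (p := mzj_q_numP W K a b c)
    (q := mzj_q_numQ W K a b) (Or.inl hP0)
  have hrep := mzj_q_xi_sub_rep W K a b c
  constructor
  · intro h0
    rw [h0, zero_mul] at hrep
    exact mzj_q_algebraMap_R_ne_zero W K hN hrep.symm
  · rw [mzj_q_D_eq W K (mzj_q_sq_ne_zero K a) hN hrep,
      mzj_q_dR_smul_basis_left W K hP0 (Or.inr (by rw [hP, hQ]; norm_num)), hP,
      mzj_q_natDegree_sq]
    norm_num

/-- `x(g + P) - x(P)` has a simple zero at infinity when `P` is not of order two. -/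
theorem mzj_q_D_xi_sub_self (a b : K) (hψ : 2 * b + (W⁄K).a₁ * a + (W⁄K).a₃ ≠ 0) :
    mzj_q_xi W K a b - algebraMap K _ a ≠ 0 ∧
      mzj_q_D W K (mzj_q_xi W K a b - algebraMap K _ a) = -1 := by
  have hP : (mzj_q_numP W K a b a).natDegree ≤ 1 := by
    unfold mzj_q_numP
    rw [sub_self, C_0, zero_mul, zero_add]
    exact natDegree_linear_le
  have hQ0 : mzj_q_numQ W K a b ≠ 0 := by
    unfold mzj_q_numQ
    exact C_ne_zero.mpr (neg_ne_zero.mpr hψ)
  have hQ : (mzj_q_numQ W K a b).natDegree = 0 := by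
    unfold mzj_q_numQ
    exact natDegree_C _
  have hN := mzj_q_smul_basis_ne_zero W K (p := mzj_q_numP W K a b a)
    (q := mzj_q_numQ W K a b) (Or.inr hQ0)
  have hrep := mzj_q_xi_sub_rep W K a b a
  constructor
  · intro h0
    rw [h0, zero_mul] at hrep
    exact mzj_q_algebraMap_R_ne_zero W K hN hrep.symm
  · rw [mzj_q_D_eq W K (mzj_q_sq_ne_zero K a) hN hrep,
      mzj_q_dR_smul_basis_right W K hQ0 (Or.inr (by rw [hQ]; omega)), hQ,
      mzj_q_natDegree_sq]
    norm_num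

/-- `x(g + P) - x(P)` has a double zero at infinity when `P` is of order two. -/
theorem mzj_q_D_xi_sub_self_two (a b : K) (hψ : 2 * b + (W⁄K).a₁ * a + (W⁄K).a₃ = 0)
    (hφ : 3 * a ^ 2 + 2 * (W⁄K).a₂ * a + (W⁄K).a₄ - (W⁄K).a₁ * b ≠ 0) :
    mzj_q_xi W K a b - algebraMap K _ a ≠ 0 ∧
      mzj_q_D W K (mzj_q_xi W K a b - algebraMap K _ a) = -2 := by
  have hPe : mzj_q_numP W K a b a =
      C (3 * a ^ 2 + 2 * (W⁄K).a₂ * a + (W⁄K).a₄ - (W⁄K).a₁ * b) * X +
      C ((W⁄K).a₆ + b ^ 2 + (W⁄K).a₁ * a * b - ((W⁄K).a₂ + a + a) * a ^ 2) := by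
    unfold mzj_q_numP
    rw [sub_self, C_0, zero_mul, zero_add,
      show (W⁄K).a₄ - (W⁄K).a₁ * b + a ^ 2 + 2 * (W⁄K).a₂ * a + 2 * a * a =
        3 * a ^ 2 + 2 * (W⁄K).a₂ * a + (W⁄K).a₄ - (W⁄K).a₁ * b by ring]
  have hP : (mzj_q_numP W K a b a).natDegree = 1 := by
    rw [hPe]
    exact natDegree_linear hφ
  have hP0 : mzj_q_numP W K a b a ≠ 0 := by
    intro h0
    rw [h0, natDegree_zero] at hP
    omega
  have hQ0 : mzj_q_numQ W K a b = 0 := by
    unfold mzj_q_numQ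
    rw [hψ, neg_zero, C_0]
  have hN := mzj_q_smul_basis_ne_zero W K (p := mzj_q_numP W K a b a)
    (q := mzj_q_numQ W K a b) (Or.inl hP0)
  have hrep := mzj_q_xi_sub_rep W K a b a
  constructor
  · intro h0
    rw [h0, zero_mul] at hrep
    exact mzj_q_algebraMap_R_ne_zero W K hN hrep.symm
  · rw [mzj_q_D_eq W K (mzj_q_sq_ne_zero K a) hN hrep,
      mzj_q_dR_smul_basis_left W K hP0 (Or.inl hQ0), hP, mzj_q_natDegree_sq]
    norm_num

end Fermat.Agent.MZ
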