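import Mathlib
import Fermat.Agent.MZ.J.Quot.Transport
import Fermat.Agent.S58.Fun.Iota

/-!
# [MZ-J] / [J-QUOT]: the constants of the invariant derivation are the constants

`mzj_q_const_of_der_zero : δ z = 0 → z ∈ K` for the invariant derivation `δ = mzj_q_der` of the
function field of an elliptic curve over an algebraically closed field of characteristic zero.
Route: the negation involution `ι` anticommutes with `δ`; `z + ι z` and `z · ι z` are `ι`-fixed,
hence rational functions of `x` with vanishing derivative, hence constants; so `z` is algebraic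
over `K`.
-/

set_option autoImplicit false
set_option linter.unusedSectionVars false
set_option linter.unusedSimpArgs false

namespace Fermat.Agent.MZ

open WeierstrassCurve WeierstrassCurve.Affine Polynomial
open Fermat.Agent.S58

open scoped Polynomial.Bivariate

variable {S : Type*} [CommRing S] (W : WeierstrassCurve S)
  (K : Type*) [Field K] [Algebra S K]

/-- The negation involution of the function field. -/
noncomputable def mzj_q_iota : mzj_q_FF W K →ₐ[K] mzj_q_FF W K := s58f_iotaK (W⁄K).toAffine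

theorem mzj_q_iota_poly (p : K[X]) :
    mzj_q_iota W K (algebraMap K[X] (mzj_q_FF W K) p) = algebraMap K[X] (mzj_q_FF W K) p :=
  s58f_iotaK_poly _ p

theorem mzj_q_iota_x : mzj_q_iota W K (mzj_q_x W K) = mzj_q_x W K := mzj_q_iota_poly W K X

theorem mzj_q_iota_y : mzj_q_iota W K (mzj_q_y W K) =
    -mzj_q_y W K - (algebraMap K _ (W⁄K).a₁ * mzj_q_x W K + algebraMap K _ (W⁄K).a₃) := by
  unfold mzj_q_iota mzj_q_y
  rw [s58f_iotaK_algebraMap, s58f_iotaC_mkY, s58f_mk_negPolynomial, map_sub, map_neg,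
    ← IsScalarTower.algebraMap_apply K[X] (mzj_q_R W K) (mzj_q_FF W K), map_add, map_mul,
    mzj_q_algebraMap_C, mzj_q_algebraMap_C]
  rfl

variable [W.IsElliptic] [DecidableEq K] [IsAlgClosed K]

theorem mzj_q_iota_iota (z : mzj_q_FF W K) : mzj_q_iota W K (mzj_q_iota W K z) = z := by
  have h : (mzj_q_iota W K).comp (mzj_q_iota W K) = AlgHom.id K _ := by
    apply mzj_q_algHom_ext
    · show mzj_q_iota W K (mzj_q_iota W K (mzj_q_x W K)) = mzj_q_x W K
      rw [mzj_q_iota_x, mzj_q_iota_x]
    · show mzj_q_iota W K (mzj_q_iota W K (mzj_q_y W K)) = mzj_q_y W K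
      rw [mzj_q_iota_y, map_sub, map_neg, map_add, map_mul, AlgHom.commutes, AlgHom.commutes,
        mzj_q_iota_x, mzj_q_iota_y]
      ring
  exact congrArg (fun f : mzj_q_FF W K →ₐ[K] mzj_q_FF W K => f z) h

theorem mzj_q_iota_psi : mzj_q_iota W K (mzj_q_psi W K) = -mzj_q_psi W K := by
  unfold mzj_q_psi
  simp only [map_add, map_mul, map_ofNat, AlgHom.commutes, mzj_q_iota_x, mzj_q_iota_y]
  ring

theorem mzj_q_iota_phi : mzj_q_iota W K (mzj_q_phi W K) =
    mzj_q_phi W K + algebraMap K _ (W⁄K).a₁ * mzj_q_psi W K := by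
  unfold mzj_q_phi mzj_q_psi
  simp only [map_add, map_sub, map_mul, map_pow, map_ofNat, AlgHom.commutes, mzj_q_iota_x,
    mzj_q_iota_y]
  ring

/-- `δ ∘ ι = - ι ∘ δ`. -/
theorem mzj_q_der_iota (z : mzj_q_FF W K) :
    mzj_q_der W K (mzj_q_iota W K z) = -mzj_q_iota W K (mzj_q_der W K z) := by
  have hD : mzj_q_derConj W K (mzj_q_der W K) (mzj_q_iota W K) (mzj_q_iota W K)
      (mzj_q_iota_iota W K) = -mzj_q_der W K := by
    apply mzj_q_der_ext
    · rw [mzj_q_derConj_apply, mzj_q_iota_x, mzj_q_der_x, mzj_q_iota_psi, Derivation.neg_apply,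
        mzj_q_der_x]
    · have h0 : mzj_q_der W K (-mzj_q_y W K -
          (algebraMap K _ (W⁄K).a₁ * mzj_q_x W K + algebraMap K _ (W⁄K).a₃)) =
          -mzj_q_phi W K - algebraMap K _ (W⁄K).a₁ * mzj_q_psi W K := by
        rw [map_sub, map_neg, map_add, Derivation.leibniz, Derivation.map_algebraMap,
          Derivation.map_algebraMap, mzj_q_der_x, mzj_q_der_y]
        simp only [smul_eq_mul, smul_zero, add_zero, mul_zero]
      rw [mzj_q_derConj_apply, mzj_q_iota_y, h0, map_sub, map_neg, map_mul, AlgHom.commutes,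
        mzj_q_iota_phi, mzj_q_iota_psi, Derivation.neg_apply, mzj_q_der_y]
      ring
  have h1 := congrArg (fun D : Derivation K (mzj_q_FF W K) (mzj_q_FF W K) => D z) hD
  simp only [mzj_q_derConj_apply] at h1
  have h2 : mzj_q_iota W K (mzj_q_der W K (mzj_q_iota W K z)) = -(mzj_q_der W K z) := h1
  have h3 := congrArg (mzj_q_iota W K) h2
  rw [mzj_q_iota_iota, map_neg] at h3
  exact h3

theorem mzj_q_psi_rep : mzj_q_psi W K =
    algebraMap (mzj_q_R W K) (mzj_q_FF W K)
      ((C (W⁄K).a₁ * X + C (W⁄K).a₃ : K[X]) • (1 : mzj_q_R W K) +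
        (C 2 : K[X]) • CoordinateRing.mk _ Y) := by
  rw [mzj_q_algebraMap_smul_basis]
  unfold mzj_q_psi
  simp only [map_add, map_mul, mzj_q_algebraMap_C, mzj_q_algebraMap_X, map_ofNat]
  ring

theorem mzj_q_psi_ne_zero [CharZero K] : mzj_q_psi W K ≠ 0 := by
  rw [mzj_q_psi_rep]
  apply mzj_q_algebraMap_R_ne_zero
  apply mzj_q_smul_basis_ne_zero
  right
  exact C_ne_zero.mpr two_ne_zero

/-- The derivative of a polynomial in `x`. -/
theorem mzj_q_der_poly (p : K[X]) :
    mzj_q_der W K (algebraMap K[X] (mzj_q_FF W K) p) =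
      algebraMap K[X] (mzj_q_FF W K) (derivative p) * mzj_q_psi W K := by
  rw [mzj_q_algebraMap_poly, mzj_q_algebraMap_poly, Derivation.map_aeval, mzj_q_der_x, smul_eq_mul]

variable [CharZero K]

/-- A polynomial fraction with vanishing derivative is a constant. -/
theorem mzj_q_const_of_poly_frac {z : mzj_q_FF W K} {P n : K[X]} (hn : n ≠ 0)
    (hz : z * algebraMap K[X] (mzj_q_FF W K) n = algebraMap K[X] (mzj_q_FF W K) P)
    (hδ : mzj_q_der W K z = 0) : ∃ c : K, algebraMap K (mzj_q_FF W K) c = z := by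
  obtain ⟨g, a, b, hg, hb, hab, rfl, rfl⟩ := s58f_exists_coprime P n hn
  have hgF : algebraMap K[X] (mzj_q_FF W K) g ≠ 0 := mzj_q_algebraMap_poly_ne_zero W K hg
  have hbF : algebraMap K[X] (mzj_q_FF W K) b ≠ 0 := mzj_q_algebraMap_poly_ne_zero W K hb
  have hz' : z * algebraMap K[X] (mzj_q_FF W K) b = algebraMap K[X] (mzj_q_FF W K) a := by
    rw [map_mul, map_mul] at hz
    apply mul_left_cancel₀ hgF
    linear_combination hz
  -- differentiate
  have h1 := congrArg (mzj_q_der W K) hz'
  rw [Derivation.leibniz, hδ, smul_zero, add_zero, smul_eq_mul, mzj_q_der_poly, mzj_q_der_poly]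
    at h1
  have hψ := mzj_q_psi_ne_zero W K
  have h2 : z * algebraMap K[X] (mzj_q_FF W K) (derivative b) =
      algebraMap K[X] (mzj_q_FF W K) (derivative a) := by
    apply mul_right_cancel₀ hψ
    linear_combination h1
  have h3 : a * derivative b = derivative a * b := by
    apply mzj_q_polyInj W K
    rw [map_mul, map_mul, ← hz', ← h2]
    ring
  -- `b ∣ b'`
  have h4 : b ∣ derivative b := by
    have : b ∣ a * derivative b := ⟨derivative a, by rw [h3]; ring⟩
    exact hab.symm.dvd_of_dvd_mul_left this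
  have h5 : derivative b = 0 := by
    by_contra hne
    have hb1 : b.natDegree ≤ (derivative b).natDegree := natDegree_le_of_dvd h4 hne
    have hb2 : b.natDegree ≠ 0 := by
      intro h0
      apply hne
      rw [eq_C_of_natDegree_eq_zero h0, derivative_C]
    have := natDegree_derivative_lt hb2
    omega
  have h6 : derivative a = 0 := by
    have : derivative a * b = 0 := by rw [← h3, h5, mul_zero]
    exact (mul_eq_zero.mp this).resolve_right hb
  have ha := eq_C_of_natDegree_eq_zero (derivative_eq_zero.mp h6)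
  have hb' := eq_C_of_natDegree_eq_zero (derivative_eq_zero.mp h5)
  have hb0 : b.coeff 0 ≠ 0 := by
    intro h0
    apply hb
    rw [hb', h0, C_0]
  refine ⟨a.coeff 0 / b.coeff 0, ?_⟩
  rw [ha, hb', mzj_q_algebraMap_C, mzj_q_algebraMap_C] at hz'
  have hb0F : algebraMap K (mzj_q_FF W K) (b.coeff 0) ≠ 0 := by
    rw [Ne, _root_.map_eq_zero]; exact hb0
  rw [map_div₀, ← hz']
  field_simp

/-- An element fixed by the negation involution with vanishing derivative is a constant. -/
theorem mzj_q_const_of_fixed {z : mzj_q_FF W K} (hι : mzj_q_iota W K z = z)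
    (hδ : mzj_q_der W K z = 0) : ∃ c : K, algebraMap K (mzj_q_FF W K) c = z := by
  obtain ⟨P, n, hn, hz⟩ := s58f_iotaK_fixed (W⁄K).toAffine (W⁄K).isUnit_Δ.ne_zero z hι
  exact mzj_q_const_of_poly_frac W K hn hz hδ

/-- **The constants of the invariant derivation.** -/
theorem mzj_q_const_of_der_zero {z : mzj_q_FF W K} (hδ : mzj_q_der W K z = 0) :
    ∃ c : K, algebraMap K (mzj_q_FF W K) c = z := by
  have hδι : mzj_q_der W K (mzj_q_iota W K z) = 0 := by
    rw [mzj_q_der_iota, hδ, map_zero, neg_zero]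
  obtain ⟨s, hs⟩ := mzj_q_const_of_fixed W K (z := z + mzj_q_iota W K z)
    (by rw [map_add, mzj_q_iota_iota, add_comm]) (by rw [map_add, hδ, hδι, add_zero])
  obtain ⟨p, hp⟩ := mzj_q_const_of_fixed W K (z := z * mzj_q_iota W K z)
    (by rw [map_mul, mzj_q_iota_iota, mul_comm])
    (by rw [Derivation.leibniz, hδ, hδι, smul_zero, smul_zero, add_zero])
  apply s58f_mem_range_of_isIntegral
  refine ⟨X ^ 2 + (C (-s) * X + C p), ?_, ?_⟩
  · apply monic_X_pow_add
    refine lt_of_le_of_lt degree_linear_le ?_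
    norm_num
  · rw [eval₂_add, eval₂_add, eval₂_mul, eval₂_pow, eval₂_X, eval₂_C, eval₂_C, map_neg, hs, hp]
    ring

end Fermat.Agent.MZ
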