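import Mathlib

/-!
# [MZ-J] / [J-QUOT]: pure field identities used for Vélu's formulas
-/

set_option autoImplicit false

namespace Fermat.Agent.MZ

/-- `x(P + Q) + x(P - Q) - 2 x(Q) = t_Q / (x - x_Q) + u_Q / (x - x_Q)²`. -/
theorem mzj_q_F1 {F : Type*} [Field F] (A₁ A₂ A₃ A₄ A₆ x y a b : F)
    (hW : y ^ 2 + A₁ * x * y + A₃ * y = x ^ 3 + A₂ * x ^ 2 + A₄ * x + A₆)
    (hQ : b ^ 2 + A₁ * a * b + A₃ * b = a ^ 3 + A₂ * a ^ 2 + A₄ * a + A₆)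
    (hne : x - a ≠ 0) :
    (((y - b) / (x - a)) ^ 2 + A₁ * ((y - b) / (x - a)) - A₂ - x - a) +
      (((y - (-b - A₁ * a - A₃)) / (x - a)) ^ 2 + A₁ * ((y - (-b - A₁ * a - A₃)) / (x - a)) -
        A₂ - x - a) - 2 * a =
    (6 * a ^ 2 + (A₁ ^ 2 + 4 * A₂) * a + (2 * A₄ + A₁ * A₃)) / (x - a) +
      (4 * a ^ 3 + (A₁ ^ 2 + 4 * A₂) * a ^ 2 + 2 * (2 * A₄ + A₁ * A₃) * a + (A₃ ^ 2 + 4 * A₆)) /
        (x - a) ^ 2 := by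
  have hA₄ : A₄ = ((y ^ 2 + A₁ * x * y + A₃ * y - x ^ 3 - A₂ * x ^ 2) -
      (b ^ 2 + A₁ * a * b + A₃ * b - a ^ 3 - A₂ * a ^ 2)) / (x - a) := by
    field_simp
    linear_combination hQ - hW
  have hA₆ : A₆ = b ^ 2 + A₁ * a * b + A₃ * b - a ^ 3 - A₂ * a ^ 2 - A₄ * a := by
    linear_combination -hQ
  clear hW hQ
  subst hA₆
  subst hA₄
  field_simp
  ring

/-- The expansion at infinity of `Υ² - f'(X)`. -/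
theorem mzj_q_asy {F : Type*} [Field F] (x ψ ρ ρ' v w b₂ b₄ b₆ r r' b₄' b₆' f : F) (hx : x ≠ 0)
    (hf : f = 4 * x ^ 3 + b₂ * x ^ 2 + 2 * b₄ * x + b₆)
    (hψ : ψ ^ 2 = f)
    (hr : r = v / x + w / x ^ 2 + ρ) (hr' : r' = -v / x ^ 2 - 2 * w / x ^ 3 + ρ')
    (hb₄' : b₄' = b₄ - 10 * v) (hb₆' : b₆' = b₆ - 4 * b₂ * v - 28 * w) :
    (ψ * (1 + r')) ^ 2 - (4 * (x + r) ^ 3 + b₂ * (x + r) ^ 2 + 2 * b₄' * (x + r) + b₆') =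
      8 * x ^ 3 * ρ' - 6 * b₂ * w * x⁻¹ + 2 * b₂ * x ^ 2 * ρ' + 2 * (2 * b₄ * x + b₆) * r' -
        12 * x ^ 2 * ρ - 2 * b₂ * x * ρ + f * r' ^ 2 - 12 * x * r ^ 2 - 4 * r ^ 3 - b₂ * r ^ 2 -
        2 * b₄' * r := by
  rw [mul_pow, hψ]
  subst hb₄' hb₆' hr hr' hf
  field_simp
  ring

/-- The remainder of `t/(x-a) + u/(x-a)²` after its first two terms at infinity. -/
theorem mzj_q_rho_term {F : Type*} [Field F] (x a t u : F) (hx : x ≠ 0) (hxa : x - a ≠ 0) :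
    t / (x - a) + u / (x - a) ^ 2 - t / x - (u + a * t) / x ^ 2 =
      t * a ^ 2 * (x⁻¹ ^ 2 * (x - a)⁻¹) + u * (2 * a * x - a ^ 2) * (x⁻¹ ^ 2 * (x - a)⁻¹ ^ 2) := by
  field_simp
  ring

/-- The remainder of `-(t/(x-a)² + 2u/(x-a)³)` after its first two terms at infinity. -/
theorem mzj_q_rho'_term {F : Type*} [Field F] (x a t u : F) (hx : x ≠ 0) (hxa : x - a ≠ 0) :
    -(t / (x - a) ^ 2 + 2 * u / (x - a) ^ 3) + t / x ^ 2 + 2 * (u + a * t) / x ^ 3 =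
      -(t * (3 * a ^ 2 * x - 2 * a ^ 3) * (x⁻¹ ^ 3 * (x - a)⁻¹ ^ 2)) -
        2 * u * (3 * a * x ^ 2 - 3 * a ^ 2 * x + a ^ 3) * (x⁻¹ ^ 3 * (x - a)⁻¹ ^ 3) := by
  field_simp
  ring

end Fermat.Agent.MZ
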