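import Mathlib
import Fermat.Agent.MZ.J.Quot.Deg

/-!
# [MZ-J] / [J-QUOT]: the key lemma (an invariant rational function of `x` with poles only at
the `x`-coordinates of the kernel and vanishing at infinity is zero)
-/

set_option autoImplicit false
set_option linter.unusedSectionVars false
set_option linter.unusedSimpArgs false

namespace Fermat.Agent.MZ

open WeierstrassCurve WeierstrassCurve.Affine Polynomial
open Fermat.Agent.S58

open scoped Polynomial.Bivariate

variable {S : Type*} [CommRing S] (W : WeierstrassCurve S)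
  (K : Type*) [Field K] [Algebra S K]

/-- `D` of a product over a multiset. -/
theorem mzj_q_D_multiset_prod (m : Multiset (mzj_q_FF W K)) (hm : ∀ u ∈ m, u ≠ 0) :
    m.prod ≠ 0 ∧ mzj_q_D W K m.prod = (m.map (mzj_q_D W K)).sum := by
  induction m using Multiset.induction with
  | empty => simp [mzj_q_D_one]
  | cons a m ih =>
    have ha : a ≠ 0 := hm a (Multiset.mem_cons_self a m)
    obtain ⟨h1, h2⟩ := ih (fun u hu => hm u (Multiset.mem_cons_of_mem hu))
    rw [Multiset.prod_cons, Multiset.map_cons, Multiset.sum_cons]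
    exact ⟨mul_ne_zero ha h1, by rw [mzj_q_D_mul W K ha h1, h2]⟩

variable [IsAlgClosed K]

/-- Pole order at infinity of `G(ξ)` for an element `ξ` behaving like `x(g + P)`. -/
theorem mzj_q_D_aeval (ξ : mzj_q_FF W K) (a : K) (e : ℤ)
    (h1 : ∀ c : K, c ≠ a → ξ - algebraMap K _ c ≠ 0 ∧ mzj_q_D W K (ξ - algebraMap K _ c) = 0)
    (h2 : ξ - algebraMap K _ a ≠ 0 ∧ mzj_q_D W K (ξ - algebraMap K _ a) = -e)
    {G : K[X]} (hG : G ≠ 0) :
    aeval ξ G ≠ 0 ∧ mzj_q_D W K (aeval ξ G) = -e * (G.rootMultiplicity a : ℤ) := by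
  classical
  have hs := (IsAlgClosed.splits G).eq_prod_roots
  have hlc : G.leadingCoeff ≠ 0 := leadingCoeff_ne_zero.mpr hG
  have hprod : aeval ξ G = algebraMap K _ G.leadingCoeff *
      ((G.roots.map (fun r => ξ - algebraMap K (mzj_q_FF W K) r)).prod) := by
    conv_lhs => rw [hs]
    rw [map_mul, aeval_C, map_multiset_prod, Multiset.map_map]
    congr 2
    apply Multiset.map_congr rfl
    intro r _
    simp
  have hne : ∀ u ∈ G.roots.map (fun r => ξ - algebraMap K (mzj_q_FF W K) r), u ≠ 0 := by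
    intro u hu
    obtain ⟨r, _, rfl⟩ := Multiset.mem_map.mp hu
    by_cases hr : r = a
    · rw [hr]; exact h2.1
    · exact (h1 r hr).1
  obtain ⟨h3, h4⟩ := mzj_q_D_multiset_prod W K _ hne
  have hc : algebraMap K (mzj_q_FF W K) G.leadingCoeff ≠ 0 := (_root_.map_ne_zero _).mpr hlc
  refine ⟨by rw [hprod]; exact mul_ne_zero hc h3, ?_⟩
  rw [hprod, mzj_q_D_mul W K hc h3, mzj_q_D_const W K hlc, zero_add, h4, Multiset.map_map]
  have h5 : ∀ r ∈ G.roots, (mzj_q_D W K ∘ fun r => ξ - algebraMap K (mzj_q_FF W K) r) r =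
      if r = a then -e else 0 := by
    intro r _
    by_cases hr : r = a
    · rw [if_pos hr, hr]; exact h2.2
    · rw [if_neg hr]; exact (h1 r hr).2
  rw [Multiset.map_congr rfl h5, ← count_roots]
  clear h5 hne h3 h4 hprod hs
  induction G.roots using Multiset.induction with
  | empty => simp
  | cons r m ih =>
    rw [Multiset.map_cons, Multiset.sum_cons, ih, Multiset.count_cons]
    by_cases hr : r = a
    · rw [if_pos hr, if_pos hr.symm]; push_cast; ring
    · rw [if_neg hr, if_neg (Ne.symm hr)]; push_cast; ring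

/-- **Key lemma.** `Ψ = P(x)/H(x)` where all roots of `H` lie in a finite set `Z`; for every
`z ∈ Z` there is an endomorphism `τ` of the function field fixing `Ψ` such that `τ x - c` is a
unit at infinity for `c ≠ z` and vanishes at infinity for `c = z`. If `Ψ` vanishes at infinity
then `Ψ = 0`. -/
theorem mzj_q_KL (Z : Set K) (Ψ : mzj_q_FF W K) (H P : K[X]) (hH : H ≠ 0)
    (hroots : ∀ z ∈ H.roots, z ∈ Z)
    (hrep : Ψ * aeval (mzj_q_x W K) H = aeval (mzj_q_x W K) P)
    (hZ : ∀ z ∈ Z, ∃ (τ : mzj_q_FF W K →ₐ[K] mzj_q_FF W K) (e : ℤ), 0 < e ∧ τ Ψ = Ψ ∧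
      (∀ c : K, c ≠ z → τ (mzj_q_x W K) - algebraMap K _ c ≠ 0 ∧
        mzj_q_D W K (τ (mzj_q_x W K) - algebraMap K _ c) = 0) ∧
      (τ (mzj_q_x W K) - algebraMap K _ z ≠ 0 ∧
        mzj_q_D W K (τ (mzj_q_x W K) - algebraMap K _ z) = -e))
    (hD : mzj_q_D W K Ψ < 0) : Ψ = 0 := by
  classical
  by_contra hΨ
  have hHx : aeval (mzj_q_x W K) H ≠ 0 := by
    rw [← mzj_q_algebraMap_poly]
    exact mzj_q_algebraMap_poly_ne_zero W K hH
  have hP : P ≠ 0 := by
    rintro rfl
    rw [map_zero] at hrep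
    rcases mul_eq_zero.mp hrep with h | h
    · exact hΨ h
    · exact hHx h
  have hle : H.roots ≤ P.roots := by
    rw [Multiset.le_iff_count]
    intro z
    by_cases hz : z ∈ H.roots
    · obtain ⟨τ, e, he, hτ, h1, h2⟩ := hZ z (hroots z hz)
      have h3 := congrArg τ hrep
      rw [map_mul, hτ, ← aeval_algHom_apply, ← aeval_algHom_apply] at h3
      obtain ⟨h4, h5⟩ := mzj_q_D_aeval W K (τ (mzj_q_x W K)) z e h1 h2 hH
      obtain ⟨h6, h7⟩ := mzj_q_D_aeval W K (τ (mzj_q_x W K)) z e h1 h2 hP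
      have h8 := congrArg (mzj_q_D W K) h3
      rw [mzj_q_D_mul W K hΨ h4, h5, h7] at h8
      rw [count_roots, count_roots]
      by_contra hlt
      push Not at hlt
      have h9 : ((P.rootMultiplicity z : ℤ)) + 1 ≤ (H.rootMultiplicity z : ℤ) := by
        exact_mod_cast hlt
      nlinarith
    · rw [Multiset.count_eq_zero_of_notMem hz]
      exact Nat.zero_le _
  obtain ⟨P₁, rfl⟩ := (IsAlgClosed.splits H).dvd_of_roots_le_roots hH hle
  have hP₁ : P₁ ≠ 0 := right_ne_zero_of_mul hP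
  rw [map_mul, mul_comm] at hrep
  have h1 : Ψ = aeval (mzj_q_x W K) P₁ := mul_left_cancel₀ hHx hrep
  rw [h1, ← mzj_q_algebraMap_poly, mzj_q_D_poly W K hP₁] at hD
  omega

end Fermat.Agent.MZ
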