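import Mathlib
import Fermat.Agent.MZ.J.Quot.Transport

/-!
# [MZ-J] / [J-QUOT]: calculus of pole orders at infinity

`mzj_q_Sm W K m u` : the pole order of `u` at infinity is at most `m` (or `u = 0`).
-/

set_option autoImplicit false
set_option linter.unusedSectionVars false
set_option linter.unusedSimpArgs false

namespace Fermat.Agent.MZ

open WeierstrassCurve WeierstrassCurve.Affine Polynomial
open Fermat.Agent.S58

open scoped Polynomial.Bivariate

variable {S : Type*} [CommRing S] (W : WeierstrassCurve S)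
  (K : Type*) [Field K] [Algebra S K]

/-- `u = 0` or the pole order of `u` at infinity is at most `m`. -/
def mzj_q_Sm (m : ℤ) (u : mzj_q_FF W K) : Prop := u = 0 ∨ mzj_q_D W K u ≤ m

variable {W K}

theorem mzj_q_Sm_zero (m : ℤ) : mzj_q_Sm W K m 0 := Or.inl rfl

theorem mzj_q_Sm_mono {m m' : ℤ} (h : m ≤ m') {u : mzj_q_FF W K} (hu : mzj_q_Sm W K m u) :
    mzj_q_Sm W K m' u := hu.imp id (fun h1 => h1.trans h)

theorem mzj_q_Sm_add {m : ℤ} {u v : mzj_q_FF W K} (hu : mzj_q_Sm W K m u)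
    (hv : mzj_q_Sm W K m v) : mzj_q_Sm W K m (u + v) := by
  by_cases h0 : u + v = 0
  · exact Or.inl h0
  rcases hu with rfl | hu
  · rw [zero_add]; exact hv
  rcases hv with rfl | hv
  · rw [add_zero]; exact Or.inr hu
  by_cases hu0 : u = 0
  · rw [hu0, zero_add]; exact Or.inr hv
  by_cases hv0 : v = 0
  · rw [hv0, add_zero]; exact Or.inr hu
  exact Or.inr ((mzj_q_D_add_le W K hu0 hv0 h0).trans (max_le hu hv))

theorem mzj_q_Sm_neg {m : ℤ} {u : mzj_q_FF W K} (hu : mzj_q_Sm W K m u) :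
    mzj_q_Sm W K m (-u) := by
  rcases hu with rfl | hu
  · rw [neg_zero]; exact Or.inl rfl
  · exact Or.inr (by rw [mzj_q_D_neg]; exact hu)

theorem mzj_q_Sm_sub {m : ℤ} {u v : mzj_q_FF W K} (hu : mzj_q_Sm W K m u)
    (hv : mzj_q_Sm W K m v) : mzj_q_Sm W K m (u - v) := by
  rw [sub_eq_add_neg]
  exact mzj_q_Sm_add hu (mzj_q_Sm_neg hv)

theorem mzj_q_Sm_mul {m m' : ℤ} {u v : mzj_q_FF W K} (hu : mzj_q_Sm W K m u)
    (hv : mzj_q_Sm W K m' v) : mzj_q_Sm W K (m + m') (u * v) := by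
  rcases hu with rfl | hu
  · rw [zero_mul]; exact Or.inl rfl
  rcases hv with rfl | hv
  · rw [mul_zero]; exact Or.inl rfl
  by_cases hu0 : u = 0
  · rw [hu0, zero_mul]; exact Or.inl rfl
  by_cases hv0 : v = 0
  · rw [hv0, mul_zero]; exact Or.inl rfl
  exact Or.inr (by rw [mzj_q_D_mul W K hu0 hv0]; exact add_le_add hu hv)

theorem mzj_q_Sm_mul' {m m' n : ℤ} {u v : mzj_q_FF W K} (hu : mzj_q_Sm W K m u)
    (hv : mzj_q_Sm W K m' v) (h : m + m' ≤ n) : mzj_q_Sm W K n (u * v) :=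
  mzj_q_Sm_mono h (mzj_q_Sm_mul hu hv)

theorem mzj_q_Sm_sum {ι : Type*} (s : Finset ι) (f : ι → mzj_q_FF W K) {m : ℤ}
    (h : ∀ i ∈ s, mzj_q_Sm W K m (f i)) : mzj_q_Sm W K m (∑ i ∈ s, f i) := by
  classical
  induction s using Finset.induction_on with
  | empty => exact Or.inl Finset.sum_empty
  | insert a s ha ih =>
    rw [Finset.sum_insert ha]
    exact mzj_q_Sm_add (h a (Finset.mem_insert_self a s))
      (ih fun i hi => h i (Finset.mem_insert_of_mem hi))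

theorem mzj_q_Sm_const (c : K) : mzj_q_Sm W K 0 (algebraMap K (mzj_q_FF W K) c) := by
  by_cases hc : c = 0
  · rw [hc, map_zero]; exact Or.inl rfl
  · exact Or.inr (mzj_q_D_const W K hc).le

theorem mzj_q_Sm_ofNat (n : ℕ) [n.AtLeastTwo] :
    mzj_q_Sm W K 0 (OfNat.ofNat n : mzj_q_FF W K) := by
  have h := mzj_q_Sm_const (W := W) (K := K) (OfNat.ofNat n : K)
  rwa [map_ofNat] at h

theorem mzj_q_Sm_one : mzj_q_Sm W K 0 (1 : mzj_q_FF W K) :=
  Or.inr (mzj_q_D_one W K).le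

theorem mzj_q_Sm_x : mzj_q_Sm W K 2 (mzj_q_x W K) := Or.inr (mzj_q_D_x W K).le

theorem mzj_q_Sm_pow {m : ℤ} {u : mzj_q_FF W K} (hu : mzj_q_Sm W K m u) (k : ℕ) :
    mzj_q_Sm W K (k * m) (u ^ k) := by
  induction k with
  | zero => simpa using mzj_q_Sm_one
  | succ k ih =>
    rw [pow_succ]
    refine mzj_q_Sm_mul' ih hu ?_
    push_cast
    linarith

theorem mzj_q_Sm_inv_x_sub (a : K) :
    mzj_q_Sm W K (-2) (mzj_q_x W K - algebraMap K _ a)⁻¹ := by
  have h0 : mzj_q_x W K - algebraMap K _ a ≠ 0 := by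
    rw [mzj_q_x_sub_eq]
    exact mzj_q_algebraMap_poly_ne_zero W K (X_sub_C_ne_zero a)
  exact Or.inr (by rw [mzj_q_D_inv W K h0, mzj_q_D_x_sub])

theorem mzj_q_Sm_inv_x : mzj_q_Sm W K (-2) (mzj_q_x W K)⁻¹ := by
  have h := mzj_q_Sm_inv_x_sub (W := W) (K := K) 0
  rwa [map_zero, sub_zero] at h

theorem mzj_q_Sm_y : mzj_q_Sm W K 3 (mzj_q_y W K) := Or.inr (mzj_q_D_y W K).le

/-- An element with negative pole order which is a constant vanishes. -/
theorem mzj_q_const_eq_zero_of_Sm {c : K} {m : ℤ} (hm : m < 0)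
    (h : mzj_q_Sm W K m (algebraMap K (mzj_q_FF W K) c)) : c = 0 := by
  by_contra hc
  rcases h with h | h
  · exact hc ((_root_.map_eq_zero _).mp h)
  · rw [mzj_q_D_const W K hc] at h
    omega

end Fermat.Agent.MZ
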