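import Mathlib
import Fermat.Agent.MZ.J.Quot.Small
import Fermat.Agent.MZ.J.Quot.KL
import Fermat.Agent.MZ.J.Quot.Formulas

/-!
# [MZ-J] / [J-QUOT]: Vélu's functions `X_N`, `Υ_N = 2 Y_N + a₁ X_N + a₃` and their
Weierstrass equation
-/

set_option autoImplicit false
set_option linter.unusedSectionVars false
set_option linter.unusedSimpArgs false

namespace Fermat.Agent.MZ

open WeierstrassCurve WeierstrassCurve.Affine Polynomial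
open Fermat.Agent.S58

open scoped Polynomial.Bivariate

variable {S : Type*} [CommRing S] (W : WeierstrassCurve S)
  (K : Type*) [Field K] [Algebra S K]

/-- The `x`-coordinate of a point (`0` for the origin). -/
def mzj_q_px : (W⁄K).Point → K
  | .zero => 0
  | .some a _ _ => a

/-- The `y`-coordinate of a point (`0` for the origin). -/
def mzj_q_py : (W⁄K).Point → K
  | .zero => 0
  | .some _ b _ => b

/-- Vélu's `t_Q = 6 x_Q² + b₂ x_Q + b₄`. -/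
def mzj_q_tP (P : (W⁄K).Point) : K :=
  6 * mzj_q_px W K P ^ 2 + (W⁄K).b₂ * mzj_q_px W K P + (W⁄K).b₄

/-- Vélu's `u_Q = 4 x_Q³ + b₂ x_Q² + 2 b₄ x_Q + b₆`. -/
def mzj_q_uP (P : (W⁄K).Point) : K :=
  4 * mzj_q_px W K P ^ 3 + (W⁄K).b₂ * mzj_q_px W K P ^ 2 + 2 * (W⁄K).b₄ * mzj_q_px W K P +
    (W⁄K).b₆

theorem mzj_q_px_neg (P : (W⁄K).Point) : mzj_q_px W K (-P) = mzj_q_px W K P := by
  rcases P with _ | ⟨a, b, h⟩
  · rfl
  · rw [Point.neg_some]; rfl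

theorem mzj_q_tP_neg (P : (W⁄K).Point) : mzj_q_tP W K (-P) = mzj_q_tP W K P := by
  unfold mzj_q_tP; rw [mzj_q_px_neg]

theorem mzj_q_uP_neg (P : (W⁄K).Point) : mzj_q_uP W K (-P) = mzj_q_uP W K P := by
  unfold mzj_q_uP; rw [mzj_q_px_neg]

variable [W.IsElliptic] [DecidableEq K] [IsAlgClosed K]

theorem mzj_q_tau_x_of_ne_zero {P : (W⁄K).Point} (hP : P ≠ 0) :
    mzj_q_tau W K P (mzj_q_x W K) = mzj_q_xi W K (mzj_q_px W K P) (mzj_q_py W K P) := by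
  rcases P with _ | ⟨a, b, h⟩
  · exact absurd rfl hP
  · exact mzj_q_tau_some_x W K h

/-- The pairing identity `x(g+P) + x(g-P) - 2x(P) = t_P/(x - x_P) + u_P/(x - x_P)²`. -/
theorem mzj_q_pair {P : (W⁄K).Point} (hP : P ≠ 0) :
    (mzj_q_tau W K P (mzj_q_x W K) - algebraMap K _ (mzj_q_px W K P)) +
      (mzj_q_tau W K (-P) (mzj_q_x W K) - algebraMap K _ (mzj_q_px W K P)) =
    algebraMap K _ (mzj_q_tP W K P) / (mzj_q_x W K - algebraMap K _ (mzj_q_px W K P)) +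
      algebraMap K _ (mzj_q_uP W K P) / (mzj_q_x W K - algebraMap K _ (mzj_q_px W K P)) ^ 2 := by
  rcases P with _ | ⟨a, b, h⟩
  · exact absurd rfl hP
  · rw [Point.neg_some, mzj_q_tau_some_x, mzj_q_tau_some_x]
    have hW := mzj_q_eqAt_gen W K
    unfold s58f_EqAt at hW
    have hQ := mzj_q_eq_const W K h
    have hne := mzj_q_x_sub_const_ne_zero W K a
    have h1 := mzj_q_F1 (algebraMap K (mzj_q_FF W K) (W⁄K).a₁) (algebraMap K _ (W⁄K).a₂)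
      (algebraMap K _ (W⁄K).a₃) (algebraMap K _ (W⁄K).a₄) (algebraMap K _ (W⁄K).a₆)
      (mzj_q_x W K) (mzj_q_y W K) (algebraMap K _ a) (algebraMap K _ b) hW hQ hne
    simp only [mzj_q_xi, mzj_q_sl, mzj_q_px, mzj_q_tP, mzj_q_uP, Affine.negY, WeierstrassCurve.b₂,
      WeierstrassCurve.b₄, WeierstrassCurve.b₆, map_add, map_sub, map_mul, map_pow, map_neg,
      map_ofNat]
    linear_combination h1

variable (N : AddSubgroup (W⁄K).Point) [Fintype N]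

/-- The nonzero elements of `N`. -/
def mzj_q_Nz : Finset N := Finset.univ.erase 0

theorem mzj_q_mem_Nz {Q : N} : Q ∈ mzj_q_Nz W K N ↔ Q ≠ 0 := by
  unfold mzj_q_Nz
  rw [Finset.mem_erase]
  exact ⟨fun h => h.1, fun h => ⟨h, Finset.mem_univ _⟩⟩

theorem mzj_q_coe_ne_zero {Q : N} (hQ : Q ∈ mzj_q_Nz W K N) : (Q : (W⁄K).Point) ≠ 0 := by
  intro h
  exact (mzj_q_mem_Nz W K N).mp hQ (Subtype.ext h)

/-- The sum of the `x`-coordinates of the nonzero points of `N`. -/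
noncomputable def mzj_q_c0 : K := ∑ Q ∈ mzj_q_Nz W K N, mzj_q_px W K (Q : (W⁄K).Point)

/-- Vélu's function `X_N = x + Σ_{Q ≠ 0} (x(g + Q) - x(Q))`. -/
noncomputable def mzj_q_XN : mzj_q_FF W K :=
  ∑ Q : N, mzj_q_tau W K (Q : (W⁄K).Point) (mzj_q_x W K) - algebraMap K _ (mzj_q_c0 W K N)

/-- `X_N` is invariant under translation by `N`. -/
theorem mzj_q_XN_inv (Q : N) : mzj_q_tau W K (Q : (W⁄K).Point) (mzj_q_XN W K N) = mzj_q_XN W K N := by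
  unfold mzj_q_XN
  rw [map_sub, map_sum, AlgHom.commutes]
  congr 1
  simp only [mzj_q_tau_tau]
  exact Fintype.sum_equiv (Equiv.addLeft Q) _ _ (fun P => rfl)

/-- `r_N = X_N - x`. -/
noncomputable def mzj_q_rN : mzj_q_FF W K :=
  ∑ Q ∈ mzj_q_Nz W K N, (mzj_q_tau W K (Q : (W⁄K).Point) (mzj_q_x W K) -
    algebraMap K _ (mzj_q_px W K (Q : (W⁄K).Point)))

theorem mzj_q_XN_eq : mzj_q_XN W K N = mzj_q_x W K + mzj_q_rN W K N := by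
  unfold mzj_q_XN mzj_q_rN mzj_q_c0 mzj_q_Nz
  rw [Finset.sum_sub_distrib, map_sum,
    ← Finset.add_sum_erase Finset.univ (fun Q : N => mzj_q_tau W K (Q : (W⁄K).Point) (mzj_q_x W K))
      (Finset.mem_univ (0 : N))]
  have h0 : mzj_q_tau W K ((0 : N) : (W⁄K).Point) (mzj_q_x W K) = mzj_q_x W K := by
    rw [AddSubgroup.coe_zero, mzj_q_tau_zero]; rfl
  rw [h0]
  ring

/-- The polar part of `2 r_N`. -/
noncomputable def mzj_q_sN : mzj_q_FF W K :=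
  ∑ Q ∈ mzj_q_Nz W K N,
    (algebraMap K _ (mzj_q_tP W K (Q : (W⁄K).Point)) /
        (mzj_q_x W K - algebraMap K _ (mzj_q_px W K (Q : (W⁄K).Point))) +
      algebraMap K _ (mzj_q_uP W K (Q : (W⁄K).Point)) /
        (mzj_q_x W K - algebraMap K _ (mzj_q_px W K (Q : (W⁄K).Point))) ^ 2)

theorem mzj_q_two_rN : 2 * mzj_q_rN W K N = mzj_q_sN W K N := by
  have h1 : mzj_q_rN W K N = ∑ Q ∈ mzj_q_Nz W K N,
      (mzj_q_tau W K (-(Q : (W⁄K).Point)) (mzj_q_x W K) -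
        algebraMap K _ (mzj_q_px W K (Q : (W⁄K).Point))) := by
    unfold mzj_q_rN
    refine Finset.sum_equiv (Equiv.neg N) ?_ ?_
    · intro Q
      rw [mzj_q_mem_Nz, mzj_q_mem_Nz]
      simp
    · intro Q _
      simp only [Equiv.neg_apply, AddSubgroup.coe_neg, neg_neg, mzj_q_px_neg]
  rw [two_mul]
  nth_rewrite 2 [h1]
  unfold mzj_q_rN mzj_q_sN
  rw [← Finset.sum_add_distrib]
  apply Finset.sum_congr rfl
  intro Q hQ
  exact mzj_q_pair W K (mzj_q_coe_ne_zero W K N hQ)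

/-- `Υ_N = δ X_N` (it will be `2 Y_N + a₁ X_N + a₃`). -/
noncomputable def mzj_q_UpsN : mzj_q_FF W K := mzj_q_der W K (mzj_q_XN W K N)

theorem mzj_q_UpsN_inv (Q : N) :
    mzj_q_tau W K (Q : (W⁄K).Point) (mzj_q_UpsN W K N) = mzj_q_UpsN W K N := by
  unfold mzj_q_UpsN
  rw [← mzj_q_der_tau, mzj_q_XN_inv]

/-- The polar part of `-2 r_N'`. -/
noncomputable def mzj_q_sN' : mzj_q_FF W K :=
  ∑ Q ∈ mzj_q_Nz W K N,
    (algebraMap K _ (mzj_q_tP W K (Q : (W⁄K).Point)) /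
        (mzj_q_x W K - algebraMap K _ (mzj_q_px W K (Q : (W⁄K).Point))) ^ 2 +
      2 * algebraMap K _ (mzj_q_uP W K (Q : (W⁄K).Point)) /
        (mzj_q_x W K - algebraMap K _ (mzj_q_px W K (Q : (W⁄K).Point))) ^ 3)

theorem mzj_q_der_sN : mzj_q_der W K (mzj_q_sN W K N) = -(mzj_q_psi W K * mzj_q_sN' W K N) := by
  unfold mzj_q_sN mzj_q_sN'
  rw [map_sum, Finset.mul_sum, ← Finset.sum_neg_distrib]
  apply Finset.sum_congr rfl
  intro Q _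
  have hne := mzj_q_x_sub_const_ne_zero W K (mzj_q_px W K (Q : (W⁄K).Point))
  rw [map_add, Derivation.leibniz_div, Derivation.leibniz_div, Derivation.map_algebraMap,
    Derivation.map_algebraMap, Derivation.leibniz_pow, map_sub, Derivation.map_algebraMap,
    mzj_q_der_x]
  simp only [smul_eq_mul, nsmul_eq_mul, sub_zero, mul_zero, zero_sub]
  field_simp
  ring

variable [CharZero K]

instance mzj_q_charZero_FF : CharZero (mzj_q_FF W K) :=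
  charZero_of_injective_algebraMap (algebraMap K (mzj_q_FF W K)).injective

theorem mzj_q_UpsN_eq :
    mzj_q_UpsN W K N = mzj_q_psi W K * (1 + -(mzj_q_sN' W K N / 2)) := by
  unfold mzj_q_UpsN
  have h2 : mzj_q_rN W K N = mzj_q_sN W K N / 2 := by
    rw [← mzj_q_two_rN]; ring
  have hd2 : mzj_q_der W K (2 : mzj_q_FF W K) = 0 := by
    have := Derivation.map_natCast (mzj_q_der W K) 2
    simpa using this
  rw [mzj_q_XN_eq, map_add, mzj_q_der_x, h2, Derivation.leibniz_div, mzj_q_der_sN, hd2]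
  simp only [smul_eq_mul, mul_zero, sub_zero]
  field_simp

/-- `ψ₂² = 4x³ + b₂x² + 2b₄x + b₆`. -/
theorem mzj_q_psi_sq : mzj_q_psi W K ^ 2 =
    4 * mzj_q_x W K ^ 3 + algebraMap K _ (W⁄K).b₂ * mzj_q_x W K ^ 2 +
      2 * algebraMap K _ (W⁄K).b₄ * mzj_q_x W K + algebraMap K _ (W⁄K).b₆ := by
  have hW := mzj_q_eqAt_gen W K
  unfold s58f_EqAt at hW
  simp only [mzj_q_psi, WeierstrassCurve.b₂, WeierstrassCurve.b₄, WeierstrassCurve.b₆, map_add,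
    map_mul, map_pow, map_ofNat]
  linear_combination 4 * hW

/-- Vélu's `v = Σ_{Q ∈ (N∖0)/±} t_Q`. -/
noncomputable def mzj_q_v : K := (∑ Q ∈ mzj_q_Nz W K N, mzj_q_tP W K (Q : (W⁄K).Point)) / 2

/-- Vélu's `w = Σ_{Q ∈ (N∖0)/±} (u_Q + x_Q t_Q)`. -/
noncomputable def mzj_q_w : K :=
  (∑ Q ∈ mzj_q_Nz W K N, (mzj_q_uP W K (Q : (W⁄K).Point) +
    mzj_q_px W K (Q : (W⁄K).Point) * mzj_q_tP W K (Q : (W⁄K).Point))) / 2

/-- `b₄' = b₄ - 10 v`. -/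
noncomputable def mzj_q_b4' : K := (W⁄K).b₄ - 10 * mzj_q_v W K N

/-- `b₆' = b₆ - 4 b₂ v - 28 w`. -/
noncomputable def mzj_q_b6' : K := (W⁄K).b₆ - 4 * (W⁄K).b₂ * mzj_q_v W K N - 28 * mzj_q_w W K N

/-- `Ψ = Υ² - (4X³ + b₂X² + 2b₄'X + b₆')`. -/
noncomputable def mzj_q_Psi : mzj_q_FF W K :=
  mzj_q_UpsN W K N ^ 2 - (4 * mzj_q_XN W K N ^ 3 + algebraMap K _ (W⁄K).b₂ * mzj_q_XN W K N ^ 2 +
    2 * algebraMap K _ (mzj_q_b4' W K N) * mzj_q_XN W K N + algebraMap K _ (mzj_q_b6' W K N))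

theorem mzj_q_Psi_inv (Q : N) :
    mzj_q_tau W K (Q : (W⁄K).Point) (mzj_q_Psi W K N) = mzj_q_Psi W K N := by
  unfold mzj_q_Psi
  simp only [map_sub, map_add, map_mul, map_pow, map_ofNat, AlgHom.commutes, mzj_q_XN_inv,
    mzj_q_UpsN_inv]

theorem mzj_q_Sm_of_two_mul {m : ℤ} {u : mzj_q_FF W K} (h : mzj_q_Sm W K m (2 * u)) :
    mzj_q_Sm W K m u := by
  have h1 : u = algebraMap K (mzj_q_FF W K) (1 / 2) * (2 * u) := by
    rw [map_div₀, map_one, map_ofNat]; field_simp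
  rw [h1]
  exact mzj_q_Sm_mul' (mzj_q_Sm_const _) h (by omega)

/-- The remainder `ρ = r_N - v/x - w/x²`. -/
noncomputable def mzj_q_rho : mzj_q_FF W K :=
  mzj_q_rN W K N - algebraMap K _ (mzj_q_v W K N) / mzj_q_x W K -
    algebraMap K _ (mzj_q_w W K N) / mzj_q_x W K ^ 2

/-- The remainder `ρ' = r_N' + v/x² + 2w/x³`. -/
noncomputable def mzj_q_rho' : mzj_q_FF W K :=
  -(mzj_q_sN' W K N / 2) + algebraMap K _ (mzj_q_v W K N) / mzj_q_x W K ^ 2 +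
    2 * algebraMap K _ (mzj_q_w W K N) / mzj_q_x W K ^ 3

theorem mzj_q_two_v : (2 : mzj_q_FF W K) * algebraMap K _ (mzj_q_v W K N) =
    ∑ Q ∈ mzj_q_Nz W K N, algebraMap K (mzj_q_FF W K) (mzj_q_tP W K (Q : (W⁄K).Point)) := by
  unfold mzj_q_v
  rw [map_div₀, map_sum, map_ofNat]
  field_simp

theorem mzj_q_two_w : (2 : mzj_q_FF W K) * algebraMap K _ (mzj_q_w W K N) =
    ∑ Q ∈ mzj_q_Nz W K N, algebraMap K (mzj_q_FF W K) (mzj_q_uP W K (Q : (W⁄K).Point) +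
      mzj_q_px W K (Q : (W⁄K).Point) * mzj_q_tP W K (Q : (W⁄K).Point)) := by
  unfold mzj_q_w
  rw [map_div₀, map_sum, map_ofNat]
  field_simp

theorem mzj_q_Sm_rho : mzj_q_Sm W K (-6) (mzj_q_rho W K N) := by
  apply mzj_q_Sm_of_two_mul
  have hx := mzj_q_x_ne_zero W K
  have h1 : 2 * mzj_q_rho W K N = ∑ Q ∈ mzj_q_Nz W K N,
      (algebraMap K _ (mzj_q_tP W K (Q : (W⁄K).Point)) *
          algebraMap K _ (mzj_q_px W K (Q : (W⁄K).Point)) ^ 2 *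
          ((mzj_q_x W K)⁻¹ ^ 2 * (mzj_q_x W K - algebraMap K _ (mzj_q_px W K (Q : (W⁄K).Point)))⁻¹) +
        algebraMap K _ (mzj_q_uP W K (Q : (W⁄K).Point)) *
          (2 * algebraMap K _ (mzj_q_px W K (Q : (W⁄K).Point)) * mzj_q_x W K -
            algebraMap K _ (mzj_q_px W K (Q : (W⁄K).Point)) ^ 2) *
          ((mzj_q_x W K)⁻¹ ^ 2 *
            (mzj_q_x W K - algebraMap K _ (mzj_q_px W K (Q : (W⁄K).Point)))⁻¹ ^ 2)) := by
    have h2 : 2 * mzj_q_rho W K N = mzj_q_sN W K N -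
        (2 * algebraMap K _ (mzj_q_v W K N)) / mzj_q_x W K -
        (2 * algebraMap K _ (mzj_q_w W K N)) / mzj_q_x W K ^ 2 := by
      unfold mzj_q_rho
      rw [← mzj_q_two_rN]
      ring
    rw [h2, mzj_q_two_v, mzj_q_two_w, Finset.sum_div, Finset.sum_div]
    unfold mzj_q_sN
    rw [← Finset.sum_sub_distrib, ← Finset.sum_sub_distrib]
    apply Finset.sum_congr rfl
    intro Q _
    rw [← mzj_q_rho_term _ _ _ _ hx (mzj_q_x_sub_const_ne_zero W K _), map_add, map_mul]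
  rw [h1]
  apply mzj_q_Sm_sum
  intro Q _
  apply mzj_q_Sm_add
  · exact mzj_q_Sm_mul' (mzj_q_Sm_mul (mzj_q_Sm_const _) (mzj_q_Sm_pow (mzj_q_Sm_const _) 2))
      (mzj_q_Sm_mul (mzj_q_Sm_pow mzj_q_Sm_inv_x 2) (mzj_q_Sm_inv_x_sub _)) (by norm_num)
  · refine mzj_q_Sm_mul' (mzj_q_Sm_mul (mzj_q_Sm_const _)
      (mzj_q_Sm_sub (m := 2) ?_ ?_))
      (mzj_q_Sm_mul (mzj_q_Sm_pow mzj_q_Sm_inv_x 2) (mzj_q_Sm_pow (mzj_q_Sm_inv_x_sub _) 2))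
      (by norm_num)
    · exact mzj_q_Sm_mul' (mzj_q_Sm_mul (mzj_q_Sm_ofNat 2) (mzj_q_Sm_const _)) mzj_q_Sm_x
        (by norm_num)
    · exact mzj_q_Sm_mono (by norm_num) (mzj_q_Sm_pow (mzj_q_Sm_const _) 2)

theorem mzj_q_Sm_rho' : mzj_q_Sm W K (-8) (mzj_q_rho' W K N) := by
  apply mzj_q_Sm_of_two_mul
  have hx := mzj_q_x_ne_zero W K
  have h1 : 2 * mzj_q_rho' W K N = ∑ Q ∈ mzj_q_Nz W K N,
      (-(algebraMap K _ (mzj_q_tP W K (Q : (W⁄K).Point)) *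
          (3 * algebraMap K _ (mzj_q_px W K (Q : (W⁄K).Point)) ^ 2 * mzj_q_x W K -
            2 * algebraMap K _ (mzj_q_px W K (Q : (W⁄K).Point)) ^ 3) *
          ((mzj_q_x W K)⁻¹ ^ 3 *
            (mzj_q_x W K - algebraMap K _ (mzj_q_px W K (Q : (W⁄K).Point)))⁻¹ ^ 2)) -
        2 * algebraMap K _ (mzj_q_uP W K (Q : (W⁄K).Point)) *
          (3 * algebraMap K _ (mzj_q_px W K (Q : (W⁄K).Point)) * mzj_q_x W K ^ 2 -
            3 * algebraMap K _ (mzj_q_px W K (Q : (W⁄K).Point)) ^ 2 * mzj_q_x W K +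
            algebraMap K _ (mzj_q_px W K (Q : (W⁄K).Point)) ^ 3) *
          ((mzj_q_x W K)⁻¹ ^ 3 *
            (mzj_q_x W K - algebraMap K _ (mzj_q_px W K (Q : (W⁄K).Point)))⁻¹ ^ 3)) := by
    have h2 : 2 * mzj_q_rho' W K N = -mzj_q_sN' W K N +
        (2 * algebraMap K _ (mzj_q_v W K N)) / mzj_q_x W K ^ 2 +
        2 * (2 * algebraMap K _ (mzj_q_w W K N)) / mzj_q_x W K ^ 3 := by
      unfold mzj_q_rho'
      ring
    rw [h2, mzj_q_two_v, mzj_q_two_w, Finset.sum_div, Finset.mul_sum, Finset.sum_div]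
    unfold mzj_q_sN'
    rw [← Finset.sum_neg_distrib, ← Finset.sum_add_distrib, ← Finset.sum_add_distrib]
    apply Finset.sum_congr rfl
    intro Q _
    rw [← mzj_q_rho'_term _ _ _ _ hx (mzj_q_x_sub_const_ne_zero W K _), map_add, map_mul]
  rw [h1]
  apply mzj_q_Sm_sum
  intro Q _
  apply mzj_q_Sm_sub
  · apply mzj_q_Sm_neg
    refine mzj_q_Sm_mul' (mzj_q_Sm_mul (mzj_q_Sm_const _) (mzj_q_Sm_sub (m := 2) ?_ ?_))
      (mzj_q_Sm_mul (mzj_q_Sm_pow mzj_q_Sm_inv_x 3) (mzj_q_Sm_pow (mzj_q_Sm_inv_x_sub _) 2))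
      (by norm_num)
    · exact mzj_q_Sm_mul' (mzj_q_Sm_mul (mzj_q_Sm_ofNat 3) (mzj_q_Sm_pow (mzj_q_Sm_const _) 2))
        mzj_q_Sm_x (by norm_num)
    · exact mzj_q_Sm_mono (by norm_num)
        (mzj_q_Sm_mul (mzj_q_Sm_ofNat 2) (mzj_q_Sm_pow (mzj_q_Sm_const _) 3))
  · refine mzj_q_Sm_mul' (mzj_q_Sm_mul (mzj_q_Sm_mul (mzj_q_Sm_ofNat 2) (mzj_q_Sm_const _))
      (mzj_q_Sm_add (m := 4) (mzj_q_Sm_sub ?_ ?_) ?_))
      (mzj_q_Sm_mul (mzj_q_Sm_pow mzj_q_Sm_inv_x 3) (mzj_q_Sm_pow (mzj_q_Sm_inv_x_sub _) 3))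
      (by norm_num)
    · exact mzj_q_Sm_mul' (mzj_q_Sm_mul (mzj_q_Sm_ofNat 3) (mzj_q_Sm_const _))
        (mzj_q_Sm_pow mzj_q_Sm_x 2) (by norm_num)
    · exact mzj_q_Sm_mul' (mzj_q_Sm_mul (mzj_q_Sm_ofNat 3) (mzj_q_Sm_pow (mzj_q_Sm_const _) 2))
        mzj_q_Sm_x (by norm_num)
    · exact mzj_q_Sm_mono (by norm_num) (mzj_q_Sm_pow (mzj_q_Sm_const _) 3)

/-- `Ψ` vanishes at infinity. -/
theorem mzj_q_Sm_Psi : mzj_q_Sm W K (-2) (mzj_q_Psi W K N) := by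
  have hx := mzj_q_x_ne_zero W K
  have hasy := mzj_q_asy (mzj_q_x W K) (mzj_q_psi W K) (mzj_q_rho W K N) (mzj_q_rho' W K N)
    (algebraMap K _ (mzj_q_v W K N)) (algebraMap K _ (mzj_q_w W K N))
    (algebraMap K _ (W⁄K).b₂) (algebraMap K _ (W⁄K).b₄) (algebraMap K _ (W⁄K).b₆)
    (mzj_q_rN W K N) (-(mzj_q_sN' W K N / 2))
    (algebraMap K _ (mzj_q_b4' W K N)) (algebraMap K _ (mzj_q_b6' W K N))
    (4 * mzj_q_x W K ^ 3 + algebraMap K _ (W⁄K).b₂ * mzj_q_x W K ^ 2 +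
      2 * algebraMap K _ (W⁄K).b₄ * mzj_q_x W K + algebraMap K _ (W⁄K).b₆)
    hx rfl (mzj_q_psi_sq W K)
    (by unfold mzj_q_rho; ring) (by unfold mzj_q_rho'; ring)
    (by simp only [mzj_q_b4', map_sub, map_mul, map_ofNat])
    (by simp only [mzj_q_b6', map_sub, map_mul, map_ofNat])
  have hΨ : mzj_q_Psi W K N = (mzj_q_psi W K * (1 + -(mzj_q_sN' W K N / 2))) ^ 2 -
      (4 * (mzj_q_x W K + mzj_q_rN W K N) ^ 3 +
        algebraMap K _ (W⁄K).b₂ * (mzj_q_x W K + mzj_q_rN W K N) ^ 2 +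
        2 * algebraMap K _ (mzj_q_b4' W K N) * (mzj_q_x W K + mzj_q_rN W K N) +
        algebraMap K _ (mzj_q_b6' W K N)) := by
    unfold mzj_q_Psi
    rw [mzj_q_UpsN_eq, mzj_q_XN_eq]
  rw [hΨ, hasy]
  have hρ := mzj_q_Sm_rho W K N
  have hρ' := mzj_q_Sm_rho' W K N
  have hxs : mzj_q_Sm W K 2 (mzj_q_x W K) := mzj_q_Sm_x
  have hxi : mzj_q_Sm W K (-2) (mzj_q_x W K)⁻¹ := mzj_q_Sm_inv_x
  have hr : mzj_q_Sm W K (-2) (mzj_q_rN W K N) := by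
    have h1 : mzj_q_rN W K N = algebraMap K _ (mzj_q_v W K N) * (mzj_q_x W K)⁻¹ +
        algebraMap K _ (mzj_q_w W K N) * (mzj_q_x W K)⁻¹ ^ 2 + mzj_q_rho W K N := by
      unfold mzj_q_rho; field_simp; ring
    rw [h1]
    refine mzj_q_Sm_add (mzj_q_Sm_add ?_ ?_) (mzj_q_Sm_mono (by norm_num) hρ)
    · exact mzj_q_Sm_mul' (mzj_q_Sm_const _) hxi (by norm_num)
    · exact mzj_q_Sm_mul' (mzj_q_Sm_const _) (mzj_q_Sm_pow hxi 2) (by norm_num)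
  have hr' : mzj_q_Sm W K (-4) (-(mzj_q_sN' W K N / 2)) := by
    have h1 : -(mzj_q_sN' W K N / 2) = -(algebraMap K _ (mzj_q_v W K N) * (mzj_q_x W K)⁻¹ ^ 2) -
        2 * algebraMap K _ (mzj_q_w W K N) * (mzj_q_x W K)⁻¹ ^ 3 + mzj_q_rho' W K N := by
      unfold mzj_q_rho'; field_simp; ring
    rw [h1]
    refine mzj_q_Sm_add (mzj_q_Sm_sub ?_ ?_) (mzj_q_Sm_mono (by norm_num) hρ')
    · exact mzj_q_Sm_neg (mzj_q_Sm_mul' (mzj_q_Sm_const _) (mzj_q_Sm_pow hxi 2) (by norm_num))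
    · exact mzj_q_Sm_mul' (mzj_q_Sm_mul (mzj_q_Sm_ofNat 2) (mzj_q_Sm_const _))
        (mzj_q_Sm_pow hxi 3) (by norm_num)
  have hf : mzj_q_Sm W K 6 (4 * mzj_q_x W K ^ 3 + algebraMap K _ (W⁄K).b₂ * mzj_q_x W K ^ 2 +
      2 * algebraMap K _ (W⁄K).b₄ * mzj_q_x W K + algebraMap K _ (W⁄K).b₆) := by
    refine mzj_q_Sm_add (mzj_q_Sm_add (mzj_q_Sm_add ?_ ?_) ?_) (mzj_q_Sm_mono (by norm_num)
      (mzj_q_Sm_const _))
    · exact mzj_q_Sm_mul' (mzj_q_Sm_ofNat 4) (mzj_q_Sm_pow hxs 3) (by norm_num)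
    · exact mzj_q_Sm_mul' (mzj_q_Sm_const _) (mzj_q_Sm_pow hxs 2) (by norm_num)
    · exact mzj_q_Sm_mul' (mzj_q_Sm_mul (mzj_q_Sm_ofNat 2) (mzj_q_Sm_const _)) hxs (by norm_num)
  -- the eleven small terms
  have t1 : mzj_q_Sm W K (-2) (8 * mzj_q_x W K ^ 3 * mzj_q_rho' W K N) :=
    mzj_q_Sm_mul' (mzj_q_Sm_mul (mzj_q_Sm_ofNat 8) (mzj_q_Sm_pow hxs 3)) hρ' (by norm_num)
  have t2 : mzj_q_Sm W K (-2) (6 * algebraMap K _ (W⁄K).b₂ * algebraMap K _ (mzj_q_w W K N) *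
      (mzj_q_x W K)⁻¹) :=
    mzj_q_Sm_mul' (mzj_q_Sm_mul (mzj_q_Sm_mul (mzj_q_Sm_ofNat 6) (mzj_q_Sm_const _))
      (mzj_q_Sm_const _)) hxi (by norm_num)
  have t3 : mzj_q_Sm W K (-2) (2 * algebraMap K _ (W⁄K).b₂ * mzj_q_x W K ^ 2 *
      mzj_q_rho' W K N) :=
    mzj_q_Sm_mul' (mzj_q_Sm_mul (mzj_q_Sm_mul (mzj_q_Sm_ofNat 2) (mzj_q_Sm_const _))
      (mzj_q_Sm_pow hxs 2)) hρ' (by norm_num)
  have t4 : mzj_q_Sm W K (-2) (2 * (2 * algebraMap K _ (W⁄K).b₄ * mzj_q_x W K +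
      algebraMap K _ (W⁄K).b₆) * -(mzj_q_sN' W K N / 2)) := by
    refine mzj_q_Sm_mul' (mzj_q_Sm_mul (mzj_q_Sm_ofNat 2) (mzj_q_Sm_add (m := 2) ?_
      (mzj_q_Sm_mono (by norm_num) (mzj_q_Sm_const _)))) hr' (by norm_num)
    exact mzj_q_Sm_mul' (mzj_q_Sm_mul (mzj_q_Sm_ofNat 2) (mzj_q_Sm_const _)) hxs (by norm_num)
  have t5 : mzj_q_Sm W K (-2) (12 * mzj_q_x W K ^ 2 * mzj_q_rho W K N) :=
    mzj_q_Sm_mul' (mzj_q_Sm_mul (mzj_q_Sm_ofNat 12) (mzj_q_Sm_pow hxs 2)) hρ (by norm_num)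
  have t6 : mzj_q_Sm W K (-2) (2 * algebraMap K _ (W⁄K).b₂ * mzj_q_x W K * mzj_q_rho W K N) :=
    mzj_q_Sm_mul' (mzj_q_Sm_mul (mzj_q_Sm_mul (mzj_q_Sm_ofNat 2) (mzj_q_Sm_const _)) hxs) hρ
      (by norm_num)
  have t7 : mzj_q_Sm W K (-2) ((4 * mzj_q_x W K ^ 3 + algebraMap K _ (W⁄K).b₂ * mzj_q_x W K ^ 2 +
      2 * algebraMap K _ (W⁄K).b₄ * mzj_q_x W K + algebraMap K _ (W⁄K).b₆) *
      (-(mzj_q_sN' W K N / 2)) ^ 2) :=
    mzj_q_Sm_mul' hf (mzj_q_Sm_pow hr' 2) (by norm_num)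
  have t8 : mzj_q_Sm W K (-2) (12 * mzj_q_x W K * mzj_q_rN W K N ^ 2) :=
    mzj_q_Sm_mul' (mzj_q_Sm_mul (mzj_q_Sm_ofNat 12) hxs) (mzj_q_Sm_pow hr 2) (by norm_num)
  have t9 : mzj_q_Sm W K (-2) (4 * mzj_q_rN W K N ^ 3) :=
    mzj_q_Sm_mul' (mzj_q_Sm_ofNat 4) (mzj_q_Sm_pow hr 3) (by norm_num)
  have t10 : mzj_q_Sm W K (-2) (algebraMap K _ (W⁄K).b₂ * mzj_q_rN W K N ^ 2) :=
    mzj_q_Sm_mul' (mzj_q_Sm_const _) (mzj_q_Sm_pow hr 2) (by norm_num)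
  have t11 : mzj_q_Sm W K (-2) (2 * algebraMap K _ (mzj_q_b4' W K N) * mzj_q_rN W K N) :=
    mzj_q_Sm_mul' (mzj_q_Sm_mul (mzj_q_Sm_ofNat 2) (mzj_q_Sm_const _)) hr (by norm_num)
  exact mzj_q_Sm_sub (mzj_q_Sm_sub (mzj_q_Sm_sub (mzj_q_Sm_sub (mzj_q_Sm_add (mzj_q_Sm_sub
    (mzj_q_Sm_sub (mzj_q_Sm_add (mzj_q_Sm_add (mzj_q_Sm_sub t1 t2) t3) t4) t5) t6) t7) t8) t9)
    t10) t11

end Fermat.Agent.MZ
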