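import Mathlib
import Fermat.Agent.MZ.J.Quot.Velu

/-!
# [MZ-J] / [J-QUOT]: the set `Sx` of `x`-coordinates of `N ∖ 0` (`|N|` odd)

`∑_{Q ∈ N∖0} f(x_Q) = 2 ∑_{ξ ∈ Sx} f(ξ)`, `2 |Sx| + 1 = |N|`.
-/

set_option autoImplicit false
set_option linter.unusedSectionVars false
set_option linter.unusedSimpArgs false

namespace Fermat.Agent.MZ

open WeierstrassCurve WeierstrassCurve.Affine

variable {S : Type*} [CommRing S] (W : WeierstrassCurve S)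
  (K : Type*) [Field K] [Algebra S K] [W.IsElliptic] [DecidableEq K] [IsAlgClosed K]
  (N : AddSubgroup (W⁄K).Point) [Fintype N]

theorem mzj_q_eq_or_neg_of_px_eq {P Q : (W⁄K).Point} (hP : P ≠ 0) (hQ : Q ≠ 0)
    (h : mzj_q_px W K P = mzj_q_px W K Q) : P = Q ∨ P = -Q := by
  rcases P with _ | ⟨a, b, hab⟩
  · exact absurd rfl hP
  rcases Q with _ | ⟨a', b', hab'⟩
  · exact absurd rfl hQ
  exact (Point.X_eq_iff (h₁ := hab) (h₂ := hab')).mp h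

/-- The `x`-coordinates of the nonzero points of `N`. -/
noncomputable def mzj_q_Sx : Finset K :=
  (mzj_q_Nz W K N).image (fun Q : N => mzj_q_px W K (Q : (W⁄K).Point))

theorem mzj_q_mem_Sx {ξ : K} : ξ ∈ mzj_q_Sx W K N ↔
    ∃ (y : K) (h : (W⁄K).toAffine.Nonsingular ξ y), Point.some ξ y h ∈ N := by
  unfold mzj_q_Sx
  rw [Finset.mem_image]
  constructor
  · rintro ⟨Q, hQ, rfl⟩
    have hQ0 := mzj_q_coe_ne_zero W K N hQ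
    rcases hQe : (Q : (W⁄K).Point) with _ | ⟨a, b, hab⟩
    · exact absurd hQe hQ0
    · refine ⟨b, hab, ?_⟩
      have : (Point.some a b hab : (W⁄K).Point) ∈ N := hQe ▸ Q.2
      exact this
  · rintro ⟨y, h, hN⟩
    refine ⟨⟨Point.some ξ y h, hN⟩, ?_, rfl⟩
    rw [mzj_q_mem_Nz]
    intro h0
    have := congrArg (fun Q : N => (Q : (W⁄K).Point)) h0
    exact Point.some_ne_zero _ this

variable {W K N}

theorem mzj_q_eq_zero_of_eq_neg (hodd : Odd (Fintype.card N)) {Q : N} (h : Q = -Q) : Q = 0 := by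
  have h2 : 2 • Q = 0 := by
    rw [two_nsmul]
    nth_rewrite 2 [h]
    exact add_neg_cancel Q
  have h1 : addOrderOf Q ∣ 2 := addOrderOf_dvd_of_nsmul_eq_zero h2
  have h3 : addOrderOf Q ∣ Fintype.card N := addOrderOf_dvd_card
  have h4 : addOrderOf Q ∣ Nat.gcd 2 (Fintype.card N) := Nat.dvd_gcd h1 h3
  have h5 : Nat.gcd 2 (Fintype.card N) = 1 := Nat.coprime_two_left.mpr hodd
  rw [h5, Nat.dvd_one] at h4
  exact AddMonoid.addOrderOf_eq_one_iff.mp h4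

theorem mzj_q_fiber (hodd : Odd (Fintype.card N)) {Q₀ : N} (hQ₀ : Q₀ ∈ mzj_q_Nz W K N) :
    (mzj_q_Nz W K N).filter
      (fun Q : N => mzj_q_px W K (Q : (W⁄K).Point) = mzj_q_px W K (Q₀ : (W⁄K).Point)) =
      {Q₀, -Q₀} := by
  ext Q
  rw [Finset.mem_filter, Finset.mem_insert, Finset.mem_singleton]
  constructor
  · rintro ⟨hQ, hpx⟩
    rcases mzj_q_eq_or_neg_of_px_eq W K (mzj_q_coe_ne_zero W K N hQ)
      (mzj_q_coe_ne_zero W K N hQ₀) hpx with h | h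
    · exact Or.inl (Subtype.ext h)
    · exact Or.inr (Subtype.ext (by rw [h]; rfl))
  · rintro (rfl | rfl)
    · exact ⟨hQ₀, rfl⟩
    · refine ⟨?_, ?_⟩
      · rw [mzj_q_mem_Nz, neg_ne_zero]
        exact (mzj_q_mem_Nz W K N).mp hQ₀
      · rw [AddSubgroup.coe_neg, mzj_q_px_neg]

theorem mzj_q_card_fiber (hodd : Odd (Fintype.card N)) {Q₀ : N} (hQ₀ : Q₀ ∈ mzj_q_Nz W K N) :
    ((mzj_q_Nz W K N).filter
      (fun Q : N => mzj_q_px W K (Q : (W⁄K).Point) = mzj_q_px W K (Q₀ : (W⁄K).Point))).card =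
      2 := by
  rw [mzj_q_fiber hodd hQ₀]
  apply Finset.card_pair
  intro h
  exact (mzj_q_mem_Nz W K N).mp hQ₀ (mzj_q_eq_zero_of_eq_neg hodd h)

/-- Sums over `N ∖ 0` of functions of the `x`-coordinate are twice the sums over `Sx`. -/
theorem mzj_q_sum_Nz (hodd : Odd (Fintype.card N)) {M : Type*} [AddCommMonoid M] (f : K → M) :
    ∑ Q ∈ mzj_q_Nz W K N, f (mzj_q_px W K (Q : (W⁄K).Point)) =
      2 • ∑ ξ ∈ mzj_q_Sx W K N, f ξ := by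
  rw [← Finset.sum_fiberwise_of_maps_to
    (g := fun Q : N => mzj_q_px W K (Q : (W⁄K).Point)) (t := mzj_q_Sx W K N)
    (fun Q hQ => Finset.mem_image_of_mem _ hQ), Finset.smul_sum]
  apply Finset.sum_congr rfl
  intro ξ hξ
  obtain ⟨Q₀, hQ₀, rfl⟩ := Finset.mem_image.mp hξ
  rw [Finset.sum_congr rfl (g := fun _ => f (mzj_q_px W K (Q₀ : (W⁄K).Point)))
    (fun Q hQ => by rw [(Finset.mem_filter.mp hQ).2]),
    Finset.sum_const, mzj_q_card_fiber hodd hQ₀]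

theorem mzj_q_card_Sx (hodd : Odd (Fintype.card N)) :
    2 * (mzj_q_Sx W K N).card + 1 = Fintype.card N := by
  have h1 := mzj_q_sum_Nz (W := W) (K := K) (N := N) hodd (fun _ => (1 : ℕ))
  rw [Finset.sum_const, Finset.sum_const, smul_eq_mul, smul_eq_mul, mul_one, smul_eq_mul,
    mul_one] at h1
  have h2 : (mzj_q_Nz W K N).card = Fintype.card N - 1 := by
    unfold mzj_q_Nz
    rw [Finset.card_erase_of_mem (Finset.mem_univ _), Finset.card_univ]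
  have h3 : 0 < Fintype.card N := Fintype.card_pos
  omega

variable [CharZero K]

/-- `v` as a sum over `Sx`. -/
theorem mzj_q_v_eq (hodd : Odd (Fintype.card N)) :
    mzj_q_v W K N = ∑ ξ ∈ mzj_q_Sx W K N, (6 * ξ ^ 2 + (W⁄K).b₂ * ξ + (W⁄K).b₄) := by
  unfold mzj_q_v
  have h := mzj_q_sum_Nz (W := W) (K := K) (N := N) hodd
    (fun ξ => 6 * ξ ^ 2 + (W⁄K).b₂ * ξ + (W⁄K).b₄)
  have h' : ∑ Q ∈ mzj_q_Nz W K N, mzj_q_tP W K (Q : (W⁄K).Point) =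
      2 • ∑ ξ ∈ mzj_q_Sx W K N, (6 * ξ ^ 2 + (W⁄K).b₂ * ξ + (W⁄K).b₄) := h
  rw [h', two_nsmul]
  ring

/-- `w` as a sum over `Sx`. -/
theorem mzj_q_w_eq (hodd : Odd (Fintype.card N)) :
    mzj_q_w W K N = ∑ ξ ∈ mzj_q_Sx W K N,
      ((4 * ξ ^ 3 + (W⁄K).b₂ * ξ ^ 2 + 2 * (W⁄K).b₄ * ξ + (W⁄K).b₆) +
        ξ * (6 * ξ ^ 2 + (W⁄K).b₂ * ξ + (W⁄K).b₄)) := by
  unfold mzj_q_w
  have h := mzj_q_sum_Nz (W := W) (K := K) (N := N) hodd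
    (fun ξ => (4 * ξ ^ 3 + (W⁄K).b₂ * ξ ^ 2 + 2 * (W⁄K).b₄ * ξ + (W⁄K).b₆) +
        ξ * (6 * ξ ^ 2 + (W⁄K).b₂ * ξ + (W⁄K).b₄))
  have h' : ∑ Q ∈ mzj_q_Nz W K N, (mzj_q_uP W K (Q : (W⁄K).Point) +
      mzj_q_px W K (Q : (W⁄K).Point) * mzj_q_tP W K (Q : (W⁄K).Point)) =
      2 • ∑ ξ ∈ mzj_q_Sx W K N,
      ((4 * ξ ^ 3 + (W⁄K).b₂ * ξ ^ 2 + 2 * (W⁄K).b₄ * ξ + (W⁄K).b₆) +
        ξ * (6 * ξ ^ 2 + (W⁄K).b₂ * ξ + (W⁄K).b₄)) := h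
  rw [h', two_nsmul]
  ring

/-- Vélu's rational function as a sum over `Sx`. -/
theorem mzj_q_sum_frac_eq (hodd : Odd (Fintype.card N)) (x : K) :
    (∑ Q ∈ mzj_q_Nz W K N,
        (mzj_q_tP W K (Q : (W⁄K).Point) / (x - mzj_q_px W K (Q : (W⁄K).Point)) +
          mzj_q_uP W K (Q : (W⁄K).Point) / (x - mzj_q_px W K (Q : (W⁄K).Point)) ^ 2)) / 2 =
      ∑ ξ ∈ mzj_q_Sx W K N, ((6 * ξ ^ 2 + (W⁄K).b₂ * ξ + (W⁄K).b₄) / (x - ξ) +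
        (4 * ξ ^ 3 + (W⁄K).b₂ * ξ ^ 2 + 2 * (W⁄K).b₄ * ξ + (W⁄K).b₆) / (x - ξ) ^ 2) := by
  have h := mzj_q_sum_Nz (W := W) (K := K) (N := N) hodd
    (fun ξ => (6 * ξ ^ 2 + (W⁄K).b₂ * ξ + (W⁄K).b₄) / (x - ξ) +
        (4 * ξ ^ 3 + (W⁄K).b₂ * ξ ^ 2 + 2 * (W⁄K).b₄ * ξ + (W⁄K).b₆) / (x - ξ) ^ 2)
  have h' : ∑ Q ∈ mzj_q_Nz W K N,
        (mzj_q_tP W K (Q : (W⁄K).Point) / (x - mzj_q_px W K (Q : (W⁄K).Point)) +
          mzj_q_uP W K (Q : (W⁄K).Point) / (x - mzj_q_px W K (Q : (W⁄K).Point)) ^ 2) =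
      2 • ∑ ξ ∈ mzj_q_Sx W K N, ((6 * ξ ^ 2 + (W⁄K).b₂ * ξ + (W⁄K).b₄) / (x - ξ) +
        (4 * ξ ^ 3 + (W⁄K).b₂ * ξ ^ 2 + 2 * (W⁄K).b₄ * ξ + (W⁄K).b₆) / (x - ξ) ^ 2) := h
  rw [h', two_nsmul]
  ring

end Fermat.Agent.MZ
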