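import Mathlib
import Fermat.Agent.MZ.J.Quot.Velu

/-!
# [MZ-J] / [J-QUOT]: the Weierstrass equation of Vélu's functions: `Ψ = 0`
-/

set_option autoImplicit false
set_option linter.unusedSectionVars false
set_option linter.unusedSimpArgs false

namespace Fermat.Agent.MZ

open WeierstrassCurve WeierstrassCurve.Affine Polynomial
open Fermat.Agent.S58

open scoped Polynomial.Bivariate

variable {S : Type*} [CommRing S] (W : WeierstrassCurve S)
  (K : Type*) [Field K] [Algebra S K] [W.IsElliptic] [DecidableEq K] [IsAlgClosed K]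
  (N : AddSubgroup (W⁄K).Point) [Fintype N]

/-- The kernel polynomial `∏_{Q ∈ N∖0} (X - x_Q)`. -/
noncomputable def mzj_q_hN : K[X] :=
  ∏ Q ∈ mzj_q_Nz W K N, (X - C (mzj_q_px W K (Q : (W⁄K).Point)))

theorem mzj_q_hN_ne_zero : mzj_q_hN W K N ≠ 0 :=
  Finset.prod_ne_zero_iff.mpr fun _ _ => X_sub_C_ne_zero _

/-- The functions regular outside `N`, i.e. of the form `P(x)/h(x)^k`. -/
noncomputable def mzj_q_Ah : Subalgebra K (mzj_q_FF W K) where
  carrier := {u | ∃ (k : ℕ) (P : K[X]),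
    u * (aeval (mzj_q_x W K) (mzj_q_hN W K N)) ^ k = aeval (mzj_q_x W K) P}
  mul_mem' := by
    rintro u v ⟨k, P, hP⟩ ⟨m, P', hP'⟩
    exact ⟨k + m, P * P', by rw [map_mul, ← hP, ← hP', pow_add]; ring⟩
  add_mem' := by
    rintro u v ⟨k, P, hP⟩ ⟨m, P', hP'⟩
    refine ⟨k + m, P * mzj_q_hN W K N ^ m + P' * mzj_q_hN W K N ^ k, ?_⟩
    rw [map_add, map_mul, map_mul, map_pow, map_pow, ← hP, ← hP', pow_add]
    ring
  algebraMap_mem' c := ⟨0, C c, by rw [pow_zero, mul_one, aeval_C]⟩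

theorem mzj_q_mem_Ah {u : mzj_q_FF W K} : u ∈ mzj_q_Ah W K N ↔ ∃ (k : ℕ) (P : K[X]),
    u * (aeval (mzj_q_x W K) (mzj_q_hN W K N)) ^ k = aeval (mzj_q_x W K) P := Iff.rfl

theorem mzj_q_x_mem_Ah : mzj_q_x W K ∈ mzj_q_Ah W K N :=
  ⟨0, X, by rw [pow_zero, mul_one, aeval_X]⟩

theorem mzj_q_inv_mem_Ah {Q : N} (hQ : Q ∈ mzj_q_Nz W K N) :
    (mzj_q_x W K - algebraMap K _ (mzj_q_px W K (Q : (W⁄K).Point)))⁻¹ ∈ mzj_q_Ah W K N := by
  refine ⟨1, ∏ P ∈ (mzj_q_Nz W K N).erase Q, (X - C (mzj_q_px W K (P : (W⁄K).Point))), ?_⟩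
  have h1 : mzj_q_hN W K N = (X - C (mzj_q_px W K (Q : (W⁄K).Point))) *
      ∏ P ∈ (mzj_q_Nz W K N).erase Q, (X - C (mzj_q_px W K (P : (W⁄K).Point))) :=
    (Finset.mul_prod_erase _ _ hQ).symm
  have hne := mzj_q_x_sub_const_ne_zero W K (mzj_q_px W K (Q : (W⁄K).Point))
  rw [pow_one]
  conv_lhs => rw [h1]
  rw [map_mul, map_sub, aeval_X, aeval_C]
  field_simp

theorem mzj_q_ofNat_mem_Ah (n : ℕ) [n.AtLeastTwo] :
    (OfNat.ofNat n : mzj_q_FF W K) ∈ mzj_q_Ah W K N := by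
  have h := (mzj_q_Ah W K N).algebraMap_mem (OfNat.ofNat n : K)
  rwa [map_ofNat] at h

variable [CharZero K]

theorem mzj_q_sN_mem_Ah : mzj_q_sN W K N ∈ mzj_q_Ah W K N := by
  unfold mzj_q_sN
  apply Subalgebra.sum_mem
  intro Q hQ
  have hi := mzj_q_inv_mem_Ah W K N hQ
  rw [div_eq_mul_inv, div_eq_mul_inv, ← inv_pow]
  exact Subalgebra.add_mem _ (Subalgebra.mul_mem _ (Subalgebra.algebraMap_mem _ _) hi)
    (Subalgebra.mul_mem _ (Subalgebra.algebraMap_mem _ _) (Subalgebra.pow_mem _ hi 2))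

theorem mzj_q_sN'_mem_Ah : mzj_q_sN' W K N ∈ mzj_q_Ah W K N := by
  unfold mzj_q_sN'
  apply Subalgebra.sum_mem
  intro Q hQ
  have hi := mzj_q_inv_mem_Ah W K N hQ
  rw [div_eq_mul_inv, div_eq_mul_inv, ← inv_pow, ← inv_pow]
  exact Subalgebra.add_mem _
    (Subalgebra.mul_mem _ (Subalgebra.algebraMap_mem _ _) (Subalgebra.pow_mem _ hi 2))
    (Subalgebra.mul_mem _ (Subalgebra.mul_mem _ (mzj_q_ofNat_mem_Ah W K N 2)
      (Subalgebra.algebraMap_mem _ _)) (Subalgebra.pow_mem _ hi 3))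

theorem mzj_q_half_mem_Ah {u : mzj_q_FF W K} (hu : u ∈ mzj_q_Ah W K N) :
    u / 2 ∈ mzj_q_Ah W K N := by
  have h1 : u / 2 = algebraMap K (mzj_q_FF W K) (1 / 2) * u := by
    rw [map_div₀, map_one, map_ofNat]; ring
  rw [h1]
  exact Subalgebra.mul_mem _ (Subalgebra.algebraMap_mem _ _) hu

theorem mzj_q_XN_mem_Ah : mzj_q_XN W K N ∈ mzj_q_Ah W K N := by
  have h2 : mzj_q_rN W K N = mzj_q_sN W K N / 2 := by
    rw [← mzj_q_two_rN]; ring
  rw [mzj_q_XN_eq, h2]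
  exact Subalgebra.add_mem _ (mzj_q_x_mem_Ah W K N)
    (mzj_q_half_mem_Ah W K N (mzj_q_sN_mem_Ah W K N))

theorem mzj_q_Psi_mem_Ah : mzj_q_Psi W K N ∈ mzj_q_Ah W K N := by
  unfold mzj_q_Psi
  have hX := mzj_q_XN_mem_Ah W K N
  have hx := mzj_q_x_mem_Ah W K N
  refine Subalgebra.sub_mem _ ?_ ?_
  · rw [mzj_q_UpsN_eq, mul_pow, mzj_q_psi_sq]
    refine Subalgebra.mul_mem _ ?_ (Subalgebra.pow_mem _ (Subalgebra.add_mem _
      (Subalgebra.one_mem _) (Subalgebra.neg_mem _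
        (mzj_q_half_mem_Ah W K N (mzj_q_sN'_mem_Ah W K N)))) 2)
    exact Subalgebra.add_mem _ (Subalgebra.add_mem _ (Subalgebra.add_mem _
      (Subalgebra.mul_mem _ (mzj_q_ofNat_mem_Ah W K N 4) (Subalgebra.pow_mem _ hx 3))
      (Subalgebra.mul_mem _ (Subalgebra.algebraMap_mem _ _) (Subalgebra.pow_mem _ hx 2)))
      (Subalgebra.mul_mem _ (Subalgebra.mul_mem _ (mzj_q_ofNat_mem_Ah W K N 2)
        (Subalgebra.algebraMap_mem _ _)) hx)) (Subalgebra.algebraMap_mem _ _)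
  · exact Subalgebra.add_mem _ (Subalgebra.add_mem _ (Subalgebra.add_mem _
      (Subalgebra.mul_mem _ (mzj_q_ofNat_mem_Ah W K N 4) (Subalgebra.pow_mem _ hX 3))
      (Subalgebra.mul_mem _ (Subalgebra.algebraMap_mem _ _) (Subalgebra.pow_mem _ hX 2)))
      (Subalgebra.mul_mem _ (Subalgebra.mul_mem _ (mzj_q_ofNat_mem_Ah W K N 2)
        (Subalgebra.algebraMap_mem _ _)) hX)) (Subalgebra.algebraMap_mem _ _)

/-- Transport data at a nonzero point `P`: translation by `P` moves the pole at `x = x_P` to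
infinity. -/
theorem mzj_q_transport {P : (W⁄K).Point} (hP : P ≠ 0) :
    ∃ e : ℤ, 0 < e ∧
      (∀ c : K, c ≠ mzj_q_px W K P → mzj_q_tau W K P (mzj_q_x W K) - algebraMap K _ c ≠ 0 ∧
        mzj_q_D W K (mzj_q_tau W K P (mzj_q_x W K) - algebraMap K _ c) = 0) ∧
      (mzj_q_tau W K P (mzj_q_x W K) - algebraMap K _ (mzj_q_px W K P) ≠ 0 ∧
        mzj_q_D W K (mzj_q_tau W K P (mzj_q_x W K) - algebraMap K _ (mzj_q_px W K P)) = -e) := by
  rcases P with _ | ⟨a, b, h⟩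
  · exact absurd rfl hP
  · rw [mzj_q_tau_some_x]
    show ∃ e : ℤ, 0 < e ∧
      (∀ c : K, c ≠ a → mzj_q_xi W K a b - algebraMap K _ c ≠ 0 ∧
        mzj_q_D W K (mzj_q_xi W K a b - algebraMap K _ c) = 0) ∧
      (mzj_q_xi W K a b - algebraMap K _ a ≠ 0 ∧
        mzj_q_D W K (mzj_q_xi W K a b - algebraMap K _ a) = -e)
    by_cases hψ : 2 * b + (W⁄K).a₁ * a + (W⁄K).a₃ = 0
    · have hφ : 3 * a ^ 2 + 2 * (W⁄K).a₂ * a + (W⁄K).a₄ - (W⁄K).a₁ * b ≠ 0 := by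
        have h1 := (Affine.nonsingular_iff _ _).mp h
        rcases h1.2 with h2 | h2
        · intro h3
          apply h2
          linear_combination -h3
        · exfalso
          apply h2
          linear_combination hψ
      exact ⟨2, by norm_num, fun c hc => mzj_q_D_xi_sub_of_ne W K a b c hc,
        mzj_q_D_xi_sub_self_two W K a b hψ hφ⟩
    · exact ⟨1, by norm_num, fun c hc => mzj_q_D_xi_sub_of_ne W K a b c hc,
        mzj_q_D_xi_sub_self W K a b hψ⟩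

/-- **Vélu's functions satisfy the Weierstrass equation of the quotient curve.** -/
theorem mzj_q_Psi_eq_zero : mzj_q_Psi W K N = 0 := by
  classical
  obtain ⟨k, P, hP⟩ := (mzj_q_mem_Ah W K N).mp (mzj_q_Psi_mem_Ah W K N)
  rcases mzj_q_Sm_Psi W K N with h0 | hD
  · exact h0
  refine mzj_q_KL W K {z | ∃ Q ∈ mzj_q_Nz W K N, mzj_q_px W K (Q : (W⁄K).Point) = z}
    (mzj_q_Psi W K N) (mzj_q_hN W K N ^ k) P (pow_ne_zero k (mzj_q_hN_ne_zero W K N)) ?_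
    (by rw [map_pow]; exact hP) ?_ (by omega)
  · intro z hz
    have h1 := (mem_roots (pow_ne_zero k (mzj_q_hN_ne_zero W K N))).mp hz
    rw [IsRoot.def, eval_pow] at h1
    have h2 := pow_eq_zero_iff (M₀ := K) (n := k) (by
      rintro rfl
      rw [pow_zero] at h1
      exact one_ne_zero h1) |>.mp h1
    unfold mzj_q_hN at h2
    rw [eval_prod, Finset.prod_eq_zero_iff] at h2
    obtain ⟨Q, hQ, h3⟩ := h2
    rw [eval_sub, eval_X, eval_C, sub_eq_zero] at h3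
    exact ⟨Q, hQ, h3.symm⟩
  · rintro z ⟨Q, hQ, rfl⟩
    obtain ⟨e, he, h1, h2⟩ := mzj_q_transport W K (mzj_q_coe_ne_zero W K N hQ)
    exact ⟨mzj_q_tau W K (Q : (W⁄K).Point), e, he, mzj_q_Psi_inv W K N Q, h1, h2⟩

end Fermat.Agent.MZ
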