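import Mathlib
import Fermat.Agent.MZ.J.Quot.Const
import Fermat.Agent.MZ.J.Quot.VeluEq

/-!
# [MZ-J] / [J-QUOT]: the quotient isogeny `φ : E(K) →+ E'(K)` with kernel `N`

`W2` is any Weierstrass curve over `S` with Vélu's coefficients (`mzj_q_IsCod`).  The pair
`g' = (X_N, Y_N)` is a point of `W2` over the function field `K(E)`; for `P ∈ E(K)` the point
`τ_P g' - g'` is constant, which defines `φ P`; additivity is formal and `ker φ = N`.
-/

set_option autoImplicit false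
set_option linter.unusedSectionVars false
set_option linter.unusedSimpArgs false

namespace Fermat.Agent.MZ

open WeierstrassCurve WeierstrassCurve.Affine Polynomial
open Fermat.Agent.S58

open scoped Polynomial.Bivariate

variable {S : Type*} [CommRing S] (W : WeierstrassCurve S)
  (K : Type*) [Field K] [Algebra S K] [W.IsElliptic] [DecidableEq K] [IsAlgClosed K]

section general

variable (W2 : WeierstrassCurve S)

theorem mzj_q_bc_a₁ : (W2⁄(mzj_q_FF W K)).a₁ = algebraMap K (mzj_q_FF W K) (W2⁄K).a₁ :=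
  IsScalarTower.algebraMap_apply S K (mzj_q_FF W K) W2.a₁

theorem mzj_q_bc_a₂ : (W2⁄(mzj_q_FF W K)).a₂ = algebraMap K (mzj_q_FF W K) (W2⁄K).a₂ :=
  IsScalarTower.algebraMap_apply S K (mzj_q_FF W K) W2.a₂

theorem mzj_q_bc_a₃ : (W2⁄(mzj_q_FF W K)).a₃ = algebraMap K (mzj_q_FF W K) (W2⁄K).a₃ :=
  IsScalarTower.algebraMap_apply S K (mzj_q_FF W K) W2.a₃

theorem mzj_q_bc_a₄ : (W2⁄(mzj_q_FF W K)).a₄ = algebraMap K (mzj_q_FF W K) (W2⁄K).a₄ :=
  IsScalarTower.algebraMap_apply S K (mzj_q_FF W K) W2.a₄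

theorem mzj_q_bc_a₆ : (W2⁄(mzj_q_FF W K)).a₆ = algebraMap K (mzj_q_FF W K) (W2⁄K).a₆ :=
  IsScalarTower.algebraMap_apply S K (mzj_q_FF W K) W2.a₆

/-- The explicit Weierstrass equation of `W2` over the function field of `W`. -/
theorem mzj_q_bc_equation_iff (u v : mzj_q_FF W K) :
    (W2⁄(mzj_q_FF W K)).toAffine.Equation u v ↔
      v ^ 2 + algebraMap K _ (W2⁄K).a₁ * u * v + algebraMap K _ (W2⁄K).a₃ * v =
        u ^ 3 + algebraMap K _ (W2⁄K).a₂ * u ^ 2 + algebraMap K _ (W2⁄K).a₄ * u +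
          algebraMap K _ (W2⁄K).a₆ := by
  rw [Affine.equation_iff, mzj_q_bc_a₁, mzj_q_bc_a₂, mzj_q_bc_a₃, mzj_q_bc_a₄, mzj_q_bc_a₆]

theorem mzj_q_some_congr {F : Type*} [Field F] {V : Affine F} {x x' y y' : F} (hx : x = x')
    (hy : y = y') (h : V.Nonsingular x y) (h' : V.Nonsingular x' y') :
    Point.some x y h = Point.some x' y' h' := by
  subst hx hy
  rfl

/-- Constant points of `W2` over the function field of `W`. -/
noncomputable def mzj_q_cst2 : (W2⁄K).Point →+ (W2⁄(mzj_q_FF W K)).Point :=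
  Point.map (W' := W2) (Algebra.ofId K (mzj_q_FF W K))

theorem mzj_q_cst2_injective : Function.Injective (mzj_q_cst2 W K W2) :=
  Point.map_injective (W' := W2) (Algebra.ofId K (mzj_q_FF W K))

theorem mzj_q_cst2_some {a b : K} (h : (W2⁄K).toAffine.Nonsingular a b) :
    mzj_q_cst2 W K W2 (Point.some a b h) =
      Point.some (algebraMap K (mzj_q_FF W K) a) (algebraMap K (mzj_q_FF W K) b)
        ((Affine.baseChange_nonsingular (W := W2) (f := Algebra.ofId K (mzj_q_FF W K))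
          (Algebra.ofId K (mzj_q_FF W K)).injective a b).mpr h) := rfl

theorem mzj_q_map_cst2 (f : mzj_q_FF W K →ₐ[K] mzj_q_FF W K) (P : (W2⁄K).Point) :
    Point.map (W' := W2) f (mzj_q_cst2 W K W2 P) = mzj_q_cst2 W K W2 P := by
  unfold mzj_q_cst2
  rw [Point.map_map]
  have : f.comp (Algebra.ofId K (mzj_q_FF W K)) = Algebra.ofId K (mzj_q_FF W K) :=
    Subsingleton.elim _ _
  rw [this]

/-- A point of `W2` over the function field with constant coordinates is constant. -/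
theorem mzj_q_cst2_of_coords {u v : mzj_q_FF W K}
    (h : (W2⁄(mzj_q_FF W K)).toAffine.Nonsingular u v) {a b : K}
    (ha : algebraMap K (mzj_q_FF W K) a = u) (hb : algebraMap K (mzj_q_FF W K) b = v) :
    ∃ P : (W2⁄K).Point, mzj_q_cst2 W K W2 P = Point.some u v h := by
  subst ha hb
  have h0 : (W2⁄K).toAffine.Nonsingular a b :=
    (Affine.baseChange_nonsingular (W := W2) (f := Algebra.ofId K (mzj_q_FF W K))
      (Algebra.ofId K (mzj_q_FF W K)).injective a b).mp h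
  exact ⟨Point.some a b h0, rfl⟩

variable [CharZero K]

/-- **Constancy.**  If `G = (X, Y)` is a point of `W2` over the function field of `W` along which
the invariant derivation of `W` induces the invariant vector field of `W2`, and `τ` is an
endomorphism of the function field commuting with the derivation and moving `X`, then
`τ G - G` is a constant point. -/
theorem mzj_q_const_diff {U V : mzj_q_FF W K}
    (hG : (W2⁄(mzj_q_FF W K)).toAffine.Nonsingular U V)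
    (hdX : mzj_q_der W K U =
      2 * V + algebraMap K _ (W2⁄K).a₁ * U + algebraMap K _ (W2⁄K).a₃)
    (hdY : mzj_q_der W K V =
      3 * U ^ 2 + 2 * algebraMap K _ (W2⁄K).a₂ * U + algebraMap K _ (W2⁄K).a₄ -
        algebraMap K _ (W2⁄K).a₁ * V)
    (τ : mzj_q_FF W K →ₐ[K] mzj_q_FF W K)
    (hτ : ∀ z, mzj_q_der W K (τ z) = τ (mzj_q_der W K z)) (hX : τ U ≠ U) :
    ∃ R : (W2⁄K).Point,
      mzj_q_cst2 W K W2 R = Point.map (W' := W2) τ (Point.some U V hG) - Point.some U V hG := by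
  rw [Point.map_some, sub_eq_add_neg, Point.neg_some, Point.add_of_X_ne hX]
  have e₁ := (mzj_q_bc_equation_iff W K W2 _ _).mp
    ((Affine.baseChange_nonsingular (W := W2) (f := τ) τ.injective U V).mpr hG).1
  have e₂ := (mzj_q_bc_equation_iff W K W2 _ _).mp
    ((Affine.nonsingular_neg U V).mpr hG).1
  simp only [Affine.negY, mzj_q_bc_a₁, mzj_q_bc_a₃] at e₂
  -- abbreviations
  set A₁ := algebraMap K (mzj_q_FF W K) (W2⁄K).a₁ with hA₁
  set A₂ := algebraMap K (mzj_q_FF W K) (W2⁄K).a₂ with hA₂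
  set A₃ := algebraMap K (mzj_q_FF W K) (W2⁄K).a₃ with hA₃
  set A₄ := algebraMap K (mzj_q_FF W K) (W2⁄K).a₄ with hA₄
  set A₆ := algebraMap K (mzj_q_FF W K) (W2⁄K).a₆ with hA₆
  set X₁ := τ U with hX₁
  set Y₁ := τ V with hY₁
  set Y₂ := -V - A₁ * U - A₃ with hY₂
  set l := (Y₁ - Y₂) / (X₁ - U) with hl
  set X₃ := l ^ 2 + A₁ * l - A₂ - X₁ - U with hX₃
  set Y₃ := -(l * (X₃ - X₁) + Y₁) - A₁ * X₃ - A₃ with hY₃
  have hdX₁ : mzj_q_der W K X₁ = 1 * (2 * Y₁ + A₁ * X₁ + A₃) := by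
    rw [hX₁, hτ, hdX, one_mul]
    simp only [map_add, map_mul, map_ofNat, AlgHom.commutes, hA₁, hA₃, hY₁]
  have hdY₁ : mzj_q_der W K Y₁ = 1 * (3 * X₁ ^ 2 + 2 * A₂ * X₁ + A₄ - A₁ * Y₁) := by
    rw [hY₁, hτ, hdY, one_mul]
    simp only [map_add, map_sub, map_mul, map_pow, map_ofNat, AlgHom.commutes, hA₁, hA₂, hA₄,
      hX₁]
  have hdX₂ : mzj_q_der W K U = -1 * (2 * Y₂ + A₁ * U + A₃) := by
    rw [hdX, hY₂]; ring
  have hdY₂ : mzj_q_der W K Y₂ = -1 * (3 * U ^ 2 + 2 * A₂ * U + A₄ - A₁ * Y₂) := by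
    rw [hY₂, map_sub, map_sub, map_neg, Derivation.leibniz, hA₁, hA₃, Derivation.map_algebraMap,
      Derivation.map_algebraMap, hdX, hdY]
    simp only [smul_eq_mul, smul_zero, add_zero, sub_zero]
    ring
  have hdl : mzj_q_der W K l = ((mzj_q_der W K Y₁ - mzj_q_der W K Y₂) * (X₁ - U) -
      (Y₁ - Y₂) * (mzj_q_der W K X₁ - mzj_q_der W K U)) / (X₁ - U) ^ 2 :=
    mzj_q_der_slope (mzj_q_der W K) X₁ Y₁ U Y₂
  have hdX₃ : mzj_q_der W K X₃ =
      (2 * l + A₁) * mzj_q_der W K l - mzj_q_der W K X₁ - mzj_q_der W K U :=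
    mzj_q_der_addX (mzj_q_der W K) (W2⁄K).a₁ (W2⁄K).a₂ l X₁ U
  have hdY₃ : mzj_q_der W K Y₃ =
      -(mzj_q_der W K l * (X₃ - X₁) + l * (mzj_q_der W K X₃ - mzj_q_der W K X₁) +
        mzj_q_der W K Y₁) - A₁ * mzj_q_der W K X₃ :=
    mzj_q_der_addY (mzj_q_der W K) (W2⁄K).a₁ (W2⁄K).a₃ l X₁ X₃ Y₁
  have hzX : mzj_q_der W K X₃ = 0 := by
    have := mzj_q_addLambda_X A₁ A₂ A₃ A₄ A₆ X₁ Y₁ U Y₂ 1 (-1) e₁ e₂ hX l X₃ Y₃ _ _ _ _ _ _
      rfl rfl rfl hdX₁ hdY₁ hdX₂ hdY₂ hdl hdX₃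
    rw [this]; ring
  have hzY : mzj_q_der W K Y₃ = 0 := by
    have := mzj_q_addLambda_Y A₁ A₂ A₃ A₄ A₆ X₁ Y₁ U Y₂ 1 (-1) e₁ e₂ hX l X₃ Y₃ _ _ _ _ _ _ _
      rfl rfl rfl hdX₁ hdY₁ hdX₂ hdY₂ hdl hdX₃ hdY₃
    rw [this]; ring
  obtain ⟨a, ha⟩ := mzj_q_const_of_der_zero W K hzX
  obtain ⟨b, hb⟩ := mzj_q_const_of_der_zero W K hzY
  have hX₃eq : (W2⁄(mzj_q_FF W K)).toAffine.addX (τ U) U
      ((W2⁄(mzj_q_FF W K)).toAffine.slope (τ U) U (τ V)
        ((W2⁄(mzj_q_FF W K)).toAffine.negY U V)) = X₃ := by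
    rw [Affine.slope_of_X_ne hX]
    simp only [Affine.addX, Affine.negY, mzj_q_bc_a₁, mzj_q_bc_a₂, mzj_q_bc_a₃]
    rfl
  have hY₃eq : (W2⁄(mzj_q_FF W K)).toAffine.addY (τ U) U (τ V)
      ((W2⁄(mzj_q_FF W K)).toAffine.slope (τ U) U (τ V)
        ((W2⁄(mzj_q_FF W K)).toAffine.negY U V)) = Y₃ := by
    rw [Affine.slope_of_X_ne hX]
    simp only [Affine.addX, Affine.addY, Affine.negAddY, Affine.negY, mzj_q_bc_a₁, mzj_q_bc_a₂,
      mzj_q_bc_a₃]
    rfl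
  exact mzj_q_cst2_of_coords W K W2 _ (ha.trans hX₃eq.symm) (hb.trans hY₃eq.symm)

end general

section velu

variable [CharZero K] (N : AddSubgroup (W⁄K).Point) [Fintype N] (W2 : WeierstrassCurve S)

/-- `W2` has Vélu's coefficients. -/
def mzj_q_IsCod : Prop :=
  (W2⁄K).a₁ = (W⁄K).a₁ ∧ (W2⁄K).a₂ = (W⁄K).a₂ ∧ (W2⁄K).a₃ = (W⁄K).a₃ ∧
  (W2⁄K).a₄ = (W⁄K).a₄ - 5 * mzj_q_v W K N ∧
  (W2⁄K).a₆ = (W⁄K).a₆ - (W⁄K).b₂ * mzj_q_v W K N - 7 * mzj_q_w W K N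

/-- Vélu's `Y_N = (Υ_N - a₁ X_N - a₃) / 2`. -/
noncomputable def mzj_q_YN : mzj_q_FF W K :=
  (mzj_q_UpsN W K N - algebraMap K _ (W⁄K).a₁ * mzj_q_XN W K N - algebraMap K _ (W⁄K).a₃) / 2

theorem mzj_q_UpsN_eq_YN : mzj_q_UpsN W K N =
    2 * mzj_q_YN W K N + algebraMap K _ (W⁄K).a₁ * mzj_q_XN W K N +
      algebraMap K _ (W⁄K).a₃ := by
  unfold mzj_q_YN
  field_simp
  ring

theorem mzj_q_YN_eq : mzj_q_YN W K N = algebraMap K _ (1 / 2) *
    (mzj_q_UpsN W K N - algebraMap K _ (W⁄K).a₁ * mzj_q_XN W K N -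
      algebraMap K _ (W⁄K).a₃) := by
  unfold mzj_q_YN
  rw [map_div₀, map_one, map_ofNat]
  ring

theorem mzj_q_UpsN_sq : mzj_q_UpsN W K N ^ 2 =
    algebraMap K _ 4 * mzj_q_XN W K N ^ 3 + algebraMap K _ (W⁄K).b₂ * mzj_q_XN W K N ^ 2 +
      algebraMap K _ (2 * mzj_q_b4' W K N) * mzj_q_XN W K N +
      algebraMap K _ (mzj_q_b6' W K N) := by
  have h := mzj_q_Psi_eq_zero W K N
  unfold mzj_q_Psi at h
  rw [map_mul, map_ofNat, map_ofNat]
  linear_combination h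

theorem mzj_q_Sm_rN : mzj_q_Sm W K (-2) (mzj_q_rN W K N) := by
  apply mzj_q_Sm_of_two_mul
  rw [mzj_q_two_rN]
  unfold mzj_q_sN
  apply mzj_q_Sm_sum
  intro Q _
  apply mzj_q_Sm_add
  · rw [div_eq_mul_inv]
    exact mzj_q_Sm_mul' (mzj_q_Sm_const _) (mzj_q_Sm_inv_x_sub _) (by norm_num)
  · rw [div_eq_mul_inv, ← inv_pow]
    exact mzj_q_Sm_mul' (mzj_q_Sm_const _) (mzj_q_Sm_pow (mzj_q_Sm_inv_x_sub _) 2)
      (by norm_num)

omit [W.IsElliptic] [DecidableEq K] [IsAlgClosed K] [CharZero K] in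
theorem mzj_q_D_add_of_Sm {u v : mzj_q_FF W K} {m : ℤ} (hu : u ≠ 0)
    (hv : mzj_q_Sm W K m v) (hm : m < mzj_q_D W K u) :
    u + v ≠ 0 ∧ mzj_q_D W K (u + v) = mzj_q_D W K u := by
  rcases hv with rfl | hv
  · rw [add_zero]; exact ⟨hu, rfl⟩
  by_cases hv0 : v = 0
  · subst hv0; rw [add_zero]; exact ⟨hu, rfl⟩
  have hne : u + v ≠ 0 := by
    intro h0
    have h1 : u = -v := eq_neg_of_add_eq_zero_left h0
    rw [h1, mzj_q_D_neg] at hm
    omega
  refine ⟨hne, le_antisymm ?_ ?_⟩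
  · have := mzj_q_D_add_le W K hu hv0 hne
    rcases le_max_iff.mp this with h | h
    · exact h
    · omega
  · have h1 : u = (u + v) + -v := by ring
    have h2 := mzj_q_D_add_le W K hne (neg_ne_zero.mpr hv0) (by rw [← h1]; exact hu)
    rw [← h1, mzj_q_D_neg] at h2
    rcases le_max_iff.mp h2 with h | h
    · exact h
    · omega

theorem mzj_q_D_XN_sub (c : K) : mzj_q_XN W K N - algebraMap K _ c ≠ 0 ∧
    mzj_q_D W K (mzj_q_XN W K N - algebraMap K _ c) = 2 := by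
  have h1 : mzj_q_XN W K N - algebraMap K _ c =
      mzj_q_x W K + (mzj_q_rN W K N - algebraMap K _ c) := by
    rw [mzj_q_XN_eq]; ring
  have h2 : mzj_q_Sm W K 0 (mzj_q_rN W K N - algebraMap K _ c) :=
    mzj_q_Sm_sub (mzj_q_Sm_mono (by norm_num) (mzj_q_Sm_rN W K N)) (mzj_q_Sm_const _)
  have h3 := mzj_q_D_add_of_Sm W K (mzj_q_x_ne_zero W K) h2 (by rw [mzj_q_D_x]; norm_num)
  rw [h1]
  exact ⟨h3.1, h3.2.trans (mzj_q_D_x W K)⟩

theorem mzj_q_UpsN_ne_zero : mzj_q_UpsN W K N ≠ 0 := by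
  intro h0
  obtain ⟨c, hc⟩ := mzj_q_const_of_der_zero W K (z := mzj_q_XN W K N) h0
  exact (mzj_q_D_XN_sub W K N c).1 (by rw [hc, sub_self])

variable {W K N W2}

theorem mzj_q_cod_nonsingular (h : mzj_q_IsCod W K N W2) :
    (W2⁄(mzj_q_FF W K)).toAffine.Nonsingular (mzj_q_XN W K N) (mzj_q_YN W K N) := by
  rw [Affine.nonsingular_iff']
  refine ⟨(mzj_q_bc_equation_iff W K W2 _ _).mpr ?_, Or.inr ?_⟩
  · obtain ⟨h1, h2, h3, h4, h6⟩ := h
    rw [h1, h2, h3, h4, h6]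
    have hU := mzj_q_UpsN_sq W K N
    rw [mzj_q_UpsN_eq_YN] at hU
    unfold mzj_q_b4' mzj_q_b6' at hU
    simp only [WeierstrassCurve.b₂, WeierstrassCurve.b₄, WeierstrassCurve.b₆, map_sub, map_add,
      map_mul, map_pow, map_ofNat] at hU ⊢
    linear_combination hU / 4
  · rw [mzj_q_bc_a₁, mzj_q_bc_a₃, h.1, h.2.2.1, ← mzj_q_UpsN_eq_YN]
    exact mzj_q_UpsN_ne_zero W K N

variable (W K N W2)

omit [W.IsElliptic] [DecidableEq K] [IsAlgClosed K] [CharZero K] in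
theorem mzj_q_der_cubic (D : Derivation K (mzj_q_FF W K) (mzj_q_FF W K)) (c₃ c₂ c₁ c₀ : K)
    (u : mzj_q_FF W K) :
    D (algebraMap K _ c₃ * u ^ 3 + algebraMap K _ c₂ * u ^ 2 + algebraMap K _ c₁ * u +
        algebraMap K _ c₀) =
      (3 * algebraMap K _ c₃ * u ^ 2 + 2 * algebraMap K _ c₂ * u + algebraMap K _ c₁) * D u := by
  simp only [map_add, Derivation.leibniz, Derivation.leibniz_pow, Derivation.map_algebraMap,
    smul_eq_mul, smul_zero, add_zero, nsmul_eq_mul]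
  push_cast
  ring

theorem mzj_q_der_UpsN : mzj_q_der W K (mzj_q_UpsN W K N) =
    6 * mzj_q_XN W K N ^ 2 + algebraMap K _ (W⁄K).b₂ * mzj_q_XN W K N +
      algebraMap K _ (mzj_q_b4' W K N) := by
  have h := congrArg (mzj_q_der W K) (mzj_q_UpsN_sq W K N)
  rw [mzj_q_der_cubic, Derivation.leibniz_pow] at h
  have hX : mzj_q_der W K (mzj_q_XN W K N) = mzj_q_UpsN W K N := rfl
  rw [hX] at h
  simp only [smul_eq_mul, nsmul_eq_mul, map_mul, map_ofNat] at h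
  have hU := mzj_q_UpsN_ne_zero W K N
  have h2 : (2 : mzj_q_FF W K) ≠ 0 := two_ne_zero
  apply mul_left_cancel₀ (mul_ne_zero h2 hU)
  push_cast at h
  linear_combination h

theorem mzj_q_der_YN : mzj_q_der W K (mzj_q_YN W K N) =
    3 * mzj_q_XN W K N ^ 2 + 2 * algebraMap K _ (W⁄K).a₂ * mzj_q_XN W K N +
      algebraMap K _ ((W⁄K).a₄ - 5 * mzj_q_v W K N) -
      algebraMap K _ (W⁄K).a₁ * mzj_q_YN W K N := by
  have hX : mzj_q_der W K (mzj_q_XN W K N) = mzj_q_UpsN W K N := rfl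
  rw [mzj_q_YN_eq, Derivation.leibniz, Derivation.map_algebraMap, map_sub, map_sub,
    Derivation.leibniz, Derivation.map_algebraMap, Derivation.map_algebraMap, hX, mzj_q_der_UpsN,
    ← mzj_q_YN_eq]
  simp only [smul_eq_mul, smul_zero, add_zero, sub_zero]
  rw [mzj_q_UpsN_eq_YN]
  unfold mzj_q_b4'
  simp only [WeierstrassCurve.b₂, WeierstrassCurve.b₄, map_sub, map_add, map_mul, map_pow,
    map_ofNat, map_div₀, map_one]
  field_simp
  ring

variable {W K N W2}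

/-- The generic point of the quotient: `g' = (X_N, Y_N)`. -/
noncomputable def mzj_q_gen2 (h : mzj_q_IsCod W K N W2) : (W2⁄(mzj_q_FF W K)).Point :=
  Point.some (mzj_q_XN W K N) (mzj_q_YN W K N) (mzj_q_cod_nonsingular h)

variable (W K N)

theorem mzj_q_tau_UpsN {P₀ : (W⁄K).Point}
    (hX : mzj_q_tau W K P₀ (mzj_q_XN W K N) = mzj_q_XN W K N) :
    mzj_q_tau W K P₀ (mzj_q_UpsN W K N) = mzj_q_UpsN W K N := by
  unfold mzj_q_UpsN
  rw [← mzj_q_der_tau, hX]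

theorem mzj_q_tau_YN {P₀ : (W⁄K).Point}
    (hX : mzj_q_tau W K P₀ (mzj_q_XN W K N) = mzj_q_XN W K N) :
    mzj_q_tau W K P₀ (mzj_q_YN W K N) = mzj_q_YN W K N := by
  unfold mzj_q_YN
  rw [map_div₀, map_sub, map_sub, map_mul, AlgHom.commutes, AlgHom.commutes, map_ofNat, hX,
    mzj_q_tau_UpsN W K N hX]

variable {W K N}

theorem mzj_q_map_gen2_of_fixed (h : mzj_q_IsCod W K N W2) {P₀ : (W⁄K).Point}
    (hX : mzj_q_tau W K P₀ (mzj_q_XN W K N) = mzj_q_XN W K N) :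
    Point.map (W' := W2) (mzj_q_tau W K P₀) (mzj_q_gen2 h) = mzj_q_gen2 h := by
  unfold mzj_q_gen2
  rw [Point.map_some]
  exact mzj_q_some_congr hX (mzj_q_tau_YN W K N hX) _ _

theorem mzj_q_exists_const (h : mzj_q_IsCod W K N W2) (P₀ : (W⁄K).Point) :
    ∃ R : (W2⁄K).Point, mzj_q_cst2 W K W2 R =
      Point.map (W' := W2) (mzj_q_tau W K P₀) (mzj_q_gen2 h) - mzj_q_gen2 h := by
  by_cases hX : mzj_q_tau W K P₀ (mzj_q_XN W K N) = mzj_q_XN W K N
  · exact ⟨0, by rw [map_zero, mzj_q_map_gen2_of_fixed h hX, sub_self]⟩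
  · refine mzj_q_const_diff W K W2 (mzj_q_cod_nonsingular h) ?_ ?_ (mzj_q_tau W K P₀)
      (fun z => mzj_q_der_tau W K P₀ z) hX
    · rw [h.1, h.2.2.1, ← mzj_q_UpsN_eq_YN]
      rfl
    · rw [h.1, h.2.1, h.2.2.2.1, mzj_q_der_YN]

/-- The isogeny, as a function. -/
noncomputable def mzj_q_isogFun (h : mzj_q_IsCod W K N W2) (P₀ : (W⁄K).Point) : (W2⁄K).Point :=
  (mzj_q_exists_const h P₀).choose

theorem mzj_q_isogFun_spec (h : mzj_q_IsCod W K N W2) (P₀ : (W⁄K).Point) :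
    mzj_q_cst2 W K W2 (mzj_q_isogFun h P₀) =
      Point.map (W' := W2) (mzj_q_tau W K P₀) (mzj_q_gen2 h) - mzj_q_gen2 h :=
  (mzj_q_exists_const h P₀).choose_spec

theorem mzj_q_map_tau_gen2 (h : mzj_q_IsCod W K N W2) (P₀ : (W⁄K).Point) :
    Point.map (W' := W2) (mzj_q_tau W K P₀) (mzj_q_gen2 h) =
      mzj_q_gen2 h + mzj_q_cst2 W K W2 (mzj_q_isogFun h P₀) := by
  rw [mzj_q_isogFun_spec]; abel

/-- **The quotient isogeny** `φ : E(K) →+ E'(K)`. -/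
noncomputable def mzj_q_isog (h : mzj_q_IsCod W K N W2) : (W⁄K).Point →+ (W2⁄K).Point :=
  AddMonoidHom.mk' (mzj_q_isogFun h) (fun P Q => by
    apply mzj_q_cst2_injective W K W2
    rw [map_add, mzj_q_isogFun_spec, ← mzj_q_tau_comp, ← Point.map_map, mzj_q_map_tau_gen2 h Q,
      map_add, mzj_q_map_cst2, mzj_q_map_tau_gen2 h P]
    abel)

theorem mzj_q_isog_apply (h : mzj_q_IsCod W K N W2) (P₀ : (W⁄K).Point) :
    mzj_q_isog h P₀ = mzj_q_isogFun h P₀ := rfl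

/-- The defining property of the isogeny: `τ_P g' = g' + φ(P)`. -/
theorem mzj_q_map_tau_gen2' (h : mzj_q_IsCod W K N W2) (P₀ : (W⁄K).Point) :
    Point.map (W' := W2) (mzj_q_tau W K P₀) (mzj_q_gen2 h) =
      mzj_q_gen2 h + mzj_q_cst2 W K W2 (mzj_q_isog h P₀) :=
  mzj_q_map_tau_gen2 h P₀

variable (W K N)

omit [CharZero K] in
theorem mzj_q_Sm_xi (a b : K) : mzj_q_Sm W K 0 (mzj_q_xi W K a b) := by
  by_cases h1 : (1 : K) = 0
  · exact absurd h1 one_ne_zero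
  have h := mzj_q_D_xi_sub_of_ne W K a b (a + 1) (by
    intro h2; apply h1; linear_combination h2)
  have h3 : mzj_q_xi W K a b = (mzj_q_xi W K a b - algebraMap K _ (a + 1)) +
      algebraMap K _ (a + 1) := by ring
  rw [h3]
  exact mzj_q_Sm_add (Or.inr h.2.le) (mzj_q_Sm_const _)

omit [CharZero K] in
theorem mzj_q_Sm_tau_x {P : (W⁄K).Point} (hP : P ≠ 0) :
    mzj_q_Sm W K 0 (mzj_q_tau W K P (mzj_q_x W K)) := by
  rw [mzj_q_tau_x_of_ne_zero W K hP]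
  exact mzj_q_Sm_xi W K _ _

theorem mzj_q_tau_XN_eq (P₀ : (W⁄K).Point) : mzj_q_tau W K P₀ (mzj_q_XN W K N) =
    ∑ Q : N, mzj_q_tau W K (P₀ + (Q : (W⁄K).Point)) (mzj_q_x W K) -
      algebraMap K _ (mzj_q_c0 W K N) := by
  unfold mzj_q_XN
  rw [map_sub, map_sum, AlgHom.commutes]
  simp only [mzj_q_tau_tau]

theorem mzj_q_tau_XN_ne {P₀ : (W⁄K).Point} (hP : P₀ ∉ N) :
    mzj_q_tau W K P₀ (mzj_q_XN W K N) ≠ mzj_q_XN W K N := by
  intro h0
  have h1 : mzj_q_Sm W K 0 (mzj_q_tau W K P₀ (mzj_q_XN W K N)) := by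
    rw [mzj_q_tau_XN_eq]
    apply mzj_q_Sm_sub _ (mzj_q_Sm_const _)
    apply mzj_q_Sm_sum
    intro Q _
    apply mzj_q_Sm_tau_x
    intro h2
    apply hP
    have h3 : P₀ = -(Q : (W⁄K).Point) := eq_neg_of_add_eq_zero_left h2
    rw [h3]
    exact N.neg_mem Q.2
  rw [h0] at h1
  have h2 := mzj_q_D_XN_sub W K N 0
  rw [map_zero, sub_zero] at h2
  rcases h1 with h1 | h1
  · exact h2.1 h1
  · rw [h2.2] at h1; omega

variable {W K N}

/-- **The kernel of the quotient isogeny is `N`.** -/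
theorem mzj_q_isog_eq_zero_iff (h : mzj_q_IsCod W K N W2) (P₀ : (W⁄K).Point) :
    mzj_q_isog h P₀ = 0 ↔ P₀ ∈ N := by
  constructor
  · intro h0
    by_contra hP
    have h1 := mzj_q_map_tau_gen2' h P₀
    rw [h0, map_zero, add_zero] at h1
    unfold mzj_q_gen2 at h1
    rw [Point.map_some] at h1
    exact mzj_q_tau_XN_ne W K N hP (Point.some.inj h1).1
  · intro hP
    apply mzj_q_cst2_injective W K W2
    rw [map_zero, mzj_q_isog_apply, mzj_q_isogFun_spec,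
      mzj_q_map_gen2_of_fixed h (mzj_q_XN_inv W K N ⟨P₀, hP⟩), sub_self]

theorem mzj_q_isog_ker (h : mzj_q_IsCod W K N W2) : (mzj_q_isog h).ker = N := by
  ext P₀
  rw [AddMonoidHom.mem_ker]
  exact mzj_q_isog_eq_zero_iff h P₀

end velu

end Fermat.Agent.MZ
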