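import Mathlib
import Fermat.Agent.MZ.J.Quot.Isog
import Fermat.Agent.MZ.J.Quot.Half

/-!
# [MZ-J] / [J-QUOT]: the quotient curve is nonsingular (`|N|` odd)

The three points of order two of `E` map injectively to nonsingular points of order two of the
quotient curve, so its two-torsion cubic has three distinct roots and `Δ' ≠ 0`.
-/

set_option autoImplicit false
set_option linter.unusedSectionVars false
set_option linter.unusedSimpArgs false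

namespace Fermat.Agent.MZ

open WeierstrassCurve WeierstrassCurve.Affine

/-- `(2y + a₁x + a₃)² = 4x³ + b₂x² + 2b₄x + b₆` on a Weierstrass curve. -/
theorem mzj_q_psi_sq_pt {F : Type*} [CommRing F] (V : Affine F) {x y : F} (h : V.Equation x y) :
    (2 * y + V.a₁ * x + V.a₃) ^ 2 = 4 * x ^ 3 + V.b₂ * x ^ 2 + 2 * V.b₄ * x + V.b₆ := by
  have h1 := (Affine.equation_iff x y).mp h
  simp only [WeierstrassCurve.b₂, WeierstrassCurve.b₄, WeierstrassCurve.b₆]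
  linear_combination 4 * h1

/-- A Weierstrass curve whose two-torsion cubic has three distinct roots is nonsingular. -/
theorem mzj_q_Delta_ne_zero_of_roots {F : Type*} [Field F] (h2 : (2 : F) ≠ 0)
    (V : WeierstrassCurve F) {X₁ X₂ X₃ : F}
    (h₁ : 4 * X₁ ^ 3 + V.b₂ * X₁ ^ 2 + 2 * V.b₄ * X₁ + V.b₆ = 0)
    (h₂ : 4 * X₂ ^ 3 + V.b₂ * X₂ ^ 2 + 2 * V.b₄ * X₂ + V.b₆ = 0)
    (h₃ : 4 * X₃ ^ 3 + V.b₂ * X₃ ^ 2 + 2 * V.b₄ * X₃ + V.b₆ = 0)
    (h₁₂ : X₁ ≠ X₂) (h₁₃ : X₁ ≠ X₃) (h₂₃ : X₂ ≠ X₃) : V.Δ ≠ 0 := by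
  have d₁₂ : X₁ - X₂ ≠ 0 := sub_ne_zero.mpr h₁₂
  have d₁₃ : X₁ - X₃ ≠ 0 := sub_ne_zero.mpr h₁₃
  have d₂₃ : X₂ - X₃ ≠ 0 := sub_ne_zero.mpr h₂₃
  have g₁₂ : 4 * (X₁ ^ 2 + X₁ * X₂ + X₂ ^ 2) + V.b₂ * (X₁ + X₂) + 2 * V.b₄ = 0 := by
    apply mul_left_cancel₀ d₁₂
    linear_combination h₁ - h₂
  have g₁₃ : 4 * (X₁ ^ 2 + X₁ * X₃ + X₃ ^ 2) + V.b₂ * (X₁ + X₃) + 2 * V.b₄ = 0 := by
    apply mul_left_cancel₀ d₁₃
    linear_combination h₁ - h₃
  have hB : V.b₂ = -4 * (X₁ + X₂ + X₃) := by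
    have : (X₂ - X₃) * (4 * (X₁ + X₂ + X₃) + V.b₂) = (X₂ - X₃) * 0 := by
      linear_combination g₁₂ - g₁₃
    have := mul_left_cancel₀ d₂₃ this
    linear_combination this
  have hC : V.b₄ = 2 * (X₁ * X₂ + X₁ * X₃ + X₂ * X₃) := by
    apply mul_left_cancel₀ h2
    rw [hB] at g₁₂
    linear_combination g₁₂
  have hD : V.b₆ = -4 * (X₁ * X₂ * X₃) := by
    rw [hB, hC] at h₁
    linear_combination h₁
  have hdisc := V.twoTorsionPolynomial_discr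
  simp only [WeierstrassCurve.twoTorsionPolynomial, Cubic.discr] at hdisc
  rw [hB, hC, hD] at hdisc
  have key : 16 * V.Δ = 256 * ((X₁ - X₂) * (X₁ - X₃) * (X₂ - X₃)) ^ 2 := by
    linear_combination -hdisc
  intro h0
  rw [h0, mul_zero] at key
  have h256 : (256 : F) ≠ 0 := by
    have : (256 : F) = 2 ^ 8 := by norm_num
    rw [this]
    exact pow_ne_zero 8 h2
  have := mul_ne_zero h256 (pow_ne_zero 2 (mul_ne_zero (mul_ne_zero d₁₂ d₁₃) d₂₃))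
  exact this key.symm

variable {S : Type*} [CommRing S] (W : WeierstrassCurve S)
  (K : Type*) [Field K] [Algebra S K] [W.IsElliptic] [DecidableEq K] [IsAlgClosed K]
  [CharZero K]

/-- A root of the two-torsion cubic gives a point of order two. -/
theorem mzj_q_two_torsion_of_root {x : K}
    (hx : 4 * x ^ 3 + (W⁄K).b₂ * x ^ 2 + 2 * (W⁄K).b₄ * x + (W⁄K).b₆ = 0) :
    ∃ (y : K) (h : (W⁄K).toAffine.Nonsingular x y),
      (Point.some x y h : (W⁄K).Point) = -Point.some x y h := by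
  have h2 : (2 : K) ≠ 0 := two_ne_zero
  set y : K := -((W⁄K).a₁ * x + (W⁄K).a₃) / 2 with hy
  have hψ : 2 * y + (W⁄K).a₁ * x + (W⁄K).a₃ = 0 := by
    rw [hy]; field_simp; ring
  have he : (W⁄K).toAffine.Equation x y := by
    rw [Affine.equation_iff]
    have h4 : (4 : K) ≠ 0 := by norm_num
    apply mul_left_cancel₀ h4
    simp only [WeierstrassCurve.b₂, WeierstrassCurve.b₄, WeierstrassCurve.b₆] at hx
    have hy' : y = -((W⁄K).a₁ * x + (W⁄K).a₃) / 2 := hy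
    have h5 : 2 * y = -((W⁄K).a₁ * x + (W⁄K).a₃) := by linear_combination hψ
    linear_combination (2 * y - (W⁄K).a₁ * x - (W⁄K).a₃) * h5 - hx +
      ((W⁄K).a₁ * x + (W⁄K).a₃) * h5
  have hns : (W⁄K).toAffine.Nonsingular x y := (Affine.equation_iff_nonsingular).mp he
  refine ⟨y, hns, ?_⟩
  rw [Point.neg_some]
  apply mzj_q_some_congr rfl
  simp only [Affine.negY]
  linear_combination hψ

/-- Three distinct points of order two. -/
theorem mzj_q_exists_two_torsion :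
    ∃ T₁ T₂ T₃ : (W⁄K).Point, T₁ ≠ 0 ∧ T₂ ≠ 0 ∧ T₃ ≠ 0 ∧ T₁ = -T₁ ∧ T₂ = -T₂ ∧ T₃ = -T₃ ∧
      T₁ ≠ T₂ ∧ T₁ ≠ T₃ ∧ T₂ ≠ T₃ := by
  set P : Cubic K := (W⁄K).twoTorsionPolynomial with hP
  have ha : P.a ≠ 0 := by
    show (4 : K) ≠ 0
    norm_num
  have hsplit : (P.toPoly.map (RingHom.id K)).Splits := IsAlgClosed.splits _
  obtain ⟨x, y, z, h3⟩ := (Cubic.splits_iff_roots_eq_three (φ := RingHom.id K) ha).mp hsplit
  have hdisc : P.discr ≠ 0 := by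
    rw [hP, WeierstrassCurve.twoTorsionPolynomial_discr]
    exact mul_ne_zero (by norm_num) (W⁄K).isUnit_Δ.ne_zero
  obtain ⟨hxy, hxz, hyz⟩ := (Cubic.discr_ne_zero_iff_roots_ne (φ := RingHom.id K) ha h3).mp hdisc
  have hmap : Cubic.map (RingHom.id K) P = P := rfl
  rw [hmap] at h3
  have hroot : ∀ t : K, t ∈ P.roots →
      4 * t ^ 3 + (W⁄K).b₂ * t ^ 2 + 2 * (W⁄K).b₄ * t + (W⁄K).b₆ = 0 := by
    intro t ht
    exact (Cubic.mem_roots_iff (Cubic.ne_zero_of_a_ne_zero ha) t).mp ht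
  have hx := hroot x (by rw [h3]; simp)
  have hy := hroot y (by rw [h3]; simp)
  have hz := hroot z (by rw [h3]; simp)
  obtain ⟨y₁, hn₁, ht₁⟩ := mzj_q_two_torsion_of_root W K hx
  obtain ⟨y₂, hn₂, ht₂⟩ := mzj_q_two_torsion_of_root W K hy
  obtain ⟨y₃, hn₃, ht₃⟩ := mzj_q_two_torsion_of_root W K hz
  refine ⟨Point.some x y₁ hn₁, Point.some y y₂ hn₂, Point.some z y₃ hn₃,
    Point.some_ne_zero _, Point.some_ne_zero _, Point.some_ne_zero _, ht₁, ht₂, ht₃, ?_, ?_, ?_⟩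
  · intro h; exact hxy (Point.some.inj h).1
  · intro h; exact hxz (Point.some.inj h).1
  · intro h; exact hyz (Point.some.inj h).1

variable {W K}
variable {N : AddSubgroup (W⁄K).Point} [Fintype N] {W2 : WeierstrassCurve S}

/-- A nonzero point of order two is not in a subgroup of odd order. -/
theorem mzj_q_not_mem_of_two_torsion (hodd : Odd (Fintype.card N)) {T : (W⁄K).Point}
    (hT0 : T ≠ 0) (hT : T = -T) : T ∉ N := by
  intro hN
  have h1 : (⟨T, hN⟩ : N) = -⟨T, hN⟩ := Subtype.ext hT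
  have h2 := mzj_q_eq_zero_of_eq_neg hodd h1
  exact hT0 (congrArg (fun Q : N => (Q : (W⁄K).Point)) h2)

/-- The image of a point of order two: a root of the two-torsion cubic of the quotient. -/
theorem mzj_q_isog_two_torsion (hodd : Odd (Fintype.card N)) (h : mzj_q_IsCod W K N W2)
    {T : (W⁄K).Point} (hT0 : T ≠ 0) (hT : T = -T) :
    ∃ (X Y : K) (hXY : (W2⁄K).toAffine.Nonsingular X Y),
      mzj_q_isog h T = Point.some X Y hXY ∧
      4 * X ^ 3 + (W2⁄K).b₂ * X ^ 2 + 2 * (W2⁄K).b₄ * X + (W2⁄K).b₆ = 0 := by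
  have hTN := mzj_q_not_mem_of_two_torsion hodd hT0 hT
  rcases hφ : mzj_q_isog h T with _ | ⟨X, Y, hXY⟩
  · exact absurd ((mzj_q_isog_eq_zero_iff h T).mp hφ) hTN
  refine ⟨X, Y, hXY, rfl, ?_⟩
  have h1 : mzj_q_isog h T = -mzj_q_isog h T := by
    conv_lhs => rw [hT]
    rw [map_neg]
  rw [hφ, Point.neg_some] at h1
  have h2 := (Point.some.inj h1).2
  simp only [Affine.negY] at h2
  rw [← mzj_q_psi_sq_pt (W2⁄K).toAffine hXY.1]
  have h3 : 2 * Y + (W2⁄K).a₁ * X + (W2⁄K).a₃ = 0 := by linear_combination h2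
  rw [h3]
  ring

/-- **The quotient curve is nonsingular.** -/
theorem mzj_q_cod_Delta_ne_zero (hodd : Odd (Fintype.card N)) (h : mzj_q_IsCod W K N W2) :
    (W2⁄K).Δ ≠ 0 := by
  obtain ⟨T₁, T₂, T₃, h₁0, h₂0, h₃0, ht₁, ht₂, ht₃, h₁₂, h₁₃, h₂₃⟩ :=
    mzj_q_exists_two_torsion W K
  obtain ⟨X₁, Y₁, hn₁, hφ₁, hr₁⟩ := mzj_q_isog_two_torsion hodd h h₁0 ht₁
  obtain ⟨X₂, Y₂, hn₂, hφ₂, hr₂⟩ := mzj_q_isog_two_torsion hodd h h₂0 ht₂
  obtain ⟨X₃, Y₃, hn₃, hφ₃, hr₃⟩ := mzj_q_isog_two_torsion hodd h h₃0 ht₃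
  -- distinct points of order two have distinct images with distinct `x`-coordinates
  have key : ∀ {T T' : (W⁄K).Point} {X Y X' Y' : K}
      {hn : (W2⁄K).toAffine.Nonsingular X Y} {hn' : (W2⁄K).toAffine.Nonsingular X' Y'},
      T = -T → T' = -T' → T ≠ T' → mzj_q_isog h T = Point.some X Y hn →
      mzj_q_isog h T' = Point.some X' Y' hn' → X ≠ X' := by
    intro T T' X Y X' Y' hn hn' hT hT' hne hφ hφ' hX
    have h1 : mzj_q_isog h T = mzj_q_isog h T' := by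
      rcases (Point.X_eq_iff (h₁ := hn) (h₂ := hn')).mp hX with h2 | h2
      · rw [hφ, hφ', h2]
      · rw [hφ, h2, ← hφ', ← map_neg, ← hT']
    have h3 : mzj_q_isog h (T - T') = 0 := by rw [map_sub, h1, sub_self]
    have h4 : T - T' ∈ N := (mzj_q_isog_eq_zero_iff h _).mp h3
    have h5 : T - T' = -(T - T') := by
      rw [neg_sub]
      conv_lhs => rw [hT, hT']
      abel
    exact mzj_q_not_mem_of_two_torsion hodd (sub_ne_zero.mpr hne) h5 h4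
  exact mzj_q_Delta_ne_zero_of_roots two_ne_zero (W2⁄K) hr₁ hr₂ hr₃
    (key ht₁ ht₂ h₁₂ hφ₁ hφ₂) (key ht₁ ht₃ h₁₃ hφ₁ hφ₃) (key ht₂ ht₃ h₂₃ hφ₂ hφ₃)

end Fermat.Agent.MZ
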