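import Mathlib
import Fermat.Agent.MZ.J.Quot.Isog

/-!
# [MZ-J] / [J-QUOT]: the `x`-coordinate of `φ(P)` is Vélu's `X_N(P)`

For `P ∉ N`: `x(φ P) = ∑_{Q ∈ N} x(P + Q) - ∑_{Q ∈ N∖0} x(Q)
  = x_P + ½ ∑_{Q ∈ N∖0} (t_Q/(x_P - x_Q) + u_Q/(x_P - x_Q)²)`.
Proof: compare `τ_P X_N = x(g' + φ P)` with both constants at infinity.
-/

set_option autoImplicit false
set_option linter.unusedSectionVars false
set_option linter.unusedSimpArgs false

namespace Fermat.Agent.MZ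

open WeierstrassCurve WeierstrassCurve.Affine Polynomial
open Fermat.Agent.S58

open scoped Polynomial.Bivariate

/-- `(x(G + A) - x(A)) (x(G) - x(A))²` is linear in the coordinates of `G`. -/
theorem mzj_q_F2 {F : Type*} [Field F] (A₁ A₂ A₃ A₄ A₆ x y a b : F)
    (hW : y ^ 2 + A₁ * x * y + A₃ * y = x ^ 3 + A₂ * x ^ 2 + A₄ * x + A₆)
    (hne : x - a ≠ 0) :
    (((y - b) / (x - a)) ^ 2 + A₁ * ((y - b) / (x - a)) - A₂ - x - a - a) * (x - a) ^ 2 =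
      (A₄ - A₁ * b + a ^ 2 + 2 * A₂ * a + 2 * a * a) * x +
        (A₆ + b ^ 2 + A₁ * a * b - (A₂ + a + a) * a ^ 2) - (2 * b + A₁ * a + A₃) * y := by
  field_simp
  linear_combination hW

variable {S : Type*} [CommRing S] (W : WeierstrassCurve S)
  (K : Type*) [Field K] [Algebra S K] [W.IsElliptic] [DecidableEq K] [IsAlgClosed K]
  [CharZero K] (N : AddSubgroup (W⁄K).Point) [Fintype N] (W2 : WeierstrassCurve S)

theorem mzj_q_Sm_XN : mzj_q_Sm W K 2 (mzj_q_XN W K N) := by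
  rw [mzj_q_XN_eq]
  exact mzj_q_Sm_add mzj_q_Sm_x (mzj_q_Sm_mono (by norm_num) (mzj_q_Sm_rN W K N))

theorem mzj_q_Sm_psi : mzj_q_Sm W K 3 (mzj_q_psi W K) := by
  unfold mzj_q_psi
  refine mzj_q_Sm_add (mzj_q_Sm_add ?_ ?_) (mzj_q_Sm_mono (by norm_num) (mzj_q_Sm_const _))
  · exact mzj_q_Sm_mul' (mzj_q_Sm_ofNat 2) mzj_q_Sm_y (by norm_num)
  · exact mzj_q_Sm_mul' (mzj_q_Sm_const _) mzj_q_Sm_x (by norm_num)

theorem mzj_q_Sm_sN' : mzj_q_Sm W K 0 (mzj_q_sN' W K N) := by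
  unfold mzj_q_sN'
  apply mzj_q_Sm_sum
  intro Q _
  apply mzj_q_Sm_add
  · rw [div_eq_mul_inv, ← inv_pow]
    exact mzj_q_Sm_mul' (mzj_q_Sm_const _) (mzj_q_Sm_pow (mzj_q_Sm_inv_x_sub _) 2)
      (by norm_num)
  · rw [div_eq_mul_inv, ← inv_pow]
    exact mzj_q_Sm_mul' (mzj_q_Sm_mul (mzj_q_Sm_ofNat 2) (mzj_q_Sm_const _))
      (mzj_q_Sm_pow (mzj_q_Sm_inv_x_sub _) 3) (by norm_num)

theorem mzj_q_Sm_UpsN : mzj_q_Sm W K 3 (mzj_q_UpsN W K N) := by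
  rw [mzj_q_UpsN_eq]
  refine mzj_q_Sm_mul' (mzj_q_Sm_psi W K) (m' := 0) ?_ (by norm_num)
  refine mzj_q_Sm_add mzj_q_Sm_one (mzj_q_Sm_neg ?_)
  rw [div_eq_mul_inv]
  have h2 : ((2 : mzj_q_FF W K))⁻¹ = algebraMap K _ (1 / 2) := by
    rw [map_div₀, map_one, map_ofNat, one_div]
  rw [h2]
  exact mzj_q_Sm_mul' (mzj_q_Sm_sN' W K N) (mzj_q_Sm_const _) (by norm_num)

theorem mzj_q_Sm_YN : mzj_q_Sm W K 3 (mzj_q_YN W K N) := by
  rw [mzj_q_YN_eq]
  refine mzj_q_Sm_mul' (mzj_q_Sm_const _) (m' := 3) ?_ (by norm_num)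
  refine mzj_q_Sm_sub (mzj_q_Sm_sub (mzj_q_Sm_UpsN W K N) ?_)
    (mzj_q_Sm_mono (by norm_num) (mzj_q_Sm_const _))
  exact mzj_q_Sm_mul' (mzj_q_Sm_const _) (mzj_q_Sm_XN W K N) (by norm_num)

/-- `τ_P x - x(P)` vanishes at infinity for `P ≠ 0`. -/
theorem mzj_q_Sm_tau_x_sub {P : (W⁄K).Point} (hP : P ≠ 0) :
    mzj_q_Sm W K (-1) (mzj_q_tau W K P (mzj_q_x W K) - algebraMap K _ (mzj_q_px W K P)) := by
  obtain ⟨e, he, -, h2⟩ := mzj_q_transport W K hP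
  exact Or.inr (by rw [h2.2]; omega)

/-- The evaluation of `X_N` at a point: `∑_{Q ∈ N} x(P + Q) - ∑_{Q ∈ N∖0} x(Q)`. -/
noncomputable def mzj_q_XNat (P₀ : (W⁄K).Point) : K :=
  ∑ Q : N, mzj_q_px W K (P₀ + (Q : (W⁄K).Point)) - mzj_q_c0 W K N

theorem mzj_q_Sm_tau_XN_sub {P₀ : (W⁄K).Point} (hP : P₀ ∉ N) :
    mzj_q_Sm W K (-1)
      (mzj_q_tau W K P₀ (mzj_q_XN W K N) - algebraMap K _ (mzj_q_XNat W K N P₀)) := by
  have h1 : mzj_q_tau W K P₀ (mzj_q_XN W K N) - algebraMap K _ (mzj_q_XNat W K N P₀) =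
      ∑ Q : N, (mzj_q_tau W K (P₀ + (Q : (W⁄K).Point)) (mzj_q_x W K) -
        algebraMap K _ (mzj_q_px W K (P₀ + (Q : (W⁄K).Point)))) := by
    rw [mzj_q_tau_XN_eq, mzj_q_XNat, map_sub, map_sum, Finset.sum_sub_distrib]
    ring
  rw [h1]
  apply mzj_q_Sm_sum
  intro Q _
  apply mzj_q_Sm_tau_x_sub
  intro h2
  apply hP
  have h3 : P₀ = -(Q : (W⁄K).Point) := eq_neg_of_add_eq_zero_left h2
  rw [h3]
  exact N.neg_mem Q.2

variable {W K N W2}

/-- **The `x`-coordinate of `φ(P)`** for `P ∉ N`. -/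
theorem mzj_q_isog_x (h : mzj_q_IsCod W K N W2) {P₀ : (W⁄K).Point} (hP : P₀ ∉ N) :
    ∃ (d : K) (hcd : (W2⁄K).toAffine.Nonsingular (mzj_q_XNat W K N P₀) d),
      mzj_q_isog h P₀ = Point.some (mzj_q_XNat W K N P₀) d hcd := by
  rcases hφ : mzj_q_isog h P₀ with _ | ⟨c, d, hcd⟩
  · exact absurd ((mzj_q_isog_eq_zero_iff h P₀).mp hφ) hP
  suffices hc : c = mzj_q_XNat W K N P₀ by
    subst hc
    exact ⟨d, hcd, rfl⟩
  have hne : mzj_q_XN W K N ≠ algebraMap K _ c := sub_ne_zero.mp (mzj_q_D_XN_sub W K N c).1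
  have h1 := mzj_q_map_tau_gen2' h P₀
  rw [hφ, mzj_q_cst2_some] at h1
  unfold mzj_q_gen2 at h1
  rw [Point.map_some, Point.add_of_X_ne hne] at h1
  have h2 := (Point.some.inj h1).1
  rw [Affine.slope_of_X_ne hne] at h2
  simp only [Affine.addX, mzj_q_bc_a₁, mzj_q_bc_a₂] at h2
  -- the Weierstrass equation of `g'`
  have e₁ := (mzj_q_bc_equation_iff W K W2 _ _).mp (mzj_q_cod_nonsingular h).1
  have hF2 := mzj_q_F2 (algebraMap K (mzj_q_FF W K) (W2⁄K).a₁) (algebraMap K _ (W2⁄K).a₂)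
    (algebraMap K _ (W2⁄K).a₃) (algebraMap K _ (W2⁄K).a₄) (algebraMap K _ (W2⁄K).a₆)
    (mzj_q_XN W K N) (mzj_q_YN W K N) (algebraMap K _ c) (algebraMap K _ d) e₁
    (mzj_q_D_XN_sub W K N c).1
  rw [← h2] at hF2
  -- the right hand side has a pole of order at most `3`
  have hR : mzj_q_Sm W K 3
      ((algebraMap K (mzj_q_FF W K) (W2⁄K).a₄ - algebraMap K _ (W2⁄K).a₁ * algebraMap K _ d +
          algebraMap K _ c ^ 2 + 2 * algebraMap K _ (W2⁄K).a₂ * algebraMap K _ c +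
          2 * algebraMap K _ c * algebraMap K _ c) * mzj_q_XN W K N +
        (algebraMap K _ (W2⁄K).a₆ + algebraMap K _ d ^ 2 +
          algebraMap K _ (W2⁄K).a₁ * algebraMap K _ c * algebraMap K _ d -
          (algebraMap K _ (W2⁄K).a₂ + algebraMap K _ c + algebraMap K _ c) *
            algebraMap K _ c ^ 2) -
        (2 * algebraMap K _ d + algebraMap K _ (W2⁄K).a₁ * algebraMap K _ c +
          algebraMap K _ (W2⁄K).a₃) * mzj_q_YN W K N) := by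
    have e1 : algebraMap K (mzj_q_FF W K) (W2⁄K).a₄ -
        algebraMap K _ (W2⁄K).a₁ * algebraMap K _ d +
        algebraMap K _ c ^ 2 + 2 * algebraMap K _ (W2⁄K).a₂ * algebraMap K _ c +
        2 * algebraMap K _ c * algebraMap K _ c =
        algebraMap K _ ((W2⁄K).a₄ - (W2⁄K).a₁ * d + c ^ 2 + 2 * (W2⁄K).a₂ * c + 2 * c * c) := by
      simp only [map_add, map_sub, map_mul, map_pow, map_ofNat]
    have e2 : algebraMap K (mzj_q_FF W K) (W2⁄K).a₆ + algebraMap K _ d ^ 2 +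
        algebraMap K _ (W2⁄K).a₁ * algebraMap K _ c * algebraMap K _ d -
        (algebraMap K _ (W2⁄K).a₂ + algebraMap K _ c + algebraMap K _ c) *
          algebraMap K _ c ^ 2 =
        algebraMap K _ ((W2⁄K).a₆ + d ^ 2 + (W2⁄K).a₁ * c * d -
          ((W2⁄K).a₂ + c + c) * c ^ 2) := by
      simp only [map_add, map_sub, map_mul, map_pow, map_ofNat]
    have e3 : 2 * algebraMap K (mzj_q_FF W K) d +
        algebraMap K _ (W2⁄K).a₁ * algebraMap K _ c + algebraMap K _ (W2⁄K).a₃ =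
        algebraMap K _ (2 * d + (W2⁄K).a₁ * c + (W2⁄K).a₃) := by
      simp only [map_add, map_sub, map_mul, map_pow, map_ofNat]
    rw [e1, e2, e3]
    refine mzj_q_Sm_sub (mzj_q_Sm_add ?_ ?_) ?_
    · exact mzj_q_Sm_mul' (mzj_q_Sm_const _) (mzj_q_Sm_XN W K N) (by norm_num)
    · exact mzj_q_Sm_mono (by norm_num) (mzj_q_Sm_const _)
    · exact mzj_q_Sm_mul' (mzj_q_Sm_const _) (mzj_q_Sm_YN W K N) (by norm_num)
  rw [← hF2] at hR
  -- divide by `(X_N - c)²`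
  have hD := mzj_q_D_XN_sub W K N c
  have hsq : mzj_q_Sm W K (-4) (((mzj_q_XN W K N - algebraMap K _ c) ^ 2)⁻¹) := by
    refine Or.inr ?_
    rw [mzj_q_D_inv W K (pow_ne_zero 2 hD.1), mzj_q_D_pow W K hD.1, hD.2]
    norm_num
  have h3 : mzj_q_Sm W K (-1)
      (mzj_q_tau W K P₀ (mzj_q_XN W K N) - algebraMap K _ c) := by
    have := mzj_q_Sm_mul' hR hsq (n := -1) (by norm_num)
    rwa [mul_assoc, mul_inv_cancel₀ (pow_ne_zero 2 hD.1), mul_one] at this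
  have h4 := mzj_q_Sm_sub (mzj_q_Sm_tau_XN_sub W K N hP) h3
  have h5 : mzj_q_tau W K P₀ (mzj_q_XN W K N) - algebraMap K _ (mzj_q_XNat W K N P₀) -
      (mzj_q_tau W K P₀ (mzj_q_XN W K N) - algebraMap K _ c) =
      algebraMap K _ (c - mzj_q_XNat W K N P₀) := by
    rw [map_sub]; ring
  rw [h5] at h4
  have h6 := mzj_q_const_eq_zero_of_Sm (by norm_num) h4
  exact sub_eq_zero.mp h6

variable (W K N)

/-- The pairing identity at `K`-points. -/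
theorem mzj_q_pair_pt {x y a b : K} (hP : (W⁄K).toAffine.Nonsingular x y)
    (hQ : (W⁄K).toAffine.Nonsingular a b) (hx : x ≠ a) :
    mzj_q_px W K (Point.some x y hP + Point.some a b hQ) +
      mzj_q_px W K (Point.some x y hP - Point.some a b hQ) - 2 * a =
    mzj_q_tP W K (Point.some a b hQ) / (x - a) +
      mzj_q_uP W K (Point.some a b hQ) / (x - a) ^ 2 := by
  have e1 := (Affine.equation_iff x y).1 hP.1
  have e2 := (Affine.equation_iff a b).1 hQ.1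
  have hd : x - a ≠ 0 := sub_ne_zero.2 hx
  rw [show Point.some x y hP - Point.some a b hQ = Point.some x y hP + -Point.some a b hQ from
    sub_eq_add_neg _ _, Point.neg_some, Point.add_of_X_ne hx, Point.add_of_X_ne hx]
  have h1 := mzj_q_F1 (W⁄K).a₁ (W⁄K).a₂ (W⁄K).a₃ (W⁄K).a₄ (W⁄K).a₆ x y a b e1 e2 hd
  simp only [mzj_q_px, mzj_q_tP, mzj_q_uP, Affine.addX, Affine.slope_of_X_ne hx, Affine.negY,
    WeierstrassCurve.b₂, WeierstrassCurve.b₄, WeierstrassCurve.b₆]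
  linear_combination h1

theorem mzj_q_x_ne_of_not_mem {x y : K} (hP : (W⁄K).toAffine.Nonsingular x y)
    (hPN : Point.some x y hP ∉ N) {Q : N} (hQ : Q ∈ mzj_q_Nz W K N) :
    x ≠ mzj_q_px W K (Q : (W⁄K).Point) := by
  have hQ0 := mzj_q_coe_ne_zero W K N hQ
  rcases hQe : (Q : (W⁄K).Point) with _ | ⟨a, b, hab⟩
  · exact absurd hQe hQ0
  · intro hx
    apply hPN
    rcases (Point.X_eq_iff (h₁ := hP) (h₂ := hab)).mp hx with h1 | h1
    · rw [h1, ← hQe]; exact Q.2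
    · rw [h1, ← hQe]; exact N.neg_mem Q.2

/-- **Vélu's rational function**: the evaluation of `X_N` at a point outside `N`. -/
theorem mzj_q_XNat_eq {x y : K} (hP : (W⁄K).toAffine.Nonsingular x y)
    (hPN : Point.some x y hP ∉ N) :
    mzj_q_XNat W K N (Point.some x y hP) = x +
      (∑ Q ∈ mzj_q_Nz W K N,
        (mzj_q_tP W K (Q : (W⁄K).Point) / (x - mzj_q_px W K (Q : (W⁄K).Point)) +
          mzj_q_uP W K (Q : (W⁄K).Point) / (x - mzj_q_px W K (Q : (W⁄K).Point)) ^ 2)) / 2 := by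
  set P₀ : (W⁄K).Point := Point.some x y hP with hP₀
  -- split off `Q = 0`
  have h1 : ∑ Q : N, mzj_q_px W K (P₀ + (Q : (W⁄K).Point)) =
      x + ∑ Q ∈ mzj_q_Nz W K N, mzj_q_px W K (P₀ + (Q : (W⁄K).Point)) := by
    unfold mzj_q_Nz
    rw [← Finset.add_sum_erase Finset.univ (fun Q : N => mzj_q_px W K (P₀ + (Q : (W⁄K).Point)))
      (Finset.mem_univ (0 : N)), AddSubgroup.coe_zero, add_zero]
    rfl
  -- reindex by negation
  have h2 : ∑ Q ∈ mzj_q_Nz W K N, mzj_q_px W K (P₀ + (Q : (W⁄K).Point)) =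
      ∑ Q ∈ mzj_q_Nz W K N, mzj_q_px W K (P₀ - (Q : (W⁄K).Point)) := by
    apply Finset.sum_equiv (Equiv.neg N)
    · intro Q
      rw [mzj_q_mem_Nz, mzj_q_mem_Nz, Equiv.neg_apply, neg_ne_zero]
    · intro Q _
      rw [Equiv.neg_apply, AddSubgroup.coe_neg, sub_neg_eq_add]
  -- the pairing identity
  have h3 : ∑ Q ∈ mzj_q_Nz W K N, (mzj_q_px W K (P₀ + (Q : (W⁄K).Point)) +
        mzj_q_px W K (P₀ - (Q : (W⁄K).Point)) - 2 * mzj_q_px W K (Q : (W⁄K).Point)) =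
      ∑ Q ∈ mzj_q_Nz W K N,
        (mzj_q_tP W K (Q : (W⁄K).Point) / (x - mzj_q_px W K (Q : (W⁄K).Point)) +
          mzj_q_uP W K (Q : (W⁄K).Point) / (x - mzj_q_px W K (Q : (W⁄K).Point)) ^ 2) := by
    apply Finset.sum_congr rfl
    intro Q hQ
    have hne := mzj_q_x_ne_of_not_mem W K N hP hPN hQ
    have hQ0 := mzj_q_coe_ne_zero W K N hQ
    rcases hQe : (Q : (W⁄K).Point) with _ | ⟨a, b, hab⟩
    · exact absurd hQe hQ0
    · rw [hQe] at hne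
      exact mzj_q_pair_pt W K hP hab hne
  rw [← h3, Finset.sum_sub_distrib, Finset.sum_add_distrib, ← h2, ← Finset.mul_sum]
  unfold mzj_q_XNat
  rw [h1]
  unfold mzj_q_c0
  ring

end Fermat.Agent.MZ
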