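import Mathlib
import Fermat.Prelude.Def_FLTPrelim_GaloisRep
import Fermat.Agent.MZ.J.Quot.Isog

/-!
# [MZ-J] / [J-QUOT]: the semilinear action of `Aut(K/S)` on the function field

For `σ : K ≃ₐ[S] K` and `W` over `S`: the ring automorphism `σ_F` of `K(E)` acting by `σ` on
the constants and fixing `x`, `y`; `σ_F ∘ τ_P = τ_{σ P} ∘ σ_F`.
-/

set_option autoImplicit false
set_option linter.unusedSectionVars false
set_option linter.unusedSimpArgs false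

namespace Fermat.Agent.MZ

open WeierstrassCurve WeierstrassCurve.Affine Polynomial
open Fermat.Agent.S58

open scoped Polynomial.Bivariate

variable {S : Type*} [CommRing S] (W : WeierstrassCurve S)
  (K : Type*) [Field K] [Algebra S K]

section ring

variable (σ : K →+* K)

/-- `K[X] → R`, acting by `σ` on the coefficients. -/
noncomputable def mzj_q_sgP : K[X] →+* mzj_q_R W K :=
  (algebraMap K[X] (mzj_q_R W K)).comp (Polynomial.mapRingHom σ)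

theorem mzj_q_sg_aux (hσ : ∀ s : S, σ (algebraMap S K s) = algebraMap S K s) :
    (W⁄K).toAffine.polynomial.eval₂ (mzj_q_sgP W K σ) (CoordinateRing.mk _ Y) = 0 := by
  have h0 : CoordinateRing.mk (W⁄K).toAffine (W⁄K).toAffine.polynomial = 0 := AdjoinRoot.mk_self
  have ha₁ : σ (W⁄K).a₁ = (W⁄K).a₁ := hσ W.a₁
  have ha₂ : σ (W⁄K).a₂ = (W⁄K).a₂ := hσ W.a₂
  have ha₃ : σ (W⁄K).a₃ = (W⁄K).a₃ := hσ W.a₃
  have ha₄ : σ (W⁄K).a₄ = (W⁄K).a₄ := hσ W.a₄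
  have ha₆ : σ (W⁄K).a₆ = (W⁄K).a₆ := hσ W.a₆
  simp only [Affine.polynomial, eval₂_sub, eval₂_add, eval₂_mul, eval₂_pow, eval₂_X, eval₂_C,
    mzj_q_sgP, RingHom.comp_apply, Polynomial.coe_mapRingHom, Polynomial.map_add,
    Polynomial.map_mul, Polynomial.map_pow, Polynomial.map_C, Polynomial.map_X, ha₁, ha₂, ha₃,
    ha₄, ha₆]
  have e1 : ∀ p : K[X], algebraMap K[X] (mzj_q_R W K) p = CoordinateRing.mk _ (C p) :=
    fun _ => rfl
  rw [e1, e1]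
  simp only [Affine.polynomial, map_sub, map_add, map_mul, map_pow] at h0 ⊢
  exact h0

variable (hσ : ∀ s : S, σ (algebraMap S K s) = algebraMap S K s)

/-- The semilinear endomorphism of the coordinate ring. -/
noncomputable def mzj_q_sgR : mzj_q_R W K →+* mzj_q_R W K :=
  AdjoinRoot.lift (mzj_q_sgP W K σ) (CoordinateRing.mk _ Y) (mzj_q_sg_aux W K σ hσ)

theorem mzj_q_sgR_C (p : K[X]) :
    mzj_q_sgR W K σ hσ (CoordinateRing.mk _ (C p)) =
      algebraMap K[X] (mzj_q_R W K) (p.map σ) := by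
  unfold mzj_q_sgR CoordinateRing.mk
  rw [AdjoinRoot.lift_mk, eval₂_C]
  rfl

theorem mzj_q_sgR_const (c : K) :
    mzj_q_sgR W K σ hσ (CoordinateRing.mk _ (C (C c))) = CoordinateRing.mk _ (C (C (σ c))) := by
  rw [mzj_q_sgR_C, Polynomial.map_C]
  rfl

theorem mzj_q_sgR_X :
    mzj_q_sgR W K σ hσ (CoordinateRing.mk _ (C X)) = CoordinateRing.mk _ (C X) := by
  rw [mzj_q_sgR_C, Polynomial.map_X]
  rfl

theorem mzj_q_sgR_Y :
    mzj_q_sgR W K σ hσ (CoordinateRing.mk _ Y) = CoordinateRing.mk _ Y := by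
  unfold mzj_q_sgR CoordinateRing.mk
  rw [AdjoinRoot.lift_mk, eval₂_X]

end ring

theorem mzj_q_sgR_comp (σ σ' : K →+* K)
    (hσ : ∀ s : S, σ (algebraMap S K s) = algebraMap S K s)
    (hσ' : ∀ s : S, σ' (algebraMap S K s) = algebraMap S K s) (h : ∀ c, σ' (σ c) = c)
    (z : mzj_q_R W K) : mzj_q_sgR W K σ' hσ' (mzj_q_sgR W K σ hσ z) = z := by
  have h1 : (mzj_q_sgR W K σ' hσ').comp (mzj_q_sgR W K σ hσ) = RingHom.id _ := by
    apply mzj_q_R_ringHom_ext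
    · intro c
      show mzj_q_sgR W K σ' hσ' (mzj_q_sgR W K σ hσ _) = _
      rw [mzj_q_sgR_const, mzj_q_sgR_const, h]
      rfl
    · show mzj_q_sgR W K σ' hσ' (mzj_q_sgR W K σ hσ _) = _
      rw [mzj_q_sgR_X, mzj_q_sgR_X]
      rfl
    · show mzj_q_sgR W K σ' hσ' (mzj_q_sgR W K σ hσ _) = _
      rw [mzj_q_sgR_Y, mzj_q_sgR_Y]
      rfl
  exact congrArg (fun f : mzj_q_R W K →+* mzj_q_R W K => f z) h1

section equiv

variable (σ : K ≃ₐ[S] K)

theorem mzj_q_sg_fix (s : S) : (σ : K →+* K) (algebraMap S K s) = algebraMap S K s :=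
  σ.commutes s

theorem mzj_q_sg_fix' (s : S) : (σ.symm : K →+* K) (algebraMap S K s) = algebraMap S K s :=
  σ.symm.commutes s

/-- `R → FF`, semilinear. -/
noncomputable def mzj_q_sgRF : mzj_q_R W K →+* mzj_q_FF W K :=
  (algebraMap (mzj_q_R W K) (mzj_q_FF W K)).comp
    (mzj_q_sgR W K (σ : K →+* K) (mzj_q_sg_fix K σ))

theorem mzj_q_sgRF_injective : Function.Injective (mzj_q_sgRF W K σ) := by
  intro a b hab
  have h1 : mzj_q_sgR W K (σ : K →+* K) (mzj_q_sg_fix K σ) a =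
      mzj_q_sgR W K (σ : K →+* K) (mzj_q_sg_fix K σ) b :=
    IsFractionRing.injective (mzj_q_R W K) (mzj_q_FF W K) hab
  have h2 := congrArg (mzj_q_sgR W K (σ.symm : K →+* K) (mzj_q_sg_fix' K σ)) h1
  rwa [mzj_q_sgR_comp W K _ _ _ _ (fun c => σ.symm_apply_apply c),
    mzj_q_sgR_comp W K _ _ _ _ (fun c => σ.symm_apply_apply c)] at h2

/-- **The semilinear action** of `σ` on the function field. -/
noncomputable def mzj_q_sgF : mzj_q_FF W K →+* mzj_q_FF W K :=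
  IsFractionRing.lift (mzj_q_sgRF_injective W K σ)

theorem mzj_q_sgF_algebraMap (z : mzj_q_R W K) :
    mzj_q_sgF W K σ (algebraMap (mzj_q_R W K) (mzj_q_FF W K) z) =
      algebraMap (mzj_q_R W K) (mzj_q_FF W K)
        (mzj_q_sgR W K (σ : K →+* K) (mzj_q_sg_fix K σ) z) :=
  IsFractionRing.lift_algebraMap _ z

theorem mzj_q_sgF_const (c : K) :
    mzj_q_sgF W K σ (algebraMap K (mzj_q_FF W K) c) = algebraMap K (mzj_q_FF W K) (σ c) := by
  rw [← mzj_q_algebraMap_const, mzj_q_sgF_algebraMap, mzj_q_sgR_const, mzj_q_algebraMap_const]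
  rfl

theorem mzj_q_sgF_x : mzj_q_sgF W K σ (mzj_q_x W K) = mzj_q_x W K := by
  rw [mzj_q_x_eq, mzj_q_sgF_algebraMap, mzj_q_sgR_X]

theorem mzj_q_sgF_y : mzj_q_sgF W K σ (mzj_q_y W K) = mzj_q_y W K := by
  unfold mzj_q_y
  rw [mzj_q_sgF_algebraMap, mzj_q_sgR_Y]

theorem mzj_q_sgF_base (s : S) :
    mzj_q_sgF W K σ (algebraMap K (mzj_q_FF W K) (algebraMap S K s)) =
      algebraMap K (mzj_q_FF W K) (algebraMap S K s) := by
  rw [mzj_q_sgF_const, σ.commutes]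

end equiv

section tau

variable [W.IsElliptic] [DecidableEq K] [IsAlgClosed K] (σ : K ≃ₐ[S] K)

theorem mzj_q_sgF_a₁ : mzj_q_sgF W K σ (algebraMap K _ (W⁄K).a₁) = algebraMap K _ (W⁄K).a₁ :=
  mzj_q_sgF_base W K σ W.a₁

theorem mzj_q_sgF_a₂ : mzj_q_sgF W K σ (algebraMap K _ (W⁄K).a₂) = algebraMap K _ (W⁄K).a₂ :=
  mzj_q_sgF_base W K σ W.a₂

theorem mzj_q_sgF_a₃ : mzj_q_sgF W K σ (algebraMap K _ (W⁄K).a₃) = algebraMap K _ (W⁄K).a₃ :=
  mzj_q_sgF_base W K σ W.a₃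

omit [W.IsElliptic] [DecidableEq K] [IsAlgClosed K] in
theorem mzj_q_sig_a₁ : σ (W⁄K).a₁ = (W⁄K).a₁ := σ.commutes W.a₁

omit [W.IsElliptic] [DecidableEq K] [IsAlgClosed K] in
theorem mzj_q_sig_a₂ : σ (W⁄K).a₂ = (W⁄K).a₂ := σ.commutes W.a₂

omit [W.IsElliptic] [DecidableEq K] [IsAlgClosed K] in
theorem mzj_q_sig_a₃ : σ (W⁄K).a₃ = (W⁄K).a₃ := σ.commutes W.a₃

omit [W.IsElliptic] [DecidableEq K] [IsAlgClosed K] in
theorem mzj_q_sig_a₄ : σ (W⁄K).a₄ = (W⁄K).a₄ := σ.commutes W.a₄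

omit [W.IsElliptic] [DecidableEq K] [IsAlgClosed K] in
theorem mzj_q_sig_a₆ : σ (W⁄K).a₆ = (W⁄K).a₆ := σ.commutes W.a₆

theorem mzj_q_sgF_sl (a b : K) :
    mzj_q_sgF W K σ (mzj_q_sl W K a b) = mzj_q_sl W K (σ a) (σ b) := by
  unfold mzj_q_sl
  rw [map_div₀, map_sub, map_sub, mzj_q_sgF_y, mzj_q_sgF_x, mzj_q_sgF_const, mzj_q_sgF_const]

theorem mzj_q_sgF_xi (a b : K) :
    mzj_q_sgF W K σ (mzj_q_xi W K a b) = mzj_q_xi W K (σ a) (σ b) := by
  unfold mzj_q_xi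
  simp only [map_sub, map_add, map_mul, map_pow, mzj_q_sgF_sl, mzj_q_sgF_x, mzj_q_sgF_a₁,
    mzj_q_sgF_a₂, mzj_q_sgF_const, mzj_q_sig_a₁, mzj_q_sig_a₂]

theorem mzj_q_sgF_eta (a b : K) :
    mzj_q_sgF W K σ (mzj_q_eta W K a b) = mzj_q_eta W K (σ a) (σ b) := by
  unfold mzj_q_eta
  simp only [map_sub, map_add, map_mul, map_neg, mzj_q_sgF_sl, mzj_q_sgF_xi, mzj_q_sgF_x,
    mzj_q_sgF_y, mzj_q_sgF_a₁, mzj_q_sgF_a₃, mzj_q_sgF_const, mzj_q_sig_a₁, mzj_q_sig_a₃]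

theorem mzj_q_smul_some {a b : K} (h : (W⁄K).toAffine.Nonsingular a b) :
    σ • (Point.some a b h : (W⁄K).Point) =
      Point.some (σ a) (σ b)
        ((Affine.baseChange_nonsingular (W := W) (f := σ.toAlgHom) σ.toAlgHom.injective a b).mpr
          h) := rfl

/-- **Semilinearity of translations**: `σ_F ∘ τ_P = τ_{σ P} ∘ σ_F`. -/
theorem mzj_q_sgF_tau (P : (W⁄K).Point) (z : mzj_q_FF W K) :
    mzj_q_sgF W K σ (mzj_q_tau W K P z) = mzj_q_tau W K (σ • P) (mzj_q_sgF W K σ z) := by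
  have h := mzj_q_ringHom_ext W K
    ((mzj_q_sgF W K σ).comp (mzj_q_tau W K P : mzj_q_FF W K →+* mzj_q_FF W K))
    ((mzj_q_tau W K (σ • P) : mzj_q_FF W K →+* mzj_q_FF W K).comp (mzj_q_sgF W K σ)) ?_ ?_ ?_
  · exact congrArg (fun f : mzj_q_FF W K →+* mzj_q_FF W K => f z) h
  · intro c
    show mzj_q_sgF W K σ (mzj_q_tau W K P (algebraMap K _ c)) =
      mzj_q_tau W K (σ • P) (mzj_q_sgF W K σ (algebraMap K _ c))
    rw [AlgHom.commutes, mzj_q_sgF_const, AlgHom.commutes]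
  · show mzj_q_sgF W K σ (mzj_q_tau W K P (mzj_q_x W K)) =
      mzj_q_tau W K (σ • P) (mzj_q_sgF W K σ (mzj_q_x W K))
    rw [mzj_q_sgF_x]
    rcases P with _ | ⟨a, b, hab⟩
    · have h0 : σ • (Point.zero : (W⁄K).Point) = 0 := rfl
      rw [h0]
      have h1 : (Point.zero : (W⁄K).Point) = 0 := rfl
      rw [h1, mzj_q_tau_zero]
      exact mzj_q_sgF_x W K σ
    · rw [mzj_q_smul_some, mzj_q_tau_some_x, mzj_q_tau_some_x, mzj_q_sgF_xi]
  · show mzj_q_sgF W K σ (mzj_q_tau W K P (mzj_q_y W K)) =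
      mzj_q_tau W K (σ • P) (mzj_q_sgF W K σ (mzj_q_y W K))
    rw [mzj_q_sgF_y]
    rcases P with _ | ⟨a, b, hab⟩
    · have h0 : σ • (Point.zero : (W⁄K).Point) = 0 := rfl
      rw [h0]
      have h1 : (Point.zero : (W⁄K).Point) = 0 := rfl
      rw [h1, mzj_q_tau_zero]
      exact mzj_q_sgF_y W K σ
    · rw [mzj_q_smul_some, mzj_q_tau_some_y, mzj_q_tau_some_y, mzj_q_sgF_eta]

end tau

end Fermat.Agent.MZ
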