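import Mathlib
import Fermat.Agent.MZ.J.Quot.Semi

/-!
# [MZ-J] / [J-QUOT]: Galois equivariance of the quotient isogeny

For `N` stable under `Aut(K/S)`: `σ_F` fixes `X_N`, `Υ_N`, `Y_N`, hence `φ(σ P) = σ φ(P)`;
Vélu's `v`, `w` are fixed by `Aut(K/S)`.
-/

set_option autoImplicit false
set_option linter.unusedSectionVars false
set_option linter.unusedSimpArgs false

namespace Fermat.Agent.MZ

open WeierstrassCurve WeierstrassCurve.Affine Polynomial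
open Fermat.Agent.S58

open scoped Polynomial.Bivariate

variable {S : Type*} [CommRing S] (W : WeierstrassCurve S)
  (K : Type*) [Field K] [Algebra S K] [W.IsElliptic] [DecidableEq K] [IsAlgClosed K]
  (N : AddSubgroup (W⁄K).Point) [Fintype N]
  (hN : ∀ σ : K ≃ₐ[S] K, ∀ P ∈ N, σ • P ∈ N)

include hN

/-- The permutation of `N` induced by `σ`. -/
noncomputable def mzj_q_smulEquiv (σ : K ≃ₐ[S] K) : N ≃ N where
  toFun Q := ⟨σ • (Q : (W⁄K).Point), hN σ Q Q.2⟩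
  invFun Q := ⟨σ⁻¹ • (Q : (W⁄K).Point), hN σ⁻¹ Q Q.2⟩
  left_inv Q := Subtype.ext (inv_smul_smul σ _)
  right_inv Q := Subtype.ext (smul_inv_smul σ _)

theorem mzj_q_smulEquiv_coe (σ : K ≃ₐ[S] K) (Q : N) :
    ((mzj_q_smulEquiv W K N hN σ Q : N) : (W⁄K).Point) = σ • (Q : (W⁄K).Point) := rfl

theorem mzj_q_smulEquiv_mem_Nz (σ : K ≃ₐ[S] K) (Q : N) :
    Q ∈ mzj_q_Nz W K N ↔ mzj_q_smulEquiv W K N hN σ Q ∈ mzj_q_Nz W K N := by
  rw [mzj_q_mem_Nz, mzj_q_mem_Nz]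
  constructor
  · intro h h0
    apply h
    have h1 := congrArg (fun Q : N => (Q : (W⁄K).Point)) h0
    simp only [mzj_q_smulEquiv_coe, AddSubgroup.coe_zero] at h1
    exact Subtype.ext ((smul_eq_zero_iff_eq σ).mp h1)
  · intro h h0
    apply h
    apply Subtype.ext
    rw [mzj_q_smulEquiv_coe, h0, AddSubgroup.coe_zero, smul_zero]

/-- Reindexing sums over `N ∖ 0` by `σ`. -/
theorem mzj_q_sum_Nz_smul (σ : K ≃ₐ[S] K) {M : Type*} [AddCommMonoid M]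
    (f : (W⁄K).Point → M) :
    ∑ Q ∈ mzj_q_Nz W K N, f (σ • (Q : (W⁄K).Point)) =
      ∑ Q ∈ mzj_q_Nz W K N, f (Q : (W⁄K).Point) :=
  Finset.sum_equiv (mzj_q_smulEquiv W K N hN σ) (fun Q => mzj_q_smulEquiv_mem_Nz W K N hN σ Q)
    (fun _ _ => rfl)

/-- Reindexing sums over `N` by `σ`. -/
theorem mzj_q_sum_N_smul (σ : K ≃ₐ[S] K) {M : Type*} [AddCommMonoid M]
    (f : (W⁄K).Point → M) :
    ∑ Q : N, f (σ • (Q : (W⁄K).Point)) = ∑ Q : N, f (Q : (W⁄K).Point) :=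
  Fintype.sum_equiv (mzj_q_smulEquiv W K N hN σ) _ _ (fun _ => rfl)

omit [W.IsElliptic] [IsAlgClosed K] [Fintype N] hN in
theorem mzj_q_px_smul (σ : K ≃ₐ[S] K) (P : (W⁄K).Point) :
    mzj_q_px W K (σ • P) = σ (mzj_q_px W K P) := by
  rcases P with _ | ⟨a, b, h⟩
  · exact (map_zero σ).symm
  · rfl

omit [W.IsElliptic] [DecidableEq K] [IsAlgClosed K] [Fintype N] hN in
theorem mzj_q_sig_b₂ (σ : K ≃ₐ[S] K) : σ (W⁄K).b₂ = (W⁄K).b₂ := by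
  simp only [WeierstrassCurve.b₂, map_add, map_mul, map_pow, map_ofNat, mzj_q_sig_a₁,
    mzj_q_sig_a₂]

omit [W.IsElliptic] [DecidableEq K] [IsAlgClosed K] [Fintype N] hN in
theorem mzj_q_sig_b₄ (σ : K ≃ₐ[S] K) : σ (W⁄K).b₄ = (W⁄K).b₄ := by
  simp only [WeierstrassCurve.b₄, map_add, map_mul, map_pow, map_ofNat, mzj_q_sig_a₁,
    mzj_q_sig_a₃, mzj_q_sig_a₄]

omit [W.IsElliptic] [DecidableEq K] [IsAlgClosed K] [Fintype N] hN in
theorem mzj_q_sig_b₆ (σ : K ≃ₐ[S] K) : σ (W⁄K).b₆ = (W⁄K).b₆ := by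
  simp only [WeierstrassCurve.b₆, map_add, map_mul, map_pow, map_ofNat, mzj_q_sig_a₃,
    mzj_q_sig_a₆]

omit [W.IsElliptic] [IsAlgClosed K] [Fintype N] hN in
theorem mzj_q_tP_smul (σ : K ≃ₐ[S] K) (P : (W⁄K).Point) :
    mzj_q_tP W K (σ • P) = σ (mzj_q_tP W K P) := by
  unfold mzj_q_tP
  simp only [mzj_q_px_smul, map_add, map_mul, map_pow, map_ofNat, mzj_q_sig_b₂, mzj_q_sig_b₄]

omit [W.IsElliptic] [IsAlgClosed K] [Fintype N] hN in
theorem mzj_q_uP_smul (σ : K ≃ₐ[S] K) (P : (W⁄K).Point) :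
    mzj_q_uP W K (σ • P) = σ (mzj_q_uP W K P) := by
  unfold mzj_q_uP
  simp only [mzj_q_px_smul, map_add, map_mul, map_pow, map_ofNat, mzj_q_sig_b₂, mzj_q_sig_b₄,
    mzj_q_sig_b₆]

/-- `c₀` is Galois-invariant. -/
theorem mzj_q_sig_c0 (σ : K ≃ₐ[S] K) : σ (mzj_q_c0 W K N) = mzj_q_c0 W K N := by
  unfold mzj_q_c0
  rw [map_sum, ← mzj_q_sum_Nz_smul W K N hN σ (fun P => mzj_q_px W K P)]
  apply Finset.sum_congr rfl
  intro Q _
  rw [mzj_q_px_smul]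

variable [CharZero K]

/-- `v` is Galois-invariant. -/
theorem mzj_q_sig_v (σ : K ≃ₐ[S] K) : σ (mzj_q_v W K N) = mzj_q_v W K N := by
  unfold mzj_q_v
  rw [map_div₀, map_ofNat, map_sum, ← mzj_q_sum_Nz_smul W K N hN σ (fun P => mzj_q_tP W K P)]
  congr 1
  apply Finset.sum_congr rfl
  intro Q _
  rw [mzj_q_tP_smul]

/-- `w` is Galois-invariant. -/
theorem mzj_q_sig_w (σ : K ≃ₐ[S] K) : σ (mzj_q_w W K N) = mzj_q_w W K N := by
  unfold mzj_q_w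
  rw [map_div₀, map_ofNat, map_sum, ← mzj_q_sum_Nz_smul W K N hN σ
    (fun P => mzj_q_uP W K P + mzj_q_px W K P * mzj_q_tP W K P)]
  congr 1
  apply Finset.sum_congr rfl
  intro Q _
  rw [mzj_q_uP_smul, mzj_q_tP_smul, mzj_q_px_smul, map_add, map_mul]

/-- `σ_F X_N = X_N`. -/
theorem mzj_q_sgF_XN (σ : K ≃ₐ[S] K) :
    mzj_q_sgF W K σ (mzj_q_XN W K N) = mzj_q_XN W K N := by
  unfold mzj_q_XN
  rw [map_sub, map_sum, mzj_q_sgF_const, mzj_q_sig_c0 W K N hN]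
  congr 1
  rw [← mzj_q_sum_N_smul W K N hN σ (fun P => mzj_q_tau W K P (mzj_q_x W K))]
  apply Finset.sum_congr rfl
  intro Q _
  rw [mzj_q_sgF_tau, mzj_q_sgF_x]

omit hN in
theorem mzj_q_UpsN_eq_sum : mzj_q_UpsN W K N =
    ∑ Q : N, mzj_q_tau W K (Q : (W⁄K).Point) (mzj_q_psi W K) := by
  unfold mzj_q_UpsN mzj_q_XN
  rw [map_sub, map_sum, Derivation.map_algebraMap, sub_zero]
  apply Finset.sum_congr rfl
  intro Q _
  rw [mzj_q_der_tau, mzj_q_der_x]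

omit [W.IsElliptic] [DecidableEq K] [IsAlgClosed K] [CharZero K] [Fintype N] hN in
theorem mzj_q_sgF_psi (σ : K ≃ₐ[S] K) :
    mzj_q_sgF W K σ (mzj_q_psi W K) = mzj_q_psi W K := by
  unfold mzj_q_psi
  simp only [map_add, map_mul, map_ofNat, mzj_q_sgF_x, mzj_q_sgF_y, mzj_q_sgF_const,
    mzj_q_sig_a₁, mzj_q_sig_a₃]

/-- `σ_F Υ_N = Υ_N`. -/
theorem mzj_q_sgF_UpsN (σ : K ≃ₐ[S] K) :
    mzj_q_sgF W K σ (mzj_q_UpsN W K N) = mzj_q_UpsN W K N := by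
  rw [mzj_q_UpsN_eq_sum, map_sum,
    ← mzj_q_sum_N_smul W K N hN σ (fun P => mzj_q_tau W K P (mzj_q_psi W K))]
  apply Finset.sum_congr rfl
  intro Q _
  rw [mzj_q_sgF_tau, mzj_q_sgF_psi]

/-- `σ_F Y_N = Y_N`. -/
theorem mzj_q_sgF_YN (σ : K ≃ₐ[S] K) :
    mzj_q_sgF W K σ (mzj_q_YN W K N) = mzj_q_YN W K N := by
  unfold mzj_q_YN
  rw [map_div₀, map_sub, map_sub, map_mul, map_ofNat, mzj_q_sgF_UpsN W K N hN,
    mzj_q_sgF_XN W K N hN, mzj_q_sgF_const, mzj_q_sgF_const, mzj_q_sig_a₁, mzj_q_sig_a₃]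

variable (W2 : WeierstrassCurve S)

omit [W.IsElliptic] [DecidableEq K] [IsAlgClosed K] [CharZero K] [Fintype N] hN in
theorem mzj_q_sgF_algebraMap_base (σ : K ≃ₐ[S] K) (s : S) :
    mzj_q_sgF W K σ (algebraMap S (mzj_q_FF W K) s) = algebraMap S (mzj_q_FF W K) s := by
  rw [IsScalarTower.algebraMap_apply S K (mzj_q_FF W K), mzj_q_sgF_base]

/-- `σ_F` as an `S`-algebra endomorphism. -/
noncomputable def mzj_q_sgA (σ : K ≃ₐ[S] K) : mzj_q_FF W K →ₐ[S] mzj_q_FF W K :=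
  { mzj_q_sgF W K σ with
    commutes' := fun s => mzj_q_sgF_algebraMap_base W K σ s }

omit [W.IsElliptic] [DecidableEq K] [IsAlgClosed K] [CharZero K] [Fintype N] hN in
theorem mzj_q_sgA_apply (σ : K ≃ₐ[S] K) (z : mzj_q_FF W K) :
    mzj_q_sgA W K σ z = mzj_q_sgF W K σ z := rfl

omit [W.IsElliptic] [IsAlgClosed K] [CharZero K] [Fintype N] hN in
theorem mzj_q_map_sgA_cst2 (σ : K ≃ₐ[S] K) (R : (W2⁄K).Point) :
    Point.map (W' := W2) (mzj_q_sgA W K σ) (mzj_q_cst2 W K W2 R) =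
      mzj_q_cst2 W K W2 (σ • R) := by
  rcases R with _ | ⟨c, d, hcd⟩
  · rfl
  · exact mzj_q_some_congr (mzj_q_sgF_const W K σ c) (mzj_q_sgF_const W K σ d) _ _

omit [CharZero K] [Fintype N] hN in
theorem mzj_q_map_sgA_tau (σ : K ≃ₐ[S] K) (P : (W⁄K).Point)
    (T : (W2⁄(mzj_q_FF W K)).Point) :
    Point.map (W' := W2) (mzj_q_sgA W K σ) (Point.map (W' := W2) (mzj_q_tau W K P) T) =
      Point.map (W' := W2) (mzj_q_tau W K (σ • P))
        (Point.map (W' := W2) (mzj_q_sgA W K σ) T) := by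
  rcases T with _ | ⟨u, v, huv⟩
  · rfl
  · exact mzj_q_some_congr (mzj_q_sgF_tau W K σ P u) (mzj_q_sgF_tau W K σ P v) _ _

variable {W2}

theorem mzj_q_map_sgA_gen2 (h : mzj_q_IsCod W K N W2) (σ : K ≃ₐ[S] K) :
    Point.map (W' := W2) (mzj_q_sgA W K σ) (mzj_q_gen2 h) = mzj_q_gen2 h := by
  unfold mzj_q_gen2
  exact mzj_q_some_congr (mzj_q_sgF_XN W K N hN σ) (mzj_q_sgF_YN W K N hN σ) _ _

/-- **Galois equivariance of the quotient isogeny.** -/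
theorem mzj_q_isog_smul (h : mzj_q_IsCod W K N W2) (σ : K ≃ₐ[S] K) (P : (W⁄K).Point) :
    mzj_q_isog h (σ • P) = σ • mzj_q_isog h P := by
  apply mzj_q_cst2_injective W K W2
  rw [← mzj_q_map_sgA_cst2, mzj_q_isog_apply, mzj_q_isog_apply, mzj_q_isogFun_spec,
    mzj_q_isogFun_spec, map_sub, mzj_q_map_sgA_tau, mzj_q_map_sgA_gen2 W K N hN h σ]

end Fermat.Agent.MZ
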