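import Mathlib
import Fermat.Agent.MZ.J.Quot.Eval
import Fermat.Agent.MZ.J.Quot.Half
import Fermat.Agent.MZ.J.Quot.Disc

/-!
# [MZ-J] / [J-QUOT]: the quotient isogeny is surjective on `K`-points (`K` algebraically closed,
`|N|` odd)

`x + ∑_{ξ ∈ Sx} (t_ξ/(x - ξ) + u_ξ/(x - ξ)²) = X₀` has a solution `x ∉ Sx` because, after clearing
denominators, it is a monic polynomial equation of degree `2|Sx| + 1` none of whose roots lies
in `Sx` (as `u_ξ ≠ 0`).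
-/

set_option autoImplicit false
set_option linter.unusedSectionVars false
set_option linter.unusedSimpArgs false

namespace Fermat.Agent.MZ

open WeierstrassCurve WeierstrassCurve.Affine Polynomial

/-- A rational function `x + ∑ (t_ξ/(x - ξ) + u_ξ/(x - ξ)²)` with `u_ξ ≠ 0` takes every value
outside its poles, over an algebraically closed field. -/
theorem mzj_q_exists_root_frac {K : Type*} [Field K] [IsAlgClosed K] [DecidableEq K]
    (s : Finset K) (t u : K → K) (hu : ∀ ξ ∈ s, u ξ ≠ 0) (X₀ : K) :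
    ∃ x₀ : K, x₀ ∉ s ∧ x₀ + ∑ ξ ∈ s, (t ξ / (x₀ - ξ) + u ξ / (x₀ - ξ) ^ 2) = X₀ := by
  set m := s.card with hm
  set hh : K[X] := ∏ ξ ∈ s, (X - C ξ) with hhh
  set A₀ : K[X] := (X - C X₀) * hh ^ 2 with hA₀
  set A₁ : K[X] := ∑ ξ ∈ s, (C (t ξ) * X + C (u ξ - t ξ * ξ)) *
    (∏ ξ' ∈ s.erase ξ, (X - C ξ')) ^ 2 with hA₁
  have hhmonic : hh.Monic := monic_prod_of_monic _ _ (fun ξ _ => monic_X_sub_C ξ)
  have hhdeg : hh.natDegree = m := by
    rw [hhh, natDegree_prod_of_monic _ _ (fun ξ _ => monic_X_sub_C ξ)]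
    simp [hm]
  have hA₀monic : A₀.Monic := (monic_X_sub_C X₀).mul (hhmonic.pow 2)
  have hA₀deg : A₀.natDegree = 2 * m + 1 := by
    rw [hA₀, (monic_X_sub_C X₀).natDegree_mul (hhmonic.pow 2), natDegree_X_sub_C,
      hhmonic.natDegree_pow, hhdeg]
    ring
  have hA₁deg : A₁.natDegree ≤ 2 * m := by
    apply natDegree_sum_le_of_forall_le
    intro ξ hξ
    have hg : (∏ ξ' ∈ s.erase ξ, (X - C ξ') : K[X]).natDegree = m - 1 := by
      rw [natDegree_prod_of_monic _ _ (fun ξ' _ => monic_X_sub_C ξ')]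
      simp [hm, Finset.card_erase_of_mem hξ]
    have hmpos : 1 ≤ m := Finset.card_pos.mpr ⟨ξ, hξ⟩
    calc ((C (t ξ) * X + C (u ξ - t ξ * ξ)) * (∏ ξ' ∈ s.erase ξ, (X - C ξ')) ^ 2).natDegree
        ≤ (C (t ξ) * X + C (u ξ - t ξ * ξ)).natDegree +
          ((∏ ξ' ∈ s.erase ξ, (X - C ξ')) ^ 2).natDegree := natDegree_mul_le
      _ ≤ 1 + 2 * (m - 1) := by
          apply add_le_add natDegree_linear_le
          calc ((∏ ξ' ∈ s.erase ξ, (X - C ξ') : K[X]) ^ 2).natDegree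
              ≤ 2 * (∏ ξ' ∈ s.erase ξ, (X - C ξ') : K[X]).natDegree := natDegree_pow_le
            _ = 2 * (m - 1) := by rw [hg]
      _ ≤ 2 * m := by omega
  have hlt : A₁.degree < A₀.degree := by
    rw [degree_eq_natDegree hA₀monic.ne_zero, hA₀deg]
    refine lt_of_le_of_lt degree_le_natDegree ?_
    exact_mod_cast Nat.lt_succ_of_le hA₁deg
  have hdeg : (A₀ + A₁).degree ≠ 0 := by
    rw [degree_add_eq_left_of_degree_lt hlt, degree_eq_natDegree hA₀monic.ne_zero, hA₀deg]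
    exact_mod_cast Nat.succ_ne_zero (2 * m)
  obtain ⟨x₀, hx₀⟩ := IsAlgClosed.exists_root (A₀ + A₁) hdeg
  rw [IsRoot.def, eval_add, hA₀, hA₁, eval_mul, eval_pow, eval_sub, eval_X, eval_C, hhh,
    eval_prod, eval_finsetSum] at hx₀
  simp only [eval_mul, eval_pow, eval_add, eval_sub, eval_X, eval_C, eval_prod] at hx₀
  have hmem : x₀ ∉ s := by
    intro hx₀s
    have h1 : ∏ ξ ∈ s, (x₀ - ξ) = 0 := Finset.prod_eq_zero hx₀s (sub_self x₀)
    rw [h1, Finset.sum_eq_single x₀] at hx₀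
    · have h2 : ∏ ξ' ∈ s.erase x₀, (x₀ - ξ') ≠ 0 := by
        rw [Finset.prod_ne_zero_iff]
        intro ξ' hξ'
        exact sub_ne_zero.mpr (Finset.ne_of_mem_erase hξ').symm
      have h3 : u x₀ * (∏ ξ' ∈ s.erase x₀, (x₀ - ξ')) ^ 2 = 0 := by
        linear_combination hx₀
      rcases mul_eq_zero.mp h3 with h4 | h4
      · exact hu x₀ hx₀s h4
      · exact h2 ((pow_eq_zero_iff (two_ne_zero)).mp h4)
    · intro ξ hξ hne
      have : ∏ ξ' ∈ s.erase ξ, (x₀ - ξ') = 0 :=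
        Finset.prod_eq_zero (Finset.mem_erase.mpr ⟨hne.symm, hx₀s⟩) (sub_self x₀)
      rw [this]
      ring
    · intro h; exact absurd hx₀s h
  refine ⟨x₀, hmem, ?_⟩
  have hne : ∀ ξ ∈ s, x₀ - ξ ≠ 0 := fun ξ hξ => sub_ne_zero.mpr (fun h => hmem (h ▸ hξ))
  have hH : ∏ ξ ∈ s, (x₀ - ξ) ≠ 0 := Finset.prod_ne_zero_iff.mpr hne
  have h5 : ∑ ξ ∈ s, (t ξ * x₀ + (u ξ - t ξ * ξ)) * (∏ ξ' ∈ s.erase ξ, (x₀ - ξ')) ^ 2 =
      (∏ ξ ∈ s, (x₀ - ξ)) ^ 2 * ∑ ξ ∈ s, (t ξ / (x₀ - ξ) + u ξ / (x₀ - ξ) ^ 2) := by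
    rw [Finset.mul_sum]
    apply Finset.sum_congr rfl
    intro ξ hξ
    have h6 : ∏ ξ ∈ s, (x₀ - ξ) = (x₀ - ξ) * ∏ ξ' ∈ s.erase ξ, (x₀ - ξ') :=
      (Finset.mul_prod_erase s (fun ξ => x₀ - ξ) hξ).symm
    rw [h6]
    have := hne ξ hξ
    field_simp
    ring
  rw [h5] at hx₀
  have h7 : (∏ ξ ∈ s, (x₀ - ξ)) ^ 2 *
      (x₀ + ∑ ξ ∈ s, (t ξ / (x₀ - ξ) + u ξ / (x₀ - ξ) ^ 2) - X₀) = 0 := by
    linear_combination hx₀
  rcases mul_eq_zero.mp h7 with h8 | h8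
  · exact absurd ((pow_eq_zero_iff (two_ne_zero)).mp h8) hH
  · exact sub_eq_zero.mp h8

variable {S : Type*} [CommRing S] {W : WeierstrassCurve S}
  {K : Type*} [Field K] [Algebra S K] [W.IsElliptic] [DecidableEq K] [IsAlgClosed K]
  [CharZero K] {N : AddSubgroup (W⁄K).Point} [Fintype N] {W2 : WeierstrassCurve S}

/-- Over an algebraically closed field every `x` is the `x`-coordinate of a point. -/
theorem mzj_q_exists_point_x (x₀ : K) : ∃ y₀ : K, (W⁄K).toAffine.Nonsingular x₀ y₀ := by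
  have hdeg : (C (1 : K) * X ^ 2 + C ((W⁄K).a₁ * x₀ + (W⁄K).a₃) * X +
      C (-(x₀ ^ 3 + (W⁄K).a₂ * x₀ ^ 2 + (W⁄K).a₄ * x₀ + (W⁄K).a₆))).degree ≠ 0 := by
    rw [degree_quadratic one_ne_zero]
    norm_num
  obtain ⟨y₀, hy₀⟩ := IsAlgClosed.exists_root _ hdeg
  rw [IsRoot.def] at hy₀
  simp only [eval_add, eval_mul, eval_pow, eval_C, eval_X] at hy₀
  refine ⟨y₀, (Affine.equation_iff_nonsingular).mp ?_⟩
  rw [Affine.equation_iff]
  linear_combination hy₀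

/-- Vélu's `u` does not vanish on `Sx` when `|N|` is odd. -/
theorem mzj_q_u_ne_zero (hodd : Odd (Fintype.card N)) {ξ : K} (hξ : ξ ∈ mzj_q_Sx W K N) :
    4 * ξ ^ 3 + (W⁄K).b₂ * ξ ^ 2 + 2 * (W⁄K).b₄ * ξ + (W⁄K).b₆ ≠ 0 := by
  obtain ⟨y, h, hN⟩ := (mzj_q_mem_Sx W K N).mp hξ
  intro h0
  rw [← mzj_q_psi_sq_pt (W⁄K).toAffine h.1] at h0
  have h1 : 2 * y + (W⁄K).a₁ * ξ + (W⁄K).a₃ = 0 := (pow_eq_zero_iff two_ne_zero).mp h0
  have h2 : (Point.some ξ y h : (W⁄K).Point) = -Point.some ξ y h := by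
    rw [Point.neg_some]
    apply mzj_q_some_congr rfl
    simp only [Affine.negY]
    linear_combination h1
  exact mzj_q_not_mem_of_two_torsion hodd (Point.some_ne_zero _) h2 hN

/-- **The quotient isogeny is surjective.** -/
theorem mzj_q_isog_surjective (hodd : Odd (Fintype.card N)) (h : mzj_q_IsCod W K N W2) :
    Function.Surjective (mzj_q_isog h) := by
  intro R
  rcases R with _ | ⟨X₀, Y₀, hR⟩
  · exact ⟨0, map_zero _⟩
  obtain ⟨x₀, hx₀, hval⟩ := mzj_q_exists_root_frac (mzj_q_Sx W K N)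
    (fun ξ => 6 * ξ ^ 2 + (W⁄K).b₂ * ξ + (W⁄K).b₄)
    (fun ξ => 4 * ξ ^ 3 + (W⁄K).b₂ * ξ ^ 2 + 2 * (W⁄K).b₄ * ξ + (W⁄K).b₆)
    (fun ξ hξ => mzj_q_u_ne_zero hodd hξ) X₀
  obtain ⟨y₀, hP⟩ := mzj_q_exists_point_x (W := W) x₀
  have hPN : (Point.some x₀ y₀ hP : (W⁄K).Point) ∉ N := by
    intro hN
    exact hx₀ ((mzj_q_mem_Sx W K N).mpr ⟨y₀, hP, hN⟩)
  obtain ⟨d, hcd, hφ⟩ := mzj_q_isog_x h hPN
  have hX : mzj_q_XNat W K N (Point.some x₀ y₀ hP) = X₀ := by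
    rw [mzj_q_XNat_eq W K N hP hPN, mzj_q_sum_frac_eq hodd]
    exact hval
  rcases (Point.X_eq_iff (h₁ := hcd) (h₂ := hR)).mp hX with h1 | h1
  · exact ⟨Point.some x₀ y₀ hP, hφ.trans h1⟩
  · refine ⟨-Point.some x₀ y₀ hP, ?_⟩
    rw [map_neg, hφ, h1, neg_neg]

end Fermat.Agent.MZ
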