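import Mathlib
import Fermat.Agent.MZ.J.Quot.Galois
import Fermat.Agent.MZ.J.Quot.Surj

/-!
# [MZ-J] / [J-QUOT]: Vélu's quotient of an elliptic curve over `ℚ` by a finite Galois-stable
subgroup of odd order (algebraic route, final assembly)
-/

set_option autoImplicit false
set_option linter.unusedSectionVars false
set_option linter.unusedSimpArgs false

namespace Fermat.Agent.MZ

open WeierstrassCurve WeierstrassCurve.Affine

/-- **Vélu's quotient over `ℚ`.**  For `E/ℚ` elliptic and `N ⊆ E(ℚ̄)` a finite Galois-stable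
subgroup of odd order: an elliptic curve `E'/ℚ` with Vélu's coefficients, a surjective
Galois-equivariant homomorphism `φ : E(ℚ̄) → E'(ℚ̄)` with kernel `N`, and Vélu's formula for
`x(φ P)`. -/
theorem mzj_q_main (E : WeierstrassCurve ℚ) (hΔ : E.Δ ≠ 0)
    (N : AddSubgroup (E⁄(AlgebraicClosure ℚ)).Point) [Finite N] (hodd : Odd (Nat.card N))
    (hN : ∀ σ : AlgebraicClosure ℚ ≃ₐ[ℚ] AlgebraicClosure ℚ, ∀ P ∈ N, σ • P ∈ N) :
    ∃ (E' : WeierstrassCurve ℚ)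
      (φ : (E⁄(AlgebraicClosure ℚ)).Point →+ (E'⁄(AlgebraicClosure ℚ)).Point)
      (Sx : Finset (AlgebraicClosure ℚ)),
      E'.Δ ≠ 0 ∧ Function.Surjective φ ∧ φ.ker = N ∧
      (∀ (σ : AlgebraicClosure ℚ ≃ₐ[ℚ] AlgebraicClosure ℚ)
        (P : (E⁄(AlgebraicClosure ℚ)).Point), φ (σ • P) = σ • φ P) ∧
      E'.a₁ = E.a₁ ∧ E'.a₂ = E.a₂ ∧ E'.a₃ = E.a₃ ∧
      (∀ ξ : AlgebraicClosure ℚ, ξ ∈ Sx ↔
        ∃ (y : AlgebraicClosure ℚ) (h : (E⁄(AlgebraicClosure ℚ)).toAffine.Nonsingular ξ y),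
          Point.some ξ y h ∈ N) ∧
      2 * Sx.card + 1 = Nat.card N ∧
      algebraMap ℚ (AlgebraicClosure ℚ) E'.a₄ = algebraMap ℚ (AlgebraicClosure ℚ) E.a₄ -
        5 * ∑ ξ ∈ Sx, (6 * ξ ^ 2 + algebraMap ℚ (AlgebraicClosure ℚ) E.b₂ * ξ +
          algebraMap ℚ (AlgebraicClosure ℚ) E.b₄) ∧
      algebraMap ℚ (AlgebraicClosure ℚ) E'.a₆ = algebraMap ℚ (AlgebraicClosure ℚ) E.a₆ -
        algebraMap ℚ (AlgebraicClosure ℚ) E.b₂ *
          ∑ ξ ∈ Sx, (6 * ξ ^ 2 + algebraMap ℚ (AlgebraicClosure ℚ) E.b₂ * ξ +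
            algebraMap ℚ (AlgebraicClosure ℚ) E.b₄) -
        7 * ∑ ξ ∈ Sx, ((4 * ξ ^ 3 + algebraMap ℚ (AlgebraicClosure ℚ) E.b₂ * ξ ^ 2 +
            2 * algebraMap ℚ (AlgebraicClosure ℚ) E.b₄ * ξ +
            algebraMap ℚ (AlgebraicClosure ℚ) E.b₆) +
          ξ * (6 * ξ ^ 2 + algebraMap ℚ (AlgebraicClosure ℚ) E.b₂ * ξ +
            algebraMap ℚ (AlgebraicClosure ℚ) E.b₄)) ∧
      ∀ (x y : AlgebraicClosure ℚ) (h : (E⁄(AlgebraicClosure ℚ)).toAffine.Nonsingular x y),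
        Point.some x y h ∉ N →
        ∃ (Y : AlgebraicClosure ℚ) (h' : (E'⁄(AlgebraicClosure ℚ)).toAffine.Nonsingular
          (x + ∑ ξ ∈ Sx, ((6 * ξ ^ 2 + algebraMap ℚ (AlgebraicClosure ℚ) E.b₂ * ξ +
              algebraMap ℚ (AlgebraicClosure ℚ) E.b₄) / (x - ξ) +
            (4 * ξ ^ 3 + algebraMap ℚ (AlgebraicClosure ℚ) E.b₂ * ξ ^ 2 +
              2 * algebraMap ℚ (AlgebraicClosure ℚ) E.b₄ * ξ +
              algebraMap ℚ (AlgebraicClosure ℚ) E.b₆) / (x - ξ) ^ 2)) Y),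
          φ (Point.some x y h) = Point.some _ Y h' := by
  classical
  haveI : E.IsElliptic := ⟨isUnit_iff_ne_zero.mpr hΔ⟩
  letI : Fintype N := Fintype.ofFinite N
  have hodd' : Odd (Fintype.card N) := by rwa [← Nat.card_eq_fintype_card]
  -- `v`, `w` are rational
  haveI : IsAlgClosure ℚ (AlgebraicClosure ℚ) := ⟨inferInstance, AlgebraicClosure.isAlgebraic ℚ⟩
  haveI : Normal ℚ (AlgebraicClosure ℚ) := IsAlgClosure.normal ℚ (AlgebraicClosure ℚ)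
  haveI : IsGalois ℚ (AlgebraicClosure ℚ) := ⟨⟩
  obtain ⟨qv, hqv⟩ := (InfiniteGalois.mem_range_algebraMap_iff_fixed (k := ℚ)
    (K := AlgebraicClosure ℚ) (mzj_q_v E (AlgebraicClosure ℚ) N)).mpr
    (fun σ => mzj_q_sig_v E (AlgebraicClosure ℚ) N hN σ)
  obtain ⟨qw, hqw⟩ := (InfiniteGalois.mem_range_algebraMap_iff_fixed (k := ℚ)
    (K := AlgebraicClosure ℚ) (mzj_q_w E (AlgebraicClosure ℚ) N)).mpr
    (fun σ => mzj_q_sig_w E (AlgebraicClosure ℚ) N hN σ)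
  have hb₂ : (E⁄(AlgebraicClosure ℚ)).b₂ = algebraMap ℚ (AlgebraicClosure ℚ) E.b₂ :=
    WeierstrassCurve.map_b₂ E _
  have hb₄ : (E⁄(AlgebraicClosure ℚ)).b₄ = algebraMap ℚ (AlgebraicClosure ℚ) E.b₄ :=
    WeierstrassCurve.map_b₄ E _
  have hb₆ : (E⁄(AlgebraicClosure ℚ)).b₆ = algebraMap ℚ (AlgebraicClosure ℚ) E.b₆ :=
    WeierstrassCurve.map_b₆ E _
  set E' : WeierstrassCurve ℚ :=
    ⟨E.a₁, E.a₂, E.a₃, E.a₄ - 5 * qv, E.a₆ - E.b₂ * qv - 7 * qw⟩ with hE'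
  have hcod : mzj_q_IsCod E (AlgebraicClosure ℚ) N E' := by
    refine ⟨rfl, rfl, rfl, ?_, ?_⟩
    · show algebraMap ℚ (AlgebraicClosure ℚ) (E.a₄ - 5 * qv) = _
      rw [map_sub, map_mul, map_ofNat, hqv]
      rfl
    · show algebraMap ℚ (AlgebraicClosure ℚ) (E.a₆ - E.b₂ * qv - 7 * qw) = _
      rw [map_sub, map_sub, map_mul, map_mul, map_ofNat, hqv, hqw, hb₂]
      rfl
  refine ⟨E', mzj_q_isog hcod, mzj_q_Sx E (AlgebraicClosure ℚ) N, ?_, ?_, ?_, ?_, rfl, rfl, rfl,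
    ?_, ?_, ?_, ?_, ?_⟩
  · intro h0
    apply mzj_q_cod_Delta_ne_zero hodd' hcod
    show (E'.map (algebraMap ℚ (AlgebraicClosure ℚ))).Δ = 0
    rw [WeierstrassCurve.map_Δ, h0, map_zero]
  · exact mzj_q_isog_surjective hodd' hcod
  · exact mzj_q_isog_ker hcod
  · intro σ P
    exact mzj_q_isog_smul E (AlgebraicClosure ℚ) N hN hcod σ P
  · intro ξ
    exact mzj_q_mem_Sx E (AlgebraicClosure ℚ) N
  · rw [mzj_q_card_Sx hodd', Nat.card_eq_fintype_card]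
  · show algebraMap ℚ (AlgebraicClosure ℚ) (E.a₄ - 5 * qv) = _
    rw [map_sub, map_mul, map_ofNat, hqv, mzj_q_v_eq hodd', hb₂, hb₄]
  · show algebraMap ℚ (AlgebraicClosure ℚ) (E.a₆ - E.b₂ * qv - 7 * qw) = _
    rw [map_sub, map_sub, map_mul, map_mul, map_ofNat, hqv, hqw, mzj_q_v_eq hodd',
      mzj_q_w_eq hodd', hb₂, hb₄, hb₆]
  · intro x y h hPN
    obtain ⟨d, hcd, hφ⟩ := mzj_q_isog_x hcod hPN
    have e : mzj_q_XNat E (AlgebraicClosure ℚ) N (Point.some x y h) =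
        x + ∑ ξ ∈ mzj_q_Sx E (AlgebraicClosure ℚ) N,
          ((6 * ξ ^ 2 + algebraMap ℚ (AlgebraicClosure ℚ) E.b₂ * ξ +
              algebraMap ℚ (AlgebraicClosure ℚ) E.b₄) / (x - ξ) +
            (4 * ξ ^ 3 + algebraMap ℚ (AlgebraicClosure ℚ) E.b₂ * ξ ^ 2 +
              2 * algebraMap ℚ (AlgebraicClosure ℚ) E.b₄ * ξ +
              algebraMap ℚ (AlgebraicClosure ℚ) E.b₆) / (x - ξ) ^ 2) := by
      rw [mzj_q_XNat_eq E (AlgebraicClosure ℚ) N h hPN, mzj_q_sum_frac_eq hodd', hb₂, hb₄, hb₆]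
    exact ⟨d, e ▸ hcd, hφ.trans (mzj_q_some_congr e rfl _ _)⟩

end Fermat.Agent.MZ
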