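import Mathlib
import Fermat.Agent.MZ.J.SeamsQ
import Fermat.Agent.MZ.J.Quot.Main

/-!
# [MZ-J] / [J-QUOT]: `mzj_Velu_stmt` of `MZ/J/SeamsQ.lean` (algebraic route, helper18)
-/

set_option autoImplicit false

namespace Fermat.Agent.MZ

open WeierstrassCurve WeierstrassCurve.Affine Fermat.Agent.S58

/-- **[J-QUOT]**: Vélu's quotient with its explicit model. -/
theorem mzj_q_velu : mzj_Velu_stmt := by
  intro E hΔ p hp hp2 N hcard hN
  haveI : Finite N := Nat.finite_of_card_ne_zero (by rw [hcard]; exact hp.ne_zero)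
  have hodd : Odd (Nat.card N) := by rw [hcard]; exact hp.odd_of_ne_two hp2
  obtain ⟨E', φ, Sx, h1, h2, h3, h4, h5, h6, h7, h8, -, h10, h11, h12⟩ :=
    mzj_q_main E hΔ N hodd hN
  exact ⟨E', φ, Sx, h1, h2, h3, h4, h8, h5, h6, h7, h10, h11, h12⟩

end Fermat.Agent.MZ
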